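import Fermat.Agent.S53.Defs

set_option autoImplicit false

open IsLocalRing

namespace Fermat.Agent.S53

namespace Burnside

variable {K : Type*} [Field K]

/-- Cayley-Hamilton for `2 × 2` matrices of trace and determinant zero. -/
theorem sq_eq_zero (X : Matrix (Fin 2) (Fin 2) K) (ht : X.trace = 0) (hd : X.det = 0) :
    X * X = 0 := by
  rw [Matrix.trace_fin_two] at ht
  rw [Matrix.det_fin_two] at hd
  ext i j
  fin_cases i <;> fin_cases j <;> simp [Matrix.mul_apply, Fin.sum_univ_two]
  · linear_combination (X 0 0) * ht - hd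
  · linear_combination (X 0 1) * ht
  · linear_combination (X 1 0) * ht
  · linear_combination (X 1 1) * ht - hd

/-- two vectors killed by a nonzero `2 × 2` matrix are proportional. -/
theorem proportional (C : Matrix (Fin 2) (Fin 2) K) (hC : C ≠ 0) (v w : Fin 2 → K) (hv : v ≠ 0)
    (hCv : C.mulVec v = 0) (hCw : C.mulVec w = 0) : ∃ t : K, w = t • v := by
  have hD : v 0 * w 1 - v 1 * w 0 = 0 := by
    by_contra hD
    apply hC
    ext i j
    have h1 := congrFun hCv i
    have h2 := congrFun hCw i
    simp only [Matrix.mulVec, dotProduct, Fin.sum_univ_two, Pi.zero_apply] at h1 h2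
    have e0 : C i 0 * (v 0 * w 1 - v 1 * w 0) = 0 := by linear_combination (w 1) * h1 - (v 1) * h2
    have e1 : C i 1 * (v 0 * w 1 - v 1 * w 0) = 0 := by linear_combination (v 0) * h2 - (w 0) * h1
    fin_cases j
    · simpa [hD] using e0
    · simpa [hD] using e1
  by_cases h0 : v 0 = 0
  · have h1 : v 1 ≠ 0 := by
      intro h1
      apply hv
      ext i
      fin_cases i
      · exact h0
      · exact h1
    refine ⟨w 1 / v 1, ?_⟩
    ext i
    fin_cases i
    · simp only [Fin.zero_eta, Pi.smul_apply, smul_eq_mul, h0, mul_zero]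
      rw [h0] at hD
      have : v 1 * w 0 = 0 := by linear_combination -hD
      exact (mul_eq_zero.mp this).resolve_left h1
    · simp only [Fin.mk_one, Pi.smul_apply, smul_eq_mul]
      field_simp
  · refine ⟨w 0 / v 0, ?_⟩
    ext i
    fin_cases i
    · simp only [Fin.zero_eta, Pi.smul_apply, smul_eq_mul]
      field_simp
    · simp only [Fin.mk_one, Pi.smul_apply, smul_eq_mul]
      field_simp
      linear_combination hD

/-- the singular case. -/
theorem exists_eigenvector_of_singular {G : Type*} [Group G]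
    (N : G →* Matrix (Fin 2) (Fin 2) K) (C : Matrix (Fin 2) (Fin 2) K) (hC : C ≠ 0)
    (hdet : C.det = 0) (htr : ∀ g, (C * N g).trace = 0) :
    ∃ v : Fin 2 → K, v ≠ 0 ∧ ∀ g, ∃ t : K, (N g).mulVec v = t • v := by
  have key : ∀ g, C * N g * C = 0 := by
    intro g
    have h1 : (N g * C) * (N g * C) = 0 := by
      apply sq_eq_zero
      · rw [Matrix.trace_mul_comm]; exact htr g
      · rw [Matrix.det_mul, hdet, mul_zero]
    have h2 : N g⁻¹ * ((N g * C) * (N g * C)) = C * N g * C := by
      have : N g⁻¹ * N g = 1 := by rw [← map_mul]; simp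
      calc N g⁻¹ * ((N g * C) * (N g * C)) = (N g⁻¹ * N g) * C * N g * C := by
            simp only [Matrix.mul_assoc]
        _ = C * N g * C := by rw [this, Matrix.one_mul]
    rw [← h2, h1, Matrix.mul_zero]
  obtain ⟨j, hj⟩ : ∃ j, C.mulVec (Pi.single j 1) ≠ 0 := by
    by_contra hcon
    simp only [not_exists, not_not] at hcon
    apply hC
    ext i j
    have := congrFun (hcon j) i
    simpa using this
  refine ⟨C.mulVec (Pi.single j 1), hj, fun g => ?_⟩
  apply proportional C hC _ _ hj
  · have := key 1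
    rw [map_one, Matrix.mul_one] at this
    rw [Matrix.mulVec_mulVec, this, Matrix.zero_mulVec]
  · rw [Matrix.mulVec_mulVec, Matrix.mulVec_mulVec, key g, Matrix.zero_mulVec]

/-- **Burnside, `2 × 2` case**, in contrapositive form. -/
theorem exists_eigenvector [IsAlgClosed K] {G : Type*} [Group G]
    (N : G →* Matrix (Fin 2) (Fin 2) K) (C : Matrix (Fin 2) (Fin 2) K) (hC : C ≠ 0)
    (htr : ∀ g, (C * N g).trace = 0) :
    ∃ v : Fin 2 → K, v ≠ 0 ∧ ∀ g, ∃ t : K, (N g).mulVec v = t • v := by
  by_cases hdet : C.det = 0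
  · exact exists_eigenvector_of_singular N C hC hdet htr
  by_cases hsc : ∀ g, ∃ t : K, N g = t • (1 : Matrix (Fin 2) (Fin 2) K)
  · refine ⟨Pi.single 0 1, ?_, fun g => ?_⟩
    · intro h
      have := congrFun h 0
      simp at this
    · obtain ⟨t, ht⟩ := hsc g
      exact ⟨t, by rw [ht, Matrix.smul_mulVec, Matrix.one_mulVec]⟩
  simp only [not_forall, not_exists] at hsc
  obtain ⟨g₀, hg₀⟩ := hsc
  -- an eigenvalue of `N g₀`
  obtain ⟨l, hl⟩ : ∃ l : K, (N g₀ - l • (1 : Matrix (Fin 2) (Fin 2) K)).det = 0 := by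
    obtain ⟨l, hl⟩ := IsAlgClosed.exists_root (N g₀).charpoly (by
      rw [Matrix.charpoly_degree_eq_dim]; simp)
    refine ⟨l, ?_⟩
    have h := hl
    rw [Polynomial.IsRoot, Matrix.eval_charpoly] at h
    have h2 : N g₀ - l • (1 : Matrix (Fin 2) (Fin 2) K)
        = -(Matrix.scalar (Fin 2) l - N g₀) := by
      rw [Matrix.smul_one_eq_diagonal]
      simp [Matrix.scalar_apply]
    rw [h2, Matrix.det_neg, h, mul_zero]
  apply exists_eigenvector_of_singular N (C * (N g₀ - l • (1 : Matrix (Fin 2) (Fin 2) K)))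
  · intro h
    have hCu : IsUnit C := (Matrix.isUnit_iff_isUnit_det C).mpr (isUnit_iff_ne_zero.mpr hdet)
    have := (hCu.mul_right_eq_zero).mp h
    exact hg₀ l (sub_eq_zero.mp this)
  · rw [Matrix.det_mul, hl, mul_zero]
  · intro g
    have : C * (N g₀ - l • (1 : Matrix (Fin 2) (Fin 2) K)) * N g
        = C * N (g₀ * g) - l • (C * N g) := by
      rw [map_mul, Matrix.mul_sub, Matrix.sub_mul, Matrix.mul_assoc, Matrix.mul_smul,
        Matrix.mul_one, Matrix.smul_mul]
    rw [this, Matrix.trace_sub, Matrix.trace_smul, htr, htr, smul_zero, sub_zero]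

/-- a proper subspace of the matrix algebra is orthogonal to a nonzero matrix for the trace form -/
theorem exists_trace_orthogonal {k : Type*} [Field k]
    (W : Submodule k (Matrix (Fin 2) (Fin 2) k)) (hW : W ≠ ⊤) :
    ∃ C : Matrix (Fin 2) (Fin 2) k, C ≠ 0 ∧ ∀ X ∈ W, (C * X).trace = 0 := by
  obtain ⟨f, hf0, hf⟩ := Submodule.exists_le_ker_of_lt_top W (lt_top_iff_ne_top.mpr hW)
  have hfX : ∀ X : Matrix (Fin 2) (Fin 2) k,
      f X = ((Matrix.of fun i j => f (Matrix.single j i 1)) * X).trace := by
    intro X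
    have this : ∀ i j, f (Matrix.single i j (X i j)) = X i j * f (Matrix.single i j 1) := by
      intro i j
      have : Matrix.single i j (X i j) = X i j • Matrix.single i j (1 : k) := by
        rw [Matrix.smul_single, smul_eq_mul, mul_one]
      rw [this, map_smul, smul_eq_mul]
    have hX : X = ∑ i, ∑ j, Matrix.single i j (X i j) := Matrix.matrix_eq_sum_single X
    calc f X = f (∑ i, ∑ j, Matrix.single i j (X i j)) := by rw [← hX]
      _ = ∑ i, ∑ j, X i j * f (Matrix.single i j 1) := by simp only [map_sum, this]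
      _ = _ := by
        simp only [Matrix.trace_fin_two, Matrix.mul_apply, Fin.sum_univ_two, Matrix.of_apply]
        ring
  refine ⟨Matrix.of fun i j => f (Matrix.single j i 1), ?_, fun X hX => ?_⟩
  · intro h
    apply hf0
    ext X
    rw [hfX X, h, Matrix.zero_mul, Matrix.trace_zero, LinearMap.zero_apply]
  · rw [← hfX X]
    exact hf hX

end Burnside

open Burnside in
/-- **Burnside**: an absolutely irreducible residual representation has a matrix form whose
`k`-linear span is the full matrix algebra. -/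
theorem exists_matrix_form {k : Type} [Field k] (ρbar : ResidualGaloisRep k)
    (habs : ρbar.IsAbsolutelyIrreducible) :
    ∃ (Mbar : GQ →* Matrix (Fin 2) (Fin 2) k) (hf : GaloisFactorsThroughFiniteLevel Mbar),
      ρbar.IsEquiv (ofMatRes Mbar hf) ∧
      Submodule.span k (Set.range Mbar) = ⊤ := by
  classical
  let b : Module.Basis (Fin 2) k ρbar.V := Module.finBasisOfFinrankEq k ρbar.V ρbar.finrank_eq
  let Mbar : GQ →* Matrix (Fin 2) (Fin 2) k :=
    ((LinearMap.toMatrixAlgEquiv b).toAlgHom.toRingHom.toMonoidHom).comp ρbar.ρ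
  have hMbar : ∀ σ, Mbar σ = LinearMap.toMatrix b b (ρbar.ρ σ) := fun σ => rfl
  have hf : GaloisFactorsThroughFiniteLevel Mbar := by
    obtain ⟨L, hL, h⟩ := ρbar.factorsThroughFiniteLevel
    refine ⟨L, hL, fun σ hσ => ?_⟩
    show ((LinearMap.toMatrixAlgEquiv b).toAlgHom.toRingHom.toMonoidHom) (ρbar.ρ σ) = 1
    rw [h σ hσ, map_one]
  refine ⟨Mbar, hf, ⟨⟨b.equivFun, fun σ x => ?_⟩⟩, ?_⟩
  · show b.equivFun (ρbar.ρ σ x) = (Mbar σ).mulVec (b.equivFun x)
    rw [hMbar]
    exact (LinearMap.toMatrix_mulVec_repr b b (ρbar.ρ σ) x).symm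
  · by_contra hspan
    obtain ⟨C, hC0, hC⟩ := exists_trace_orthogonal _ hspan
    let K := AlgebraicClosure k
    let N : GQ →* Matrix (Fin 2) (Fin 2) K := mapM (algebraMap k K) Mbar
    have hCK0 : C.map (algebraMap k K) ≠ 0 := by
      intro h
      apply hC0
      ext i j
      have := congrFun (congrFun h i) j
      simpa using this
    have htr : ∀ σ, (C.map (algebraMap k K) * N σ).trace = 0 := by
      intro σ
      have h := congrArg (algebraMap k K) (hC (Mbar σ) (Submodule.subset_span ⟨σ, rfl⟩))
      simpa [N, Matrix.trace_fin_two, Matrix.mul_apply, Fin.sum_univ_two] using h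
    obtain ⟨v, hv0, hv⟩ := exists_eigenvector N _ hCK0 htr
    let bK : Module.Basis (Fin 2) K (TensorProduct k K ρbar.V) := Algebra.TensorProduct.basis K b
    let x : TensorProduct k K ρbar.V := bK.equivFun.symm v
    have hx0 : x ≠ 0 := by
      intro h
      apply hv0
      have : bK.equivFun x = v := LinearEquiv.apply_symm_apply _ _
      rw [← this, h, map_zero]
    have hstab : ∀ σ, ∃ t : K, (ρbar.baseChange K).ρ σ x = t • x := by
      intro σ
      obtain ⟨t, ht⟩ := hv σ
      refine ⟨t, ?_⟩
      apply bK.equivFun.injective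
      have h1 : bK.equivFun ((ρbar.ρ σ).baseChange K x) =
          (LinearMap.toMatrix bK bK ((ρbar.ρ σ).baseChange K)).mulVec (bK.equivFun x) :=
        (LinearMap.toMatrix_mulVec_repr bK bK _ x).symm
      have h2 : LinearMap.toMatrix bK bK ((ρbar.ρ σ).baseChange K) = N σ :=
        LinearMap.toMatrix_baseChange K (ρbar.ρ σ) b b
      have h3 : bK.equivFun x = v := LinearEquiv.apply_symm_apply _ _
      show bK.equivFun ((ρbar.ρ σ).baseChange K x) = _
      rw [h1, h2, h3, ht, map_smul, h3]
    have hW := habs (Submodule.span K {x}) (by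
      intro σ y hy
      obtain ⟨c, rfl⟩ := Submodule.mem_span_singleton.mp hy
      obtain ⟨t, ht⟩ := hstab σ
      rw [map_smul, ht]
      exact Submodule.smul_mem _ _ (Submodule.smul_mem _ _ (Submodule.mem_span_singleton_self x)))
    rcases hW with hW | hW
    · exact hx0 ((Submodule.span_singleton_eq_bot).mp hW)
    · have h1 : Module.finrank K (Submodule.span K {x}) = 1 := finrank_span_singleton hx0
      rw [hW, finrank_top] at h1
      have h2 : Module.finrank K (TensorProduct k K ρbar.V) = 2 := by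
        rw [Module.finrank_baseChange, ρbar.finrank_eq]
      omega

end Fermat.Agent.S53
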