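import Mathlib

set_option autoImplicit false

namespace Fermat.Agent.S53

open IsLocalRing

theorem map_mem_maximalIdeal_pow {R A : Type*} [CommRing R] [IsLocalRing R] [CommRing A]
    [IsLocalRing A] (φ : R →+* A) (hφ : IsLocalHom φ) (n : ℕ) (r : R)
    (hr : r ∈ maximalIdeal R ^ n) : φ r ∈ maximalIdeal A ^ n := by
  have h1 : Ideal.map φ (maximalIdeal R) ≤ maximalIdeal A := by
    rw [Ideal.map_le_iff_le_comap]
    intro x hx
    exact map_nonunit φ x hx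
  have h2 : φ r ∈ Ideal.map φ (maximalIdeal R ^ n) := Ideal.mem_map_of_mem _ hr
  rw [Ideal.map_pow] at h2
  exact Ideal.pow_right_mono h1 n h2

theorem limit_hom_unique {P R A : Type} [CommRing P] [CommRing R] [IsLocalRing R] [CommRing A]
    [IsLocalRing A] [IsHausdorff (maximalIdeal A) A] (ι : P →+* R)
    (hdense : ∀ (n : ℕ) (r : R), ∃ p : P, r - ι p ∈ maximalIdeal R ^ n)
    (φ φ' : R →+* A) (hφ : IsLocalHom φ) (hφ' : IsLocalHom φ')
    (h : ∀ p, φ (ι p) = φ' (ι p)) : φ = φ' := by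
  ext r
  have hH : IsHausdorff (maximalIdeal A) A := inferInstance
  rw [← sub_eq_zero]
  apply hH.haus'
  intro n
  rw [SModEq.zero, smul_eq_mul, Ideal.mul_top]
  obtain ⟨p, hp⟩ := hdense n r
  have h1 := map_mem_maximalIdeal_pow φ hφ n _ hp
  have h2 := map_mem_maximalIdeal_pow φ' hφ' n _ hp
  rw [map_sub] at h1 h2
  rw [h p] at h1
  have := Ideal.sub_mem _ h1 h2
  simpa using this

section Exists

variable {𝒪 P R A : Type} [CommRing 𝒪] [CommRing P] [Algebra 𝒪 P] [CommRing R] [IsLocalRing R]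
  [Algebra 𝒪 R] [CommRing A] [IsLocalRing A] [Algebra 𝒪 A]

/-- `P → R ⧸ 𝔪^n`. -/
noncomputable def limLevelSrc (ι : P →ₐ[𝒪] R) (n : ℕ) : P →ₐ[𝒪] R ⧸ maximalIdeal R ^ n :=
  (Ideal.Quotient.mkₐ 𝒪 (maximalIdeal R ^ n)).comp ι

theorem limLevelSrc_surjective (ι : P →ₐ[𝒪] R)
    (hdense : ∀ (n : ℕ) (r : R), ∃ p : P, r - ι p ∈ maximalIdeal R ^ n) (n : ℕ) :
    Function.Surjective (limLevelSrc ι n) := by
  intro x
  obtain ⟨r, rfl⟩ := Ideal.Quotient.mk_surjective x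
  obtain ⟨p, hp⟩ := hdense n r
  refine ⟨p, ?_⟩
  rw [limLevelSrc, AlgHom.comp_apply, Ideal.Quotient.mkₐ_eq_mk, Ideal.Quotient.eq]
  have := Ideal.neg_mem_iff _ |>.2 hp
  simpa using this

/-- the level `n` map `R → A ⧸ 𝔪^n`. -/
noncomputable def limLevel (ι : P →ₐ[𝒪] R)
    (hdense : ∀ (n : ℕ) (r : R), ∃ p : P, r - ι p ∈ maximalIdeal R ^ n)
    (e : P →ₐ[𝒪] A)
    (hker : ∀ n : ℕ, (maximalIdeal R ^ n).comap ι ≤ (maximalIdeal A ^ n).comap e) (n : ℕ) :
    R →ₐ[𝒪] A ⧸ maximalIdeal A ^ n :=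
  ((Ideal.Quotient.liftₐ (RingHom.ker (limLevelSrc ι n))
      ((Ideal.Quotient.mkₐ 𝒪 (maximalIdeal A ^ n)).comp e) (by
        intro p hp
        rw [RingHom.mem_ker, limLevelSrc, AlgHom.comp_apply, Ideal.Quotient.mkₐ_eq_mk,
          Ideal.Quotient.eq_zero_iff_mem] at hp
        rw [AlgHom.comp_apply, Ideal.Quotient.mkₐ_eq_mk, Ideal.Quotient.eq_zero_iff_mem]
        exact hker n hp)).comp
    (Ideal.quotientKerAlgEquivOfSurjective (limLevelSrc_surjective ι hdense n)).symm.toAlgHom).comp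
  (Ideal.Quotient.mkₐ 𝒪 (maximalIdeal R ^ n))

theorem limLevel_ι (ι : P →ₐ[𝒪] R)
    (hdense : ∀ (n : ℕ) (r : R), ∃ p : P, r - ι p ∈ maximalIdeal R ^ n)
    (e : P →ₐ[𝒪] A)
    (hker : ∀ n : ℕ, (maximalIdeal R ^ n).comap ι ≤ (maximalIdeal A ^ n).comap e) (n : ℕ) (p : P) :
    limLevel ι hdense e hker n (ι p) = Ideal.Quotient.mk (maximalIdeal A ^ n) (e p) := by
  have h1 : (Ideal.quotientKerAlgEquivOfSurjective (limLevelSrc_surjective ι hdense n)).symm
      (Ideal.Quotient.mk (maximalIdeal R ^ n) (ι p)) =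
      Ideal.Quotient.mk (RingHom.ker (limLevelSrc ι n)) p := by
    rw [AlgEquiv.symm_apply_eq]
    rfl
  simp only [limLevel, AlgHom.comp_apply, Ideal.Quotient.mkₐ_eq_mk]
  erw [h1]
  rfl

theorem limLevel_eq_of_sub_mem (ι : P →ₐ[𝒪] R)
    (hdense : ∀ (n : ℕ) (r : R), ∃ p : P, r - ι p ∈ maximalIdeal R ^ n)
    (e : P →ₐ[𝒪] A)
    (hker : ∀ n : ℕ, (maximalIdeal R ^ n).comap ι ≤ (maximalIdeal A ^ n).comap e) (n : ℕ)
    (r r' : R) (h : r - r' ∈ maximalIdeal R ^ n) :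
    limLevel ι hdense e hker n r = limLevel ι hdense e hker n r' := by
  have : Ideal.Quotient.mk (maximalIdeal R ^ n) r = Ideal.Quotient.mk (maximalIdeal R ^ n) r' :=
    Ideal.Quotient.eq.2 h
  simp only [limLevel, AlgHom.comp_apply, Ideal.Quotient.mkₐ_eq_mk, this]

theorem limit_hom_exists [IsAdicComplete (maximalIdeal A) A] (ι : P →ₐ[𝒪] R)
    (hdense : ∀ (n : ℕ) (r : R), ∃ p : P, r - ι p ∈ maximalIdeal R ^ n)
    (e : P →ₐ[𝒪] A)
    (hker : ∀ n : ℕ, (maximalIdeal R ^ n).comap ι ≤ (maximalIdeal A ^ n).comap e) :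
    ∃ φ : R →ₐ[𝒪] A, (∀ p, φ (ι p) = e p) ∧ IsLocalHom (φ : R →+* A) := by
  have hcompat : ∀ {m n : ℕ} (hle : m ≤ n),
      (Ideal.Quotient.factorₐ 𝒪 (Ideal.pow_le_pow_right hle)).comp (limLevel ι hdense e hker n) =
        limLevel ι hdense e hker m := by
    intro m n hle
    ext r
    obtain ⟨p, hp⟩ := hdense n r
    rw [AlgHom.comp_apply, limLevel_eq_of_sub_mem ι hdense e hker n r (ι p) hp,
      limLevel_eq_of_sub_mem ι hdense e hker m r (ι p) (Ideal.pow_le_pow_right hle hp),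
      limLevel_ι, limLevel_ι, Ideal.Quotient.factorₐ_apply_mk]
  set φ := IsAdicComplete.liftAlgHom (maximalIdeal A) (limLevel ι hdense e hker) hcompat with hφ
  have hmk : ∀ n r, Ideal.Quotient.mk (maximalIdeal A ^ n) (φ r) = limLevel ι hdense e hker n r :=
    fun n r => IsAdicComplete.mk_liftAlgHom _ _ hcompat n r
  refine ⟨φ, ?_, ?_⟩
  · intro p
    have hH : IsHausdorff (maximalIdeal A) A := inferInstance
    rw [← sub_eq_zero]
    apply hH.haus'
    intro n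
    rw [SModEq.zero, smul_eq_mul, Ideal.mul_top, ← Ideal.Quotient.eq, hmk, limLevel_ι]
  · constructor
    intro r hr
    by_contra hnu
    have hr1 : r ∈ maximalIdeal R := hnu
    obtain ⟨p, hp⟩ := hdense 1 r
    rw [pow_one] at hp
    have hιp : ι p ∈ maximalIdeal R := by
      have := Ideal.sub_mem _ hr1 hp
      simpa using this
    have hep : e p ∈ maximalIdeal A ^ 1 := hker 1 (by rw [Ideal.mem_comap, pow_one]; exact hιp)
    have h1 := hmk 1 r
    rw [limLevel_eq_of_sub_mem ι hdense e hker 1 r (ι p) (by rw [pow_one]; exact hp), limLevel_ι,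
      Ideal.Quotient.eq] at h1
    have h2 := Ideal.add_mem _ h1 hep
    rw [sub_add_cancel, pow_one] at h2
    exact h2 hr

end Exists

end Fermat.Agent.S53
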