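import Mathlib

set_option autoImplicit false
set_option linter.unusedSectionVars false

namespace Fermat.Agent.S53

open IsLocalRing

section LC

variable {Q : Type*} [CommRing Q] [IsLocalRing Q]
variable {ι : Type*} [Nonempty ι] (K : ι → Ideal Q) (r : ι → ι → Prop)

theorem exists_least_mod (hr : ∀ i j, r i j → K i ≤ K j) (hdir : ∀ i j, ∃ l, r l i ∧ r l j)
    (n : ℕ) [IsArtinianRing (Q ⧸ maximalIdeal Q ^ n)] :
    ∃ i, ∀ j, K i ≤ K j ⊔ maximalIdeal Q ^ n := by
  set mk := Ideal.Quotient.mk (maximalIdeal Q ^ n) with hmk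
  obtain ⟨M, ⟨i, rfl⟩, hmin⟩ := IsArtinian.set_has_minimal
    (R := Q ⧸ maximalIdeal Q ^ n) (M := Q ⧸ maximalIdeal Q ^ n)
    (Set.range fun i => Ideal.map mk (K i)) (Set.range_nonempty _)
  refine ⟨i, fun j => ?_⟩
  obtain ⟨l, hli, hlj⟩ := hdir i j
  have h1 : Ideal.map mk (K l) ≤ Ideal.map mk (K i) := Ideal.map_mono (hr _ _ hli)
  have h2 : Ideal.map mk (K l) = Ideal.map mk (K i) := by
    by_contra hne
    exact hmin _ ⟨l, rfl⟩ (lt_of_le_of_ne h1 hne)
  have h3 : Ideal.map mk (K i) ≤ Ideal.map mk (K j) := h2 ▸ Ideal.map_mono (hr _ _ hlj)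
  have h4 : K i ≤ Ideal.comap mk (Ideal.map mk (K j)) :=
    le_trans Ideal.le_comap_map (Ideal.comap_mono h3)
  rw [Ideal.comap_map_of_surjective mk Ideal.Quotient.mk_surjective] at h4
  have h5 : Ideal.comap mk ⊥ = maximalIdeal Q ^ n := by
    rw [← RingHom.ker_eq_comap_bot, hmk, Ideal.mk_ker]
  rwa [h5] at h4

theorem lin_compact [IsAdicComplete (maximalIdeal Q) Q]
    (hr : ∀ i j, r i j → K i ≤ K j) (hdir : ∀ i j, ∃ l, r l i ∧ r l j)
    (hopen : ∀ i, ∃ n, maximalIdeal Q ^ n ≤ K i)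
    (hart : ∀ n, IsArtinianRing (Q ⧸ maximalIdeal Q ^ n))
    (q : ι → Q) (hq : ∀ i j, r i j → q i - q j ∈ K j) :
    ∃ x, ∀ i, x - q i ∈ K i := by
  have hleast : ∀ n, ∃ i, ∀ j, K i ≤ K j ⊔ maximalIdeal Q ^ n := fun n =>
    haveI := hart n
    exists_least_mod K r hr hdir n
  choose i hi using hleast
  have hdiff : ∀ a b, q a - q b ∈ K a ⊔ K b := by
    intro a b
    obtain ⟨l, hla, hlb⟩ := hdir a b
    have h1 := hq l a hla
    have h2 := hq l b hlb
    have e : q a - q b = (q l - q b) - (q l - q a) := by ring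
    rw [e]
    exact Ideal.sub_mem _ (Ideal.mem_sup_right h2) (Ideal.mem_sup_left h1)
  have step : ∀ n (b : {b : Q // b - q (i n) ∈ K (i n)}),
      ∃ b' : {b : Q // b - q (i (n + 1)) ∈ K (i (n + 1))}, b'.1 - b.1 ∈ maximalIdeal Q ^ n := by
    rintro n ⟨b, hb⟩
    have h1 : q (i (n + 1)) - b ∈ K (i (n + 1)) ⊔ maximalIdeal Q ^ n := by
      have e : q (i (n + 1)) - b = (q (i (n + 1)) - q (i n)) - (b - q (i n)) := by ring
      rw [e]
      have hle : K (i n) ≤ K (i (n + 1)) ⊔ maximalIdeal Q ^ n := hi n (i (n + 1))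
      refine Ideal.sub_mem _ ?_ (hle hb)
      exact (sup_le le_sup_left hle) (hdiff _ _)
    obtain ⟨j, hj, e, he, hje⟩ := Submodule.mem_sup.1 h1
    refine ⟨⟨q (i (n + 1)) - j, by simpa using hj⟩, ?_⟩
    have : q (i (n + 1)) - j - b = e := by linear_combination -hje
    simpa [this] using he
  choose f hf using step
  let B : (n : ℕ) → {b : Q // b - q (i n) ∈ K (i n)} := fun n =>
    Nat.rec ⟨q (i 0), by simp⟩ (fun n b => f n b) n
  have hB : ∀ n, (B (n + 1)).1 - (B n).1 ∈ maximalIdeal Q ^ n := fun n => hf n (B n)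
  have hP : IsPrecomplete (maximalIdeal Q) Q := inferInstance
  have hcauchy : AdicCompletion.IsAdicCauchy (maximalIdeal Q) Q (fun n => (B n).1) := by
    rw [AdicCompletion.isAdicCauchy_iff]
    intro n
    rw [SModEq.sub_mem, smul_eq_mul, Ideal.mul_top]
    have := Ideal.neg_mem_iff _ |>.2 (hB n)
    simpa using this
  obtain ⟨x, hx⟩ := hP.prec' _ hcauchy
  refine ⟨x, fun a => ?_⟩
  obtain ⟨N, hN⟩ := hopen a
  have h1 : x - (B N).1 ∈ K a := by
    have := hx N
    rw [SModEq.sub_mem, smul_eq_mul, Ideal.mul_top] at this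
    have h' := Ideal.neg_mem_iff _ |>.2 this
    exact hN (by simpa using h')
  have hle : K (i N) ≤ K a := le_trans (hi N a) (sup_le le_rfl hN)
  have h2 : (B N).1 - q (i N) ∈ K a := hle (B N).2
  have h3 : q (i N) - q a ∈ K a := (sup_le hle le_rfl) (hdiff _ _)
  have e : x - q a = (x - (B N).1) + ((B N).1 - q (i N)) + (q (i N) - q a) := by ring
  rw [e]
  exact Ideal.add_mem _ (Ideal.add_mem _ h1 h2) h3

theorem chevalley [IsAdicComplete (maximalIdeal Q) Q]
    (hr : ∀ i j, r i j → K i ≤ K j) (hdir : ∀ i j, ∃ l, r l i ∧ r l j)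
    (hopen : ∀ i, ∃ n, maximalIdeal Q ^ n ≤ K i)
    (hart : ∀ n, IsArtinianRing (Q ⧸ maximalIdeal Q ^ n)) (n : ℕ) :
    ∃ i, K i ≤ (⨅ j, K j) ⊔ maximalIdeal Q ^ n := by
  have := hart n
  obtain ⟨i, hi⟩ := exists_least_mod K r hr hdir n
  refine ⟨i, fun x hx => ?_⟩
  have h1 : ∀ j, ∃ y ∈ K j, x - y ∈ maximalIdeal Q ^ n := by
    intro j
    obtain ⟨y, hy, e, he, hye⟩ := Submodule.mem_sup.1 (hi j hx)
    exact ⟨y, hy, by rw [← hye]; simpa using he⟩
  choose y hy hxy using h1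
  obtain ⟨z, hz⟩ := lin_compact (fun j => K j ⊓ maximalIdeal Q ^ n) r
    (fun a b hab => inf_le_inf_right _ (hr a b hab)) hdir
    (fun a => by
      obtain ⟨N, hN⟩ := hopen a
      exact ⟨max N n, le_inf (le_trans (Ideal.pow_le_pow_right (le_max_left _ _)) hN)
        (Ideal.pow_le_pow_right (le_max_right _ _))⟩) hart y
    (fun a b hab => by
      refine ⟨Ideal.sub_mem _ (hr a b hab (hy a)) (hy b), ?_⟩
      have e : y a - y b = (x - y b) - (x - y a) := by ring
      rw [e]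
      exact Ideal.sub_mem _ (hxy b) (hxy a))
  have hzK : z ∈ ⨅ j, K j := by
    rw [Ideal.mem_iInf]
    intro j
    have := Ideal.add_mem _ (hz j).1 (hy j)
    simpa using this
  have hxz : x - z ∈ maximalIdeal Q ^ n := by
    obtain ⟨j⟩ := ‹Nonempty ι›
    have e : x - z = (x - y j) - (z - y j) := by ring
    rw [e]
    exact Ideal.sub_mem _ (hxy j) (hz j).2
  have e : x = z + (x - z) := by ring
  rw [e]
  exact Ideal.add_mem _ (Ideal.mem_sup_left hzK) (Ideal.mem_sup_right hxz)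

end LC

end Fermat.Agent.S53
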