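import Fermat.Agent.S53.PowerSeriesTools
import Fermat.Agent.S53.LinCompact
import Fermat.Prelude.Thm_IsLocalRing_isAdicComplete_of_module_finite

set_option autoImplicit false
set_option linter.unusedSectionVars false

namespace Fermat.Agent.S53

open IsLocalRing MvPowerSeries

theorem isAdicComplete_of_pow_eq_bot {R : Type*} [CommRing R] (I : Ideal R) (n : ℕ)
    (h : I ^ n = ⊥) : IsAdicComplete I R where
  haus' := by
    intro x hx
    have := hx n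
    rw [SModEq.zero, smul_eq_mul, Ideal.mul_top, h] at this
    simpa using this
  prec' := by
    intro f hf
    refine ⟨f n, fun m => ?_⟩
    rcases le_total m n with hmn | hmn
    · exact hf hmn
    · have := hf hmn
      rw [SModEq.sub_mem, smul_eq_mul, Ideal.mul_top, h, Ideal.mem_bot, sub_eq_zero] at this
      rw [this]

section OneJ

variable {𝒪 : Type} [CommRing 𝒪] [IsLocalRing 𝒪]
  {P : Type} [CommRing P] [Algebra 𝒪 P] (𝔪 : Ideal P) [𝔪.IsMaximal]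
  (hsurj : Function.Surjective (fun c : 𝒪 => Ideal.Quotient.mk 𝔪 (algebraMap 𝒪 P c)))
  (J : Ideal P) (hJ : J ≤ 𝔪) (n : ℕ) (hn : 𝔪 ^ n ≤ J)

include hn in
theorem quot_pow_eq_bot : (𝔪.map (Ideal.Quotient.mk J)) ^ n = ⊥ := by
  rw [← Ideal.map_pow, Ideal.map_eq_bot_iff_le_ker, Ideal.mk_ker]
  exact hn

include hJ in
theorem quot_isMaximal : (𝔪.map (Ideal.Quotient.mk J)).IsMaximal := by
  rcases Ideal.map_eq_top_or_isMaximal_of_surjective (Ideal.Quotient.mk J)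
    Ideal.Quotient.mk_surjective (inferInstance : 𝔪.IsMaximal) with h | h
  · exfalso
    have h1 : Ideal.comap (Ideal.Quotient.mk J) (𝔪.map (Ideal.Quotient.mk J)) = ⊤ := by
      rw [h, Ideal.comap_top]
    rw [Ideal.comap_map_of_surjective _ Ideal.Quotient.mk_surjective,
      ← RingHom.ker_eq_comap_bot, Ideal.mk_ker, sup_eq_left.2 hJ] at h1
    exact (inferInstance : 𝔪.IsMaximal).ne_top h1
  · exact h

include hJ hn in
theorem quot_isLocalRing : IsLocalRing (P ⧸ J) := by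
  have := quot_isMaximal 𝔪 J hJ
  have := isAdicComplete_of_pow_eq_bot _ n (quot_pow_eq_bot 𝔪 J n hn)
  exact isLocalRing_of_isAdicComplete_maximal (𝔪.map (Ideal.Quotient.mk J))

theorem quot_maximalIdeal [IsLocalRing (P ⧸ J)] (hJ : J ≤ 𝔪) :
    maximalIdeal (P ⧸ J) = 𝔪.map (Ideal.Quotient.mk J) :=
  (IsLocalRing.eq_maximalIdeal (quot_isMaximal 𝔪 J hJ)).symm

include hsurj in
theorem quot_residue_surjective [IsLocalRing (P ⧸ J)] (hJ : J ≤ 𝔪) :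
    Function.Surjective (residue (P ⧸ J) ∘ algebraMap 𝒪 (P ⧸ J)) := by
  intro x
  obtain ⟨y, rfl⟩ := residue_surjective x
  obtain ⟨p, rfl⟩ := Ideal.Quotient.mk_surjective y
  obtain ⟨c, hc⟩ := hsurj (Ideal.Quotient.mk 𝔪 p)
  refine ⟨c, ?_⟩
  rw [Function.comp_apply, ← sub_eq_zero, ← map_sub, residue_eq_zero_iff, quot_maximalIdeal 𝔪 J hJ]
  have h1 : algebraMap 𝒪 P c - p ∈ 𝔪 := Ideal.Quotient.eq.1 hc
  have h2 := Ideal.mem_map_of_mem (Ideal.Quotient.mk J) h1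
  rwa [map_sub] at h2

include hsurj hJ hn in
theorem exists_Phi {d : ℕ} (g : Fin d → P) (hg : ∀ l, g l ∈ 𝔪)
    (hgen : 𝔪 ≤ J ⊔ Ideal.span (Set.range g)) :
    ∃ Φ : MvPowerSeries (Fin d) 𝒪 →ₐ[𝒪] P ⧸ J,
      (∀ l, Φ (X l) = Ideal.Quotient.mk J (g l)) ∧ Function.Surjective Φ := by
  have hloc := quot_isLocalRing 𝔪 J hJ n hn
  have hcomp := isAdicComplete_of_pow_eq_bot _ n (quot_pow_eq_bot 𝔪 J n hn)
  have hmem : ∀ l, Ideal.Quotient.mk J (g l) ∈ 𝔪.map (Ideal.Quotient.mk J) :=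
    fun l => Ideal.mem_map_of_mem _ (hg l)
  refine ⟨psEval (𝔪.map (Ideal.Quotient.mk J)) (fun l => Ideal.Quotient.mk J (g l)) hmem,
    fun l => psEval_X _ _ _ l, ?_⟩
  set Φ := psEval (𝒪 := 𝒪) (𝔪.map (Ideal.Quotient.mk J)) (fun l => Ideal.Quotient.mk J (g l)) hmem
    with hΦ
  have hm : maximalIdeal (P ⧸ J) = Ideal.span (Set.range fun l => Ideal.Quotient.mk J (g l)) := by
    rw [quot_maximalIdeal 𝔪 J hJ]
    have hspan : Ideal.span (Set.range fun l => Ideal.Quotient.mk J (g l)) =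
        Ideal.map (Ideal.Quotient.mk J) (Ideal.span (Set.range g)) := by
      rw [Ideal.map_span, ← Set.range_comp]; rfl
    apply le_antisymm
    · calc 𝔪.map (Ideal.Quotient.mk J) ≤ (J ⊔ Ideal.span (Set.range g)).map (Ideal.Quotient.mk J) :=
            Ideal.map_mono hgen
        _ = Ideal.span (Set.range fun l => Ideal.Quotient.mk J (g l)) := by
            rw [Ideal.map_sup, Ideal.map_quotient_self, bot_sup_eq, hspan]
    · rw [Ideal.span_le]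
      rintro _ ⟨l, rfl⟩
      exact hmem l
  have htop := subalgebra_eq_top_of_nilpotent Φ.range (quot_residue_surjective 𝔪 hsurj J hJ)
    (Set.range fun l => Ideal.Quotient.mk J (g l))
    (by rintro _ ⟨l, rfl⟩; exact ⟨X l, psEval_X _ _ _ l⟩) hm
    ⟨n, by rw [quot_maximalIdeal 𝔪 J hJ, quot_pow_eq_bot 𝔪 J n hn]; rfl⟩
  intro b
  have : b ∈ Φ.range := by rw [htop]; trivial
  exact this

include hn in
theorem Phi_unique {d : ℕ} (g : Fin d → P) (hg : ∀ l, g l ∈ 𝔪)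
    (Φ Ψ : MvPowerSeries (Fin d) 𝒪 →ₐ[𝒪] P ⧸ J)
    (hΦ : ∀ l, Φ (X l) = Ideal.Quotient.mk J (g l))
    (hΨ : ∀ l, Ψ (X l) = Ideal.Quotient.mk J (g l)) : Φ = Ψ := by
  have hcomp := isAdicComplete_of_pow_eq_bot _ n (quot_pow_eq_bot 𝔪 J n hn)
  exact algHom_ext_of_X (𝔪.map (Ideal.Quotient.mk J)) Φ Ψ
    (fun l => by rw [hΦ]; exact Ideal.mem_map_of_mem _ (hg l)) (fun l => by rw [hΦ, hΨ])

end OneJ

end Fermat.Agent.S53

namespace Fermat.Agent.S53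

open IsLocalRing MvPowerSeries

theorem finite_residueField_mvps (𝒪 : Type) [CommRing 𝒪] [IsLocalRing 𝒪]
    [Finite (ResidueField 𝒪)] (d : ℕ) :
    Finite (MvPowerSeries (Fin d) 𝒪 ⧸ maximalIdeal (MvPowerSeries (Fin d) 𝒪)) := by
  have hloc : IsLocalHom (algebraMap 𝒪 (MvPowerSeries (Fin d) 𝒪)) := mvps_isLocalHom_algebraMap
  refine Finite.of_surjective
    (ResidueField.map (algebraMap 𝒪 (MvPowerSeries (Fin d) 𝒪))) ?_
  intro x
  obtain ⟨c, hc⟩ := mvps_residue_surjective (𝒪 := 𝒪) (σ := Fin d) x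
  exact ⟨residue 𝒪 c, by rw [ResidueField.map_residue]; exact hc⟩

theorem exists_limit_ring (𝒪 : Type) [CommRing 𝒪] [IsNoetherianRing 𝒪] [IsLocalRing 𝒪]
    [IsAdicComplete (maximalIdeal 𝒪) 𝒪] [Finite (ResidueField 𝒪)] (P : Type) [CommRing P]
    [Algebra 𝒪 P] (𝔪 : Ideal P) [𝔪.IsMaximal]
    (hsurj : Function.Surjective (fun c : 𝒪 => Ideal.Quotient.mk 𝔪 (algebraMap 𝒪 P c)))
    (𝓘 : Set (Ideal P)) (h_le : ∀ J ∈ 𝓘, J ≤ 𝔪) (h_open : ∀ J ∈ 𝓘, ∃ n : ℕ, 𝔪 ^ n ≤ J)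
    (h_inf : ∀ J₁ ∈ 𝓘, ∀ J₂ ∈ 𝓘, J₁ ⊓ J₂ ∈ 𝓘)
    (h_up : ∀ J ∈ 𝓘, ∀ J' : Ideal P, J ≤ J' → J' ≤ 𝔪 → J' ∈ 𝓘) (h_ne : 𝔪 ∈ 𝓘)
    (𝔤 : Ideal P) (h𝔤 : 𝔤.FG) (h𝔤_le : 𝔤 ≤ 𝔪) (h_gen : ∀ J ∈ 𝓘, 𝔪 ≤ J ⊔ 𝔤) :
    ∃ (R : Type) (_ : CommRing R) (_ : IsLocalRing R) (_ : IsNoetherianRing R)
      (_ : IsAdicComplete (maximalIdeal R) R) (_ : Algebra 𝒪 R) (ι : P →ₐ[𝒪] R),
      IsLocalHom (algebraMap 𝒪 R) ∧ Function.Surjective (residue R ∘ algebraMap 𝒪 R) ∧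
      (∀ (n : ℕ) (r : R), ∃ p : P, r - ι p ∈ maximalIdeal R ^ n) ∧
      (maximalIdeal R).comap ι = 𝔪 ∧
      (∀ n : ℕ, 1 ≤ n → (maximalIdeal R ^ n).comap ι ∈ 𝓘) ∧
      (∀ J ∈ 𝓘, ∀ n : ℕ, 𝔪 ^ n ≤ J → (maximalIdeal R ^ n).comap ι ≤ J) := by
  obtain ⟨d, g, hgspan⟩ := Submodule.fg_iff_exists_fin_generating_family.1 h𝔤
  have hg : ∀ l, g l ∈ 𝔪 := fun l => h𝔤_le (hgspan ▸ Submodule.subset_span ⟨l, rfl⟩)
  have hcompQ : IsAdicComplete (maximalIdeal (MvPowerSeries (Fin d) 𝒪))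
      (MvPowerSeries (Fin d) 𝒪) := mvps_isAdicComplete 𝒪 d
  have hne𝓘 : Nonempty 𝓘 := ⟨⟨𝔪, h_ne⟩⟩
  -- the maps Φ_J
  have hΦex : ∀ J : 𝓘, ∃ Φ : MvPowerSeries (Fin d) 𝒪 →ₐ[𝒪] P ⧸ J.1,
      (∀ l, Φ (X l) = Ideal.Quotient.mk J.1 (g l)) ∧ Function.Surjective Φ := by
    intro J
    obtain ⟨n, hn⟩ := h_open J.1 J.2
    exact exists_Phi 𝔪 hsurj J.1 (h_le J.1 J.2) n hn g hg (by
      have := h_gen J.1 J.2
      rwa [← hgspan] at this)
  choose Φ hΦX hΦsurj using hΦex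
  have hcompat : ∀ (J J' : 𝓘) (h : J.1 ≤ J'.1) (x : MvPowerSeries (Fin d) 𝒪),
      Ideal.Quotient.factor h (Φ J x) = Φ J' x := by
    intro J J' h x
    obtain ⟨n, hn⟩ := h_open J'.1 J'.2
    have := Phi_unique 𝔪 J'.1 n hn g hg ((Ideal.Quotient.factorₐ 𝒪 h).comp (Φ J)) (Φ J')
      (fun l => by rw [AlgHom.comp_apply, hΦX, Ideal.Quotient.factorₐ_apply_mk]) (hΦX J')
    exact congrArg (fun f => f x) this
  have hlocJ : ∀ J : 𝓘, IsLocalRing (P ⧸ J.1) := by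
    intro J
    obtain ⟨n, hn⟩ := h_open J.1 J.2
    exact quot_isLocalRing 𝔪 J.1 (h_le J.1 J.2) n hn
  -- Φ_J maps 𝔪_Q^n into the image of 𝔪^n
  have hΦpow : ∀ (J : 𝓘) (n : ℕ) (x : MvPowerSeries (Fin d) 𝒪),
      x ∈ maximalIdeal (MvPowerSeries (Fin d) 𝒪) ^ n →
        Φ J x ∈ (𝔪 ^ n).map (Ideal.Quotient.mk J.1) := by
    intro J n x hx
    have := hlocJ J
    have h1 : Φ J x ∈ Ideal.map (Φ J : MvPowerSeries (Fin d) 𝒪 →+* P ⧸ J.1)
        (maximalIdeal (MvPowerSeries (Fin d) 𝒪) ^ n) := Ideal.mem_map_of_mem _ hx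
    rw [Ideal.map_pow, map_maximalIdeal_of_surjective
      (Φ J : MvPowerSeries (Fin d) 𝒪 →+* P ⧸ J.1) (hΦsurj J),
      quot_maximalIdeal 𝔪 J.1 (h_le J.1 J.2), ← Ideal.map_pow] at h1
    exact h1
  have hΦker : ∀ (J : 𝓘) (n : ℕ), 𝔪 ^ n ≤ J.1 →
      maximalIdeal (MvPowerSeries (Fin d) 𝒪) ^ n ≤ RingHom.ker (Φ J) := by
    intro J n hn x hx
    have h1 := hΦpow J n x hx
    rw [(Ideal.map_eq_bot_iff_le_ker _).2 (by rw [Ideal.mk_ker]; exact hn)] at h1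
    exact h1
  -- data for linear compactness
  have hr : ∀ J J' : 𝓘, J.1 ≤ J'.1 → RingHom.ker (Φ J) ≤ RingHom.ker (Φ J') := by
    intro J J' h x hx
    rw [RingHom.mem_ker] at hx ⊢
    rw [← hcompat J J' h x, hx, map_zero]
  have hdir : ∀ J J' : 𝓘, ∃ L : 𝓘, L.1 ≤ J.1 ∧ L.1 ≤ J'.1 := fun J J' =>
    ⟨⟨J.1 ⊓ J'.1, h_inf _ J.2 _ J'.2⟩, inf_le_left, inf_le_right⟩
  have hopen : ∀ J : 𝓘, ∃ n, maximalIdeal (MvPowerSeries (Fin d) 𝒪) ^ n ≤ RingHom.ker (Φ J) := by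
    intro J
    obtain ⟨n, hn⟩ := h_open J.1 J.2
    exact ⟨n, hΦker J n hn⟩
  have hart : ∀ n, IsArtinianRing
      (MvPowerSeries (Fin d) 𝒪 ⧸ maximalIdeal (MvPowerSeries (Fin d) 𝒪) ^ n) := by
    intro n
    have := finite_residueField_mvps 𝒪 d
    have := Ideal.finite_quotient_pow
      (IsNoetherian.noetherian (maximalIdeal (MvPowerSeries (Fin d) 𝒪))) n
    infer_instance
  -- the ring R
  set Kinf : Ideal (MvPowerSeries (Fin d) 𝒪) := ⨅ J : 𝓘, RingHom.ker (Φ J) with hKinf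
  have hKle : ∀ J : 𝓘, Kinf ≤ RingHom.ker (Φ J) := fun J => iInf_le _ J
  have hKne : Kinf ≠ ⊤ := by
    intro h
    have h1 : (1 : MvPowerSeries (Fin d) 𝒪) ∈ RingHom.ker (Φ ⟨𝔪, h_ne⟩) :=
      hKle _ (h ▸ Submodule.mem_top)
    rw [RingHom.mem_ker, map_one] at h1
    have := hlocJ ⟨𝔪, h_ne⟩
    exact one_ne_zero h1
  have hnontriv : Nontrivial (MvPowerSeries (Fin d) 𝒪 ⧸ Kinf) :=
    Ideal.Quotient.nontrivial_iff.2 hKne
  have hlocR : IsLocalRing (MvPowerSeries (Fin d) 𝒪 ⧸ Kinf) :=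
    IsLocalRing.of_surjective' (Ideal.Quotient.mk Kinf) Ideal.Quotient.mk_surjective
  have hlocmk : IsLocalHom (Ideal.Quotient.mk Kinf) :=
    IsLocalHom.of_surjective _ Ideal.Quotient.mk_surjective
  have hlocalg : IsLocalHom (algebraMap (MvPowerSeries (Fin d) 𝒪)
      (MvPowerSeries (Fin d) 𝒪 ⧸ Kinf)) := hlocmk
  have hcompR : IsAdicComplete (maximalIdeal (MvPowerSeries (Fin d) 𝒪 ⧸ Kinf))
      (MvPowerSeries (Fin d) 𝒪 ⧸ Kinf) :=
    IsLocalRing.isAdicComplete_of_module_finite (𝒪 := MvPowerSeries (Fin d) 𝒪)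
  have hmaxR : ∀ n, maximalIdeal (MvPowerSeries (Fin d) 𝒪 ⧸ Kinf) ^ n =
      (maximalIdeal (MvPowerSeries (Fin d) 𝒪) ^ n).map (Ideal.Quotient.mk Kinf) := by
    intro n
    rw [Ideal.map_pow, map_maximalIdeal_of_surjective _ Ideal.Quotient.mk_surjective]
  have hmem : ∀ (n : ℕ) (x : MvPowerSeries (Fin d) 𝒪),
      x ∈ Kinf ⊔ maximalIdeal (MvPowerSeries (Fin d) 𝒪) ^ n →
        Ideal.Quotient.mk Kinf x ∈ maximalIdeal (MvPowerSeries (Fin d) 𝒪 ⧸ Kinf) ^ n := by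
    intro n x hx
    obtain ⟨y, hy, z, hz, rfl⟩ := Submodule.mem_sup.1 hx
    rw [map_add, Ideal.Quotient.eq_zero_iff_mem.2 hy, zero_add, hmaxR]
    exact Ideal.mem_map_of_mem _ hz
  -- the map ι
  have hιex : ∀ p : P, ∃ x : MvPowerSeries (Fin d) 𝒪,
      ∀ J : 𝓘, Φ J x = Ideal.Quotient.mk J.1 p := by
    intro p
    choose q hq using fun J : 𝓘 => hΦsurj J (Ideal.Quotient.mk J.1 p)
    obtain ⟨x, hx⟩ := lin_compact (fun J : 𝓘 => RingHom.ker (Φ J)) (fun J J' => J.1 ≤ J'.1)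
      hr hdir hopen hart q (fun J J' h => by
        rw [RingHom.mem_ker, map_sub, hq J', ← hcompat J J' h, hq J, Ideal.Quotient.factor_mk,
          sub_self])
    refine ⟨x, fun J => ?_⟩
    have := hx J
    rw [RingHom.mem_ker, map_sub, sub_eq_zero] at this
    rw [this, hq]
  choose ιf hιf using hιex
  have hinj : ∀ x y : MvPowerSeries (Fin d) 𝒪, (∀ J : 𝓘, Φ J x = Φ J y) →
      Ideal.Quotient.mk Kinf x = Ideal.Quotient.mk Kinf y := by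
    intro x y h
    rw [Ideal.Quotient.eq, hKinf, Ideal.mem_iInf]
    intro J
    rw [RingHom.mem_ker, map_sub, h J, sub_self]
  let ι : P →ₐ[𝒪] MvPowerSeries (Fin d) 𝒪 ⧸ Kinf :=
    { toFun := fun p => Ideal.Quotient.mk Kinf (ιf p)
      map_one' := by
        rw [← map_one (Ideal.Quotient.mk Kinf)]
        exact hinj _ _ (fun J => by rw [hιf, map_one, map_one])
      map_mul' := fun a b => by
        rw [← map_mul]
        exact hinj _ _ (fun J => by rw [hιf, map_mul, map_mul, hιf, hιf])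
      map_zero' := by
        rw [← map_zero (Ideal.Quotient.mk Kinf)]
        exact hinj _ _ (fun J => by rw [hιf, map_zero, map_zero])
      map_add' := fun a b => by
        rw [← map_add]
        exact hinj _ _ (fun J => by rw [hιf, map_add, map_add, hιf, hιf])
      commutes' := fun c => by
        show Ideal.Quotient.mk Kinf (ιf (algebraMap 𝒪 P c)) =
          Ideal.Quotient.mk Kinf (algebraMap 𝒪 (MvPowerSeries (Fin d) 𝒪) c)
        exact hinj _ _ (fun J => by rw [hιf, AlgHom.commutes]; rfl) }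
  have hι : ∀ p, ι p = Ideal.Quotient.mk Kinf (ιf p) := fun p => rfl
  have hchev : ∀ n, ∃ J : 𝓘, RingHom.ker (Φ J) ≤
      Kinf ⊔ maximalIdeal (MvPowerSeries (Fin d) 𝒪) ^ n := fun n =>
    chevalley (fun J : 𝓘 => RingHom.ker (Φ J)) (fun J J' => J.1 ≤ J'.1) hr hdir hopen hart n
  -- (d)
  have hd : ∀ J ∈ 𝓘, ∀ n : ℕ, 𝔪 ^ n ≤ J →
      (maximalIdeal (MvPowerSeries (Fin d) 𝒪 ⧸ Kinf) ^ n).comap ι ≤ J := by
    intro J hJ n hn p hp
    rw [Ideal.mem_comap, hι, hmaxR,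
      Ideal.mem_map_iff_of_surjective _ Ideal.Quotient.mk_surjective] at hp
    obtain ⟨x, hx, hxp⟩ := hp
    have h1 : x - ιf p ∈ RingHom.ker (Φ ⟨J, hJ⟩) := hKle _ (Ideal.Quotient.eq.1 hxp)
    have h2 : x ∈ RingHom.ker (Φ ⟨J, hJ⟩) := hΦker ⟨J, hJ⟩ n hn hx
    have h3 : ιf p ∈ RingHom.ker (Φ ⟨J, hJ⟩) := by
      have := Ideal.sub_mem _ h2 h1
      simpa using this
    rw [RingHom.mem_ker, hιf] at h3
    exact Ideal.Quotient.eq_zero_iff_mem.1 h3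
  -- (b)
  have hb : (maximalIdeal (MvPowerSeries (Fin d) 𝒪 ⧸ Kinf)).comap ι = 𝔪 := by
    apply le_antisymm
    · have := hd 𝔪 h_ne 1 (by rw [pow_one])
      rwa [pow_one] at this
    · intro p hp
      rw [Ideal.mem_comap, hι]
      by_contra hnu
      have hu : IsUnit (Ideal.Quotient.mk Kinf (ιf p)) := by
        by_contra h; exact hnu h
      have hu2 : IsUnit (ιf p) := isUnit_of_map_unit (Ideal.Quotient.mk Kinf) _ hu
      have hu3 : IsUnit (Φ ⟨𝔪, h_ne⟩ (ιf p)) := hu2.map _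
      rw [hιf, Ideal.Quotient.eq_zero_iff_mem.2 hp] at hu3
      have := hlocJ ⟨𝔪, h_ne⟩
      exact not_isUnit_zero hu3
  refine ⟨MvPowerSeries (Fin d) 𝒪 ⧸ Kinf, inferInstance, hlocR, inferInstance, hcompR,
    inferInstance, ι, ?_, ?_, ?_, hb, ?_, hd⟩
  · -- local hom
    have h1 : IsLocalHom (algebraMap 𝒪 (MvPowerSeries (Fin d) 𝒪)) := mvps_isLocalHom_algebraMap
    constructor
    intro c hc
    have h2 : IsUnit (Ideal.Quotient.mk Kinf (algebraMap 𝒪 (MvPowerSeries (Fin d) 𝒪) c)) := hc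
    exact isUnit_of_map_unit (algebraMap 𝒪 (MvPowerSeries (Fin d) 𝒪)) _
      (isUnit_of_map_unit (Ideal.Quotient.mk Kinf) _ h2)
  · -- residue surjective
    intro x
    obtain ⟨y, rfl⟩ := residue_surjective x
    obtain ⟨f, rfl⟩ := Ideal.Quotient.mk_surjective y
    obtain ⟨c, hc⟩ := mvps_residue_surjective (𝒪 := 𝒪) (σ := Fin d) (residue _ f)
    refine ⟨c, ?_⟩
    rw [Function.comp_apply, ← sub_eq_zero, ← map_sub, residue_eq_zero_iff] at hc ⊢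
    have h2 := hmem 1 _ (Ideal.mem_sup_right (by rw [pow_one]; exact hc))
    rw [pow_one, map_sub] at h2
    exact h2
  · -- dense
    intro n r
    obtain ⟨x, rfl⟩ := Ideal.Quotient.mk_surjective r
    obtain ⟨J, hJ⟩ := hchev n
    obtain ⟨p, hp⟩ := Ideal.Quotient.mk_surjective (Φ J x)
    refine ⟨p, ?_⟩
    rw [hι, ← map_sub]
    apply hmem
    apply hJ
    rw [RingHom.mem_ker, map_sub, hιf, hp, sub_self]
  · -- (c)
    intro n hn
    obtain ⟨J, hJ⟩ := hchev n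
    refine h_up J.1 J.2 _ ?_ ?_
    · intro p hp
      rw [Ideal.mem_comap, hι]
      apply hmem
      apply hJ
      rw [RingHom.mem_ker, hιf]
      exact Ideal.Quotient.eq_zero_iff_mem.2 hp
    · rw [← hb]
      apply Ideal.comap_mono
      calc maximalIdeal (MvPowerSeries (Fin d) 𝒪 ⧸ Kinf) ^ n
          ≤ maximalIdeal (MvPowerSeries (Fin d) 𝒪 ⧸ Kinf) ^ 1 := Ideal.pow_le_pow_right hn
        _ = _ := pow_one _

end Fermat.Agent.S53
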