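import Fermat.Agent.S53.Rigid
import Fermat.Agent.S53.LimitRingA
import Fermat.Agent.S53.LimitHom

set_option autoImplicit false
set_option linter.style.haveILetI false
set_option linter.unusedSectionVars false

open IsLocalRing GaloisRep

namespace Fermat.Agent.S53

section quotpow

variable {𝒪 : Type} [CommRing 𝒪] [IsLocalRing 𝒪]
variable {A : Type} [CommRing A] [IsLocalRing A] [IsNoetherianRing A] [Algebra 𝒪 A]

theorem isLocalRing_quot_pow (n : ℕ) (hn : 1 ≤ n) : IsLocalRing (A ⧸ maximalIdeal A ^ n) :=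
  isLocalRing_quot (maximalIdeal A) _ (Ideal.pow_le_self (by omega)) ⟨n, le_rfl⟩

theorem testAlg_quot_pow (hloc : IsLocalHom (algebraMap 𝒪 A))
    (hres : Function.Surjective (residue A ∘ algebraMap 𝒪 A)) (n : ℕ) (hn : 1 ≤ n)
    [IsLocalRing (A ⧸ maximalIdeal A ^ n)] :
    IsArtinianTestAlgebra 𝒪 (A ⧸ maximalIdeal A ^ n) where
  isLocalHom := by
    refine ⟨fun c hc => ?_⟩
    by_contra hc'
    have h1 : algebraMap 𝒪 A c ∈ maximalIdeal A := map_nonunit (algebraMap 𝒪 A) c hc'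
    have h2 : Ideal.Quotient.mk (maximalIdeal A ^ n) (algebraMap 𝒪 A c) ∈
        maximalIdeal (A ⧸ maximalIdeal A ^ n) :=
      (mk_mem_maximalIdeal_quot_iff (maximalIdeal A) _ (Ideal.pow_le_self (by omega))
        ⟨n, le_rfl⟩ _).mpr h1
    exact h2 hc
  residue_surjective := by
    intro x
    obtain ⟨y, rfl⟩ := residue_surjective x
    obtain ⟨p, rfl⟩ := Ideal.Quotient.mk_surjective y
    obtain ⟨c, hc⟩ := hres (residue A p)
    refine ⟨c, ?_⟩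
    have h1 : p - algebraMap 𝒪 A c ∈ maximalIdeal A := by
      rw [← residue_eq_zero_iff, map_sub, sub_eq_zero]
      exact hc.symm
    have h2 : Ideal.Quotient.mk (maximalIdeal A ^ n) (p - algebraMap 𝒪 A c) ∈
        maximalIdeal (A ⧸ maximalIdeal A ^ n) :=
      (mk_mem_maximalIdeal_quot_iff (maximalIdeal A) _ (Ideal.pow_le_self (by omega))
        ⟨n, le_rfl⟩ _).mpr h1
    rw [map_sub, ← residue_eq_zero_iff, map_sub, sub_eq_zero] at h2
    exact h2.symm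
  isArtinian := by
    rw [isArtinianRing_iff_isNilpotent_maximalIdeal]
    exact ⟨n, maximalIdeal_quot_pow (maximalIdeal A) _ ⟨n, le_rfl⟩ n le_rfl⟩

end quotpow

section limit

variable {𝒪 : Type} [CommRing 𝒪] [IsLocalRing 𝒪] {C : Ctx 𝒪}
  {𝒟 : ∀ ⦃A : Type⦄ [CommRing A] [IsLocalRing A] [Algebra 𝒪 A], GaloisRepAdic A → Prop}
variable {R : Type} [CommRing R] [IsLocalRing R] [Algebra 𝒪 R] (ι : C.P →ₐ[𝒪] R)

/-- (M1) continuity of the limit representation -/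
theorem limit_matCont (hgood : ∀ n : ℕ, 1 ≤ n → Good C 𝒟 ((maximalIdeal R ^ n).comap ι)) :
    MatCont R (mapM (ι : C.P →+* R) C.MU) := by
  intro n
  rcases Nat.eq_zero_or_pos n with rfl | hn
  · refine ⟨⊥, inferInstance, fun σ _ i j => ?_⟩
    rw [pow_zero, Ideal.one_eq_top]
    trivial
  · obtain ⟨L, hL, h⟩ := (hgood n hn).cont
    refine ⟨L, hL, fun σ hσ i j => ?_⟩
    rw [mapM_apply, Ctx.map_sub_one_apply]
    exact h σ hσ i j

/-- (M2) the limit representation is of type `𝒟` -/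
theorem limit_type [IsNoetherianRing R] [IsAdicComplete (maximalIdeal R) R]
    (h𝒟 : IsDeformationCondition 𝒪 𝒟)
    (hloc : IsLocalHom (algebraMap 𝒪 R))
    (hres : Function.Surjective (residue R ∘ algebraMap 𝒪 R))
    (hgood : ∀ n : ℕ, 1 ≤ n → Good C 𝒟 ((maximalIdeal R ^ n).comap ι))
    (hc : MatCont R (mapM (ι : C.P →+* R) C.MU)) :
    𝒟 (ofMat (mapM (ι : C.P →+* R) C.MU) hc) := by
  rw [h𝒟.iff_forall_surjective hloc hres]
  intro B _ _ _ hB q hq _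
  obtain ⟨n, hn⟩ := testAlg_pow_eq_bot hB
  have hn1 : maximalIdeal B ^ (n + 1) = ⊥ := by rw [pow_succ, hn, Ideal.bot_mul]
  have hJe : (maximalIdeal R ^ (n + 1)).comap ι ≤
      RingHom.ker ((q.comp ι : C.P →ₐ[𝒪] B) : C.P →+* B) := by
    intro p hp
    have h1 := map_mem_maximalIdeal_pow (q : R →+* B) hq (n + 1) (ι p) hp
    rw [hn1] at h1
    exact h1
  obtain ⟨_, hc', h2⟩ := (hgood (n + 1) (by omega)).push h𝒟 hB (q.comp ι) hJe
  have hM : mapM (q : R →+* B) (mapM (ι : C.P →+* R) C.MU) =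
      mapM ((q.comp ι : C.P →ₐ[𝒪] B) : C.P →+* B) C.MU := by
    rw [mapM_comp]
    congr 1
  have hc'' : MatCont B (mapM (q : R →+* B) (mapM (ι : C.P →+* R) C.MU)) := by
    rw [hM]; exact hc'
  refine h𝒟.of_isEquiv hB (isEquiv_symm (baseChangeAlong_ofMat_isEquiv _ hq _ hc hc'')) ?_
  rw [ofMat_congr hM hc'' hc']
  exact h2

end limit

section univ

variable {𝒪 : Type} [CommRing 𝒪] [IsLocalRing 𝒪] {C : Ctx 𝒪}
  {𝒟 : ∀ ⦃A : Type⦄ [CommRing A] [IsLocalRing A] [Algebra 𝒪 A], GaloisRepAdic A → Prop}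
variable {A : Type} [CommRing A] [IsLocalRing A] [IsNoetherianRing A]
  [IsAdicComplete (maximalIdeal A) A] [Algebra 𝒪 A]

/-- `𝒟` is invariant under equivalence over complete Noetherian local rings. -/
theorem type_of_isEquiv (h𝒟 : IsDeformationCondition 𝒪 𝒟)
    (hloc : IsLocalHom (algebraMap 𝒪 A))
    (hres : Function.Surjective (residue A ∘ algebraMap 𝒪 A))
    {ρ ρ' : GaloisRepAdic A} (h : ρ.IsEquiv ρ') (hρ : 𝒟 ρ) : 𝒟 ρ' := by
  rw [h𝒟.iff_forall_surjective hloc hres] at hρ ⊢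
  intro B _ _ _ hB q hq hqs
  exact h𝒟.of_isEquiv hB (IsEquiv.baseChangeAlong' _ hq h) (hρ hB q hq hqs)

theorem good_comap_pow [Finite (ResidueField 𝒪)] (h𝒟 : IsDeformationCondition 𝒪 𝒟)
    (hloc : IsLocalHom (algebraMap 𝒪 A))
    (hres : Function.Surjective (residue A ∘ algebraMap 𝒪 A))
    (e : C.P →ₐ[𝒪] A) (hl : C.𝔪 ≤ (maximalIdeal A).comap (e : C.P →+* A))
    (hc : MatCont A (mapM (e : C.P →+* A) C.MU))
    (ht : 𝒟 (ofMat (mapM (e : C.P →+* A) C.MU) hc)) (n : ℕ) (hn : 1 ≤ n) :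
    Good C 𝒟 ((maximalIdeal A ^ n).comap (e : C.P →+* A)) := by
  haveI := isLocalRing_quot_pow (A := A) n hn
  have hB : IsArtinianTestAlgebra 𝒪 (A ⧸ maximalIdeal A ^ n) := testAlg_quot_pow hloc hres n hn
  let q : A →ₐ[𝒪] A ⧸ maximalIdeal A ^ n := Ideal.Quotient.mkₐ 𝒪 _
  have hqs : Function.Surjective q := Ideal.Quotient.mkₐ_surjective 𝒪 _
  have hq : IsLocalHom (q : A →+* A ⧸ maximalIdeal A ^ n) := by
    refine ⟨fun x hx => ?_⟩
    by_contra hx'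
    have h2 : Ideal.Quotient.mk (maximalIdeal A ^ n) x ∈ maximalIdeal (A ⧸ maximalIdeal A ^ n) :=
      (mk_mem_maximalIdeal_quot_iff (maximalIdeal A) _ (Ideal.pow_le_self (by omega))
        ⟨n, le_rfl⟩ _).mpr hx'
    exact h2 hx
  have h1 := (h𝒟.iff_forall_surjective hloc hres _).mp ht hB q hq hqs
  have hM : mapM (q : A →+* A ⧸ maximalIdeal A ^ n) (mapM (e : C.P →+* A) C.MU) =
      mapM ((q.comp e : C.P →ₐ[𝒪] A ⧸ maximalIdeal A ^ n) : C.P →+* A ⧸ maximalIdeal A ^ n)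
        C.MU := by
    rw [mapM_comp]
    congr 1
  have hc' : MatCont _ (mapM (q : A →+* A ⧸ maximalIdeal A ^ n) (mapM (e : C.P →+* A) C.MU)) :=
    hc.map _ hq
  have hc'' : MatCont _ (mapM ((q.comp e : C.P →ₐ[𝒪] A ⧸ maximalIdeal A ^ n) :
      C.P →+* A ⧸ maximalIdeal A ^ n) C.MU) := by rw [← hM]; exact hc'
  have h2 := h𝒟.of_isEquiv hB (baseChangeAlong_ofMat_isEquiv _ hq _ hc hc') h1
  rw [ofMat_congr hM hc' hc''] at h2
  have hl' : C.𝔪 ≤ (maximalIdeal (A ⧸ maximalIdeal A ^ n)).comap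
      ((q.comp e : C.P →ₐ[𝒪] A ⧸ maximalIdeal A ^ n) : C.P →+* A ⧸ maximalIdeal A ^ n) := by
    intro p hp
    exact (mk_mem_maximalIdeal_quot_iff (maximalIdeal A) _ (Ideal.pow_le_self (by omega))
        ⟨n, le_rfl⟩ _).mpr (hl hp)
  have h3 := good_ker h𝒟 hB (q.comp e) hl' hc'' h2
  have hker : RingHom.ker ((q.comp e : C.P →ₐ[𝒪] A ⧸ maximalIdeal A ^ n) :
      C.P →+* A ⧸ maximalIdeal A ^ n) = (maximalIdeal A ^ n).comap (e : C.P →+* A) := by
    ext p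
    rw [RingHom.mem_ker, Ideal.mem_comap]
    exact Ideal.Quotient.eq_zero_iff_mem
  rwa [hker] at h3

/-- every deformation of type `𝒟` over a complete Noetherian local `A` is classified by a map
out of the universal ring `C.P`. -/
theorem exists_classifying (h𝒟 : IsDeformationCondition 𝒪 𝒟)
    [hloc : IsLocalHom (algebraMap 𝒪 A)]
    (hres : Function.Surjective (residue A ∘ algebraMap 𝒪 A))
    (ρbar : ResidualGaloisRep (ResidueField 𝒪)) (hE : ρbar.IsEquiv (ofMatRes C.Mbar C.hf))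
    (ρA : GaloisRepAdic A) (hρA : 𝒟 ρA)
    (hresA : ρA.residual.IsEquiv (ρbar.baseChangeAlong (ResidueField.map (algebraMap 𝒪 A)))) :
    ∃ (e : C.P →ₐ[𝒪] A) (hc : MatCont A (mapM (e : C.P →+* A) C.MU)),
      C.𝔪 ≤ (maximalIdeal A).comap (e : C.P →+* A) ∧
      ρA.IsEquiv (ofMat (mapM (e : C.P →+* A) C.MU) hc) ∧
      𝒟 (ofMat (mapM (e : C.P →+* A) C.MU) hc) := by
  obtain ⟨M, hM, hEq, hl⟩ := exists_ofMat_lifting ρA ρbar C.Mbar C.hf hE _ hresA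
  obtain ⟨e, hc, hle, hEq'⟩ := C.exists_canon M hM hl
  have h := isEquiv_trans hEq hEq'
  exact ⟨e, hc, hle, h, type_of_isEquiv h𝒟 hloc hres h hρA⟩

end univ

theorem nonempty_of_ctx
    (𝒪 : Type) [CommRing 𝒪] [IsDomain 𝒪] [IsDiscreteValuationRing 𝒪]
    [IsAdicComplete (maximalIdeal 𝒪) 𝒪] [Finite (ResidueField 𝒪)]
    (ρbar : ResidualGaloisRep (ResidueField 𝒪))
    (𝒟 : ∀ ⦃A : Type⦄ [CommRing A] [IsLocalRing A] [Algebra 𝒪 A], GaloisRepAdic A → Prop)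
    (habs : ρbar.IsAbsolutelyIrreducible)
    (h𝒟 : IsDeformationCondition 𝒪 𝒟)
    (C : Ctx 𝒪) (hE : ρbar.IsEquiv (ofMatRes C.Mbar C.hf))
    (h𝔪 : Good C 𝒟 C.𝔪)
    (𝔤 : Ideal C.P) (h𝔤 : 𝔤.FG) (h𝔤le : 𝔤 ≤ C.𝔪) (hgen : ∀ J, Good C 𝒟 J → C.𝔪 ≤ J ⊔ 𝔤) :
    Nonempty (DeformationRingData 𝒪 ρbar 𝒟) := by
  obtain ⟨R, _, _, _, _, _, ι, hloc, hres, hdense, hcomap, hgood, hmin⟩ :=
    exists_limit_ring 𝒪 C.P C.𝔪 C.mk_algebraMap_surjective {J | Good C 𝒟 J}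
      (fun J hJ => hJ.le) (fun J hJ => hJ.pow_le) (fun J₁ h₁ J₂ h₂ => Good.inf h𝒟 h₁ h₂)
      (fun J hJ J' h h' => Good.up h𝒟 hJ h h') h𝔪 𝔤 h𝔤 h𝔤le hgen
  have hc : MatCont R (mapM (ι : C.P →+* R) C.MU) := limit_matCont ι hgood
  have hlι : C.𝔪 ≤ (maximalIdeal R).comap (ι : C.P →+* R) := hcomap.ge
  refine ⟨{
    R := R
    residue_surjective := hres
    absIrr := habs
    ρ := ofMat (mapM (ι : C.P →+* R) C.MU) hc
    isOfType := limit_type ι h𝒟 hloc hres hgood hc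
    residual_isEquiv := residual_ofMat_isEquiv_baseChangeAlong ρbar C.Mbar C.hf hE _ _ hc
      (C.residue_of_le_comap ι hlι)
    universal := ?_ }⟩
  intro A _ _ _ _ _ hlocA hresA ρA hρA hresidA
  obtain ⟨e, hce, hle, hEq, hte⟩ := exists_classifying h𝒟 hresA ρbar hE ρA hρA hresidA
  have hker : ∀ n : ℕ, (maximalIdeal R ^ n).comap ι ≤ (maximalIdeal A ^ n).comap e := by
    intro n
    rcases Nat.eq_zero_or_pos n with rfl | hn
    · intro p _
      rw [Ideal.mem_comap, pow_zero, Ideal.one_eq_top]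
      trivial
    · have hg := good_comap_pow h𝒟 hlocA hresA e hle hce hte n hn
      refine hmin _ hg n ?_
      rw [← Ideal.map_le_iff_le_comap, Ideal.map_pow]
      exact Ideal.pow_right_mono (Ideal.map_le_iff_le_comap.mpr hle) n
  obtain ⟨φ, hφι, hφloc⟩ := limit_hom_exists ι hdense e hker
  have key : ∀ (ψ : R →ₐ[𝒪] A) (hψ : IsLocalHom (ψ : R →+* A)),
      ∃ hcψ : MatCont A (mapM ((ψ.comp ι : C.P →ₐ[𝒪] A) : C.P →+* A) C.MU),
      ((ofMat (mapM (ι : C.P →+* R) C.MU) hc).baseChangeAlong (ψ : R →+* A) hψ).IsEquiv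
        (ofMat (mapM ((ψ.comp ι : C.P →ₐ[𝒪] A) : C.P →+* A) C.MU) hcψ) := by
    intro ψ hψ
    have hM : mapM (ψ : R →+* A) (mapM (ι : C.P →+* R) C.MU) =
        mapM ((ψ.comp ι : C.P →ₐ[𝒪] A) : C.P →+* A) C.MU := by
      rw [mapM_comp]
      congr 1
    have hc1 : MatCont A (mapM (ψ : R →+* A) (mapM (ι : C.P →+* R) C.MU)) := hc.map _ hψ
    have hc2 : MatCont A (mapM ((ψ.comp ι : C.P →ₐ[𝒪] A) : C.P →+* A) C.MU) := by
      rw [← hM]; exact hc1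
    refine ⟨hc2, ?_⟩
    rw [← ofMat_congr hM hc1 hc2]
    exact baseChangeAlong_ofMat_isEquiv _ hψ _ hc hc1
  refine ⟨φ, ⟨hφloc, ?_⟩, ?_⟩
  · obtain ⟨hcφ, h1⟩ := key φ hφloc
    have hφe : φ.comp ι = e := AlgHom.ext hφι
    refine isEquiv_trans h1 (isEquiv_symm ?_)
    have hM : mapM ((φ.comp ι : C.P →ₐ[𝒪] A) : C.P →+* A) C.MU = mapM (e : C.P →+* A) C.MU := by
      rw [hφe]
    rw [ofMat_congr hM hcφ hce]
    exact hEq
  · rintro ψ ⟨hψ, hψEq⟩
    obtain ⟨hcψ, h1⟩ := key ψ hψ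
    have h2 : (ofMat (mapM ((ψ.comp ι : C.P →ₐ[𝒪] A) : C.P →+* A) C.MU) hcψ).IsEquiv
        (ofMat (mapM (e : C.P →+* A) C.MU) hce) :=
      isEquiv_trans (isEquiv_symm h1) (isEquiv_trans hψEq hEq)
    obtain ⟨N, hN, hNM⟩ := (ofMat_isEquiv_iff _ _ _ _).mp h2
    have hlψ : C.𝔪 ≤ (maximalIdeal A).comap ((ψ.comp ι : C.P →ₐ[𝒪] A) : C.P →+* A) := by
      intro p hp
      have h3 : ι p ∈ maximalIdeal R := hlι hp
      exact map_nonunit (ψ : R →+* A) _ h3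
    have h3 : ψ.comp ι = e := C.hom_eq_of_conj _ _ hlψ hle N hN hNM
    have h4 : (ψ : R →+* A) = (φ : R →+* A) := by
      refine limit_hom_unique (ι : C.P →+* R) hdense _ _ hψ hφloc fun p => ?_
      have h5 : ψ (ι p) = e p := congrArg (fun F => F p) h3
      exact h5.trans (hφι p).symm
    exact AlgHom.ext fun r => congrArg (fun F => F r) h4

end Fermat.Agent.S53
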