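import Fermat.Agent.S53.Rigid
import Fermat.Agent.S53.Burnside

set_option autoImplicit false
set_option linter.style.haveILetI false
set_option linter.unusedSectionVars false

open IsLocalRing GaloisRep

namespace Fermat.Agent.S53

namespace CtxExists

/-- every matrix in the span of the image of `Mbar` is a `lin` with coefficients in `𝒪`. -/
theorem exists_lin_eq {𝒪 : Type} [CommRing 𝒪] [IsLocalRing 𝒪]
    (Mbar : GQ → Matrix (Fin 2) (Fin 2) (ResidueField 𝒪))
    (hspan : Submodule.span (ResidueField 𝒪) (Set.range Mbar) = ⊤)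
    (X : Matrix (Fin 2) (Fin 2) (ResidueField 𝒪)) : ∃ a : GQ →₀ 𝒪, lin a Mbar = X := by
  have hX : X ∈ Submodule.span (ResidueField 𝒪) (Set.range Mbar) := by
    rw [hspan]; exact Submodule.mem_top
  obtain ⟨c, hc⟩ := (Finsupp.mem_span_range_iff_exists_finsupp).mp hX
  obtain ⟨a, rfl⟩ := Finsupp.mapRange_surjective (residue 𝒪) (map_zero _) residue_surjective c
  refine ⟨a, ?_⟩
  rw [← hc, Finsupp.sum_mapRange_index (fun g => by simp)]
  rfl

theorem testAlg_residueField (𝒪 : Type) [CommRing 𝒪] [IsLocalRing 𝒪] :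
    IsArtinianTestAlgebra 𝒪 (ResidueField 𝒪) where
  isLocalHom := inferInstanceAs (IsLocalHom (residue 𝒪))
  residue_surjective := by
    intro x
    obtain ⟨y, rfl⟩ := residue_surjective x
    obtain ⟨c, rfl⟩ := residue_surjective y
    exact ⟨c, rfl⟩
  isArtinian := inferInstance

theorem matCont_of_factors {k : Type} [Field k] {M : GQ →* Matrix (Fin 2) (Fin 2) k}
    (hf : GaloisFactorsThroughFiniteLevel M) : MatCont k M := by
  intro n
  obtain ⟨L, hL, h⟩ := hf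
  refine ⟨L, hL, fun σ hσ i j => ?_⟩
  rw [h σ hσ, sub_self]
  exact Ideal.zero_mem _

theorem ofResidual_isEquiv_ofMat {k : Type} [Field k] (ρbar : ResidualGaloisRep k)
    (M : GQ →* Matrix (Fin 2) (Fin 2) k) (hf : GaloisFactorsThroughFiniteLevel M)
    (hc : MatCont k M) (hE : ρbar.IsEquiv (ofMatRes M hf)) :
    (GaloisRepAdic.ofResidualGaloisRep ρbar).IsEquiv (ofMat M hc) := by
  obtain ⟨e⟩ := hE
  exact ⟨{ toLinearEquiv := e.toLinearEquiv, map_apply := e.map_apply }⟩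

end CtxExists

open CtxExists

theorem exists_ctx (𝒪 : Type) [CommRing 𝒪] [IsLocalRing 𝒪]
    (ρbar : ResidualGaloisRep (ResidueField 𝒪)) (habs : ρbar.IsAbsolutelyIrreducible) :
    ∃ C : Ctx 𝒪, ρbar.IsEquiv (ofMatRes C.Mbar C.hf) := by
  obtain ⟨Mbar, hf, hE, hspan⟩ := exists_matrix_form ρbar habs
  obtain ⟨a, ha⟩ := exists_lin_eq Mbar hspan !![1, 0; 0, 0]
  obtain ⟨b, hb⟩ := exists_lin_eq Mbar hspan !![0, 0; 1, 0]
  exact ⟨{ Mbar := Mbar, hf := hf, a := a, b := b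
           ha00 := by rw [ha]; rfl
           ha01 := by rw [ha]; rfl
           ha10 := by rw [ha]; rfl
           ha11 := by rw [ha]; rfl
           hb := by rw [hb]; rfl }, hE⟩

theorem good_𝔪 {𝒪 : Type} [CommRing 𝒪] [IsLocalRing 𝒪] [Finite (ResidueField 𝒪)] (C : Ctx 𝒪)
    (𝒟 : ∀ ⦃A : Type⦄ [CommRing A] [IsLocalRing A] [Algebra 𝒪 A], GaloisRepAdic A → Prop)
    (h𝒟 : GaloisRep.IsDeformationCondition 𝒪 𝒟) (ρbar : ResidualGaloisRep (ResidueField 𝒪))
    (hE : ρbar.IsEquiv (ofMatRes C.Mbar C.hf))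
    (hbar : 𝒟 (GaloisRepAdic.ofResidualGaloisRep ρbar)) : Good C 𝒟 C.𝔪 := by
  have hB := testAlg_residueField 𝒪
  have hM : mapM (C.evbar : C.P →+* ResidueField 𝒪) C.MU = C.Mbar :=
    Puniv.mapM_lift C.Mbar C.isCanon_Mbar
  have hcbar : MatCont (ResidueField 𝒪) C.Mbar := matCont_of_factors C.hf
  have hc : MatCont (ResidueField 𝒪) (mapM (C.evbar : C.P →+* ResidueField 𝒪) C.MU) := by
    rw [hM]; exact hcbar
  refine good_ker h𝒟 hB C.evbar ?_ hc ?_
  · intro x hx
    rw [Ideal.mem_comap]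
    have : (C.evbar : C.P →+* ResidueField 𝒪) x = 0 := hx
    rw [this]
    exact Ideal.zero_mem _
  · rw [ofMat_congr hM hc hcbar]
    exact h𝒟.of_isEquiv hB (ofResidual_isEquiv_ofMat ρbar C.Mbar C.hf hcbar hE) hbar

end Fermat.Agent.S53
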