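import Mathlib

set_option autoImplicit false

open IsLocalRing

namespace Fermat.Agent.S53

/-- **Lemma H**: homs to the dual numbers separate the points of a local `𝒪`-algebra with residue
field `k`, `𝔪² = 0` and killed by `𝔪_𝒪`. -/
theorem exists_dualNumber_hom
    (𝒪 : Type) [CommRing 𝒪] [IsLocalRing 𝒪]
    (A : Type) [CommRing A] [IsLocalRing A] [Algebra 𝒪 A]
    (hres : Function.Surjective (residue A ∘ algebraMap 𝒪 A))
    (hsq : maximalIdeal A ^ 2 = ⊥)
    (hm : ∀ c ∈ maximalIdeal 𝒪, algebraMap 𝒪 A c = 0)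
    (a : A) (ha : a ≠ 0) :
    ∃ ψ : A →+* DualNumber (ResidueField 𝒪),
      (∀ c : 𝒪, ψ (algebraMap 𝒪 A c) =
        algebraMap (ResidueField 𝒪) (DualNumber (ResidueField 𝒪)) (residue 𝒪 c)) ∧ ψ a ≠ 0 := by
  classical
  -- the section `k → A`
  let ι : ResidueField 𝒪 →+* A := Ideal.Quotient.lift (maximalIdeal 𝒪) (algebraMap 𝒪 A) hm
  have hι : ∀ c : 𝒪, ι (residue 𝒪 c) = algebraMap 𝒪 A c := fun c => rfl
  let _ : Algebra (ResidueField 𝒪) A := ι.toAlgebra
  have halg : ∀ c : ResidueField 𝒪, algebraMap (ResidueField 𝒪) A c = ι c := fun c => rfl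
  -- the iso `k ≃ A/m`
  let e₀ : ResidueField 𝒪 →+* ResidueField A := (residue A).comp ι
  have he₀ : Function.Bijective e₀ := by
    refine ⟨e₀.injective, fun y => ?_⟩
    obtain ⟨c, hc⟩ := hres y
    exact ⟨residue 𝒪 c, hc⟩
  let e : ResidueField 𝒪 ≃+* ResidueField A := RingEquiv.ofBijective e₀ he₀
  let π : A →+* ResidueField 𝒪 := (e.symm : ResidueField A →+* ResidueField 𝒪).comp (residue A)
  have hπι : ∀ c, π (ι c) = c := by
    intro c
    show e.symm (residue A (ι c)) = c
    rw [RingEquiv.symm_apply_eq]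
    rfl
  have hmem : ∀ x : A, x - ι (π x) ∈ maximalIdeal A := by
    intro x
    rw [← residue_eq_zero_iff, map_sub, sub_eq_zero]
    show residue A x = e (e.symm (residue A x))
    rw [RingEquiv.apply_symm_apply]
  have hmul0 : ∀ x ∈ maximalIdeal A, ∀ y ∈ maximalIdeal A, x * y = 0 := by
    intro x hx y hy
    have : x * y ∈ maximalIdeal A ^ 2 := by
      rw [pow_two]; exact Ideal.mul_mem_mul hx hy
    rwa [hsq, Ideal.mem_bot] at this
  -- the general construction
  have key : ∀ l : A →ₗ[ResidueField 𝒪] ResidueField 𝒪,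
      ∃ ψ : A →+* DualNumber (ResidueField 𝒪),
        (∀ x, TrivSqZeroExt.fst (ψ x) = π x) ∧
        (∀ x, TrivSqZeroExt.snd (ψ x) = l (x - ι (π x))) := by
    intro l
    have hsmul : ∀ (c : ResidueField 𝒪) (x : A), l (ι c * x) = c * l x := by
      intro c x
      have : ι c * x = c • x := by rw [Algebra.smul_def, halg]
      rw [this, map_smul, smul_eq_mul]
    refine ⟨{ toFun := fun x => (π x, l (x - ι (π x)))
              map_one' := ?_
              map_mul' := ?_
              map_zero' := ?_
              map_add' := ?_ }, fun x => rfl, fun x => rfl⟩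
    · apply TrivSqZeroExt.ext
      · show π 1 = 1
        simp
      · show l (1 - ι (π 1)) = 0
        simp
    · intro x y
      apply TrivSqZeroExt.ext
      · show π (x * y) = π x * π y
        simp
      · show l (x * y - ι (π (x * y))) =
          π x • l (y - ι (π y)) + MulOpposite.op (π y) • l (x - ι (π x))
        have h0 := hmul0 _ (hmem x) _ (hmem y)
        have h1 : x * y - ι (π (x * y)) =
            ι (π x) * (y - ι (π y)) + ι (π y) * (x - ι (π x)) := by
          rw [map_mul, map_mul]
          linear_combination h0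
        rw [h1, map_add, hsmul, hsmul]
        simp [mul_comm]
    · apply TrivSqZeroExt.ext
      · show π 0 = 0
        simp
      · show l (0 - ι (π 0)) = 0
        simp
    · intro x y
      apply TrivSqZeroExt.ext
      · show π (x + y) = π x + π y
        simp
      · show l (x + y - ι (π (x + y))) = l (x - ι (π x)) + l (y - ι (π y))
        rw [← map_add]
        congr 1
        rw [map_add, map_add]
        ring
  have hcompat : ∀ ψ : A →+* DualNumber (ResidueField 𝒪),
      (∀ x, TrivSqZeroExt.fst (ψ x) = π x) →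
      (∀ l : A →ₗ[ResidueField 𝒪] ResidueField 𝒪,
        (∀ x, TrivSqZeroExt.snd (ψ x) = l (x - ι (π x))) →
      ∀ c : 𝒪, ψ (algebraMap 𝒪 A c) =
        algebraMap (ResidueField 𝒪) (DualNumber (ResidueField 𝒪)) (residue 𝒪 c)) := by
    intro ψ h1 l h2 c
    apply TrivSqZeroExt.ext
    · rw [h1, ← hι, hπι]
      rfl
    · rw [h2, ← hι, hπι, sub_self, map_zero]
      rfl
  by_cases hπa : π a = 0
  · -- `a ∈ m`, choose a functional not killing `a`
    obtain ⟨l, hl⟩ : ∃ l : Module.Dual (ResidueField 𝒪) A, l a ≠ 0 := by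
      by_contra hcon
      simp only [not_exists, not_not] at hcon
      exact ha ((Module.forall_dual_apply_eq_zero_iff (ResidueField 𝒪) a).mp hcon)
    obtain ⟨ψ, h1, h2⟩ := key l
    refine ⟨ψ, hcompat ψ h1 l h2, fun h0 => hl ?_⟩
    have := h2 a
    rw [h0, hπa, map_zero, sub_zero] at this
    exact this.symm
  · obtain ⟨ψ, h1, h2⟩ := key 0
    refine ⟨ψ, hcompat ψ h1 0 h2, fun h0 => hπa ?_⟩
    have := h1 a
    rw [h0] at this
    exact this.symm

end Fermat.Agent.S53
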