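import Fermat.Agent.S53.Rigid
import Fermat.Agent.S53.DualHom

set_option autoImplicit false
set_option linter.style.haveILetI false
set_option linter.unusedSectionVars false

open IsLocalRing GaloisRep

namespace Fermat.Agent.S53

theorem le_of_le_sup_sq {P : Type} [CommRing P] (𝔪 𝔞 : Ideal P) (h : 𝔪 ≤ 𝔞 ⊔ 𝔪 ^ 2) (n : ℕ)
    (hn : 𝔪 ^ n ≤ 𝔞) : 𝔪 ≤ 𝔞 := by
  have key : ∀ j : ℕ, 𝔪 ≤ 𝔞 ⊔ 𝔪 ^ (j + 1) := by
    intro j
    induction j with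
    | zero => simp
    | succ j ih =>
      have h1 : 𝔪 ^ (j + 1) ≤ 𝔞 ⊔ 𝔪 ^ (j + 2) := by
        calc 𝔪 ^ (j + 1) = 𝔪 ^ j * 𝔪 := pow_succ _ _
          _ ≤ 𝔪 ^ j * (𝔞 ⊔ 𝔪 ^ 2) := Ideal.mul_mono_right h
          _ = 𝔪 ^ j * 𝔞 ⊔ 𝔪 ^ j * 𝔪 ^ 2 := Ideal.mul_sup _ _ _
          _ ≤ 𝔞 ⊔ 𝔪 ^ (j + 2) := sup_le_sup Ideal.mul_le_right (by rw [← pow_add])
      exact ih.trans (sup_le le_sup_left h1)
  rcases n with _ | n
  · exact le_top.trans (by simpa using hn)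
  · exact (key n).trans (sup_le le_rfl hn)

section DN

variable (𝒪 : Type) [CommRing 𝒪] [IsLocalRing 𝒪]

/-- The `𝒪`-algebra structure on the dual numbers used in `TangentFinite`. -/
@[reducible] noncomputable def algDN : Algebra 𝒪 (DualNumber (ResidueField 𝒪)) :=
  ((algebraMap (ResidueField 𝒪) (DualNumber (ResidueField 𝒪))).comp
      (algebraMap 𝒪 (ResidueField 𝒪))).toAlgebra

theorem finite_DN [Finite (ResidueField 𝒪)] : Finite (DualNumber (ResidueField 𝒪)) :=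
  inferInstanceAs (Finite (ResidueField 𝒪 × ResidueField 𝒪))

theorem testAlg_DN [Finite (ResidueField 𝒪)] :
    @IsArtinianTestAlgebra 𝒪 _ (DualNumber (ResidueField 𝒪)) _ _ (algDN 𝒪) := by
  letI := algDN 𝒪
  haveI := finite_DN 𝒪
  refine ⟨⟨fun c hc => ?_⟩, ?_, inferInstance⟩
  · have h1 : IsUnit (TrivSqZeroExt.fst (algebraMap 𝒪 (DualNumber (ResidueField 𝒪)) c)) :=
      TrivSqZeroExt.isUnit_iff_isUnit_fst.mp hc
    have h2 : TrivSqZeroExt.fst (algebraMap 𝒪 (DualNumber (ResidueField 𝒪)) c) = residue 𝒪 c := rfl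
    rw [h2] at h1
    by_contra hc'
    rw [(residue_eq_zero_iff c).mpr ((mem_maximalIdeal c).mpr hc')] at h1
    exact not_isUnit_zero h1
  · intro x
    obtain ⟨y, rfl⟩ := residue_surjective x
    obtain ⟨c, hc⟩ := residue_surjective (TrivSqZeroExt.fst y)
    refine ⟨c, ?_⟩
    show residue _ (algebraMap 𝒪 (DualNumber (ResidueField 𝒪)) c) = residue _ y
    rw [← sub_eq_zero, ← map_sub, residue_eq_zero_iff, mem_maximalIdeal, mem_nonunits_iff,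
      TrivSqZeroExt.isUnit_iff_isUnit_fst]
    have h2 : TrivSqZeroExt.fst (algebraMap 𝒪 (DualNumber (ResidueField 𝒪)) c - y) = 0 := by
      rw [TrivSqZeroExt.fst_sub, ← hc]
      exact sub_self _
    rw [h2]
    exact not_isUnit_zero

end DN

section tangent

variable {𝒪 : Type} [CommRing 𝒪] [IsLocalRing 𝒪] [Finite (ResidueField 𝒪)] (C : Ctx 𝒪)
  (𝒟 : ∀ ⦃A : Type⦄ [CommRing A] [IsLocalRing A] [Algebra 𝒪 A], GaloisRepAdic A → Prop)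

/-- The classifying maps of the tangent vectors of type `𝒟`. -/
def TanHom : Type :=
  letI := algDN 𝒪
  {e : C.P →ₐ[𝒪] DualNumber (ResidueField 𝒪) //
    C.𝔪 ≤ (maximalIdeal (DualNumber (ResidueField 𝒪))).comap
      (e : C.P →+* DualNumber (ResidueField 𝒪)) ∧
    ∃ hc : MatCont (DualNumber (ResidueField 𝒪))
      (mapM (e : C.P →+* DualNumber (ResidueField 𝒪)) C.MU),
      𝒟 (ofMat (mapM (e : C.P →+* DualNumber (ResidueField 𝒪)) C.MU) hc)}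

theorem finite_tanHom (ρbar : ResidualGaloisRep (ResidueField 𝒪))
    (hE : ρbar.IsEquiv (ofMatRes C.Mbar C.hf)) (hfin : TangentFinite 𝒪 ρbar 𝒟) :
    Finite (TanHom C 𝒟) := by
  letI := algDN 𝒪
  have hDN : IsArtinianTestAlgebra 𝒪 (DualNumber (ResidueField 𝒪)) := testAlg_DN 𝒪
  haveI hlocDN : IsLocalHom (algebraMap 𝒪 (DualNumber (ResidueField 𝒪))) := hDN.isLocalHom
  unfold TangentFinite at hfin
  have hι : ResidueField.map (algebraMap 𝒪 (DualNumber (ResidueField 𝒪))) =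
      (residue (DualNumber (ResidueField 𝒪))).comp
        (algebraMap (ResidueField 𝒪) (DualNumber (ResidueField 𝒪))) := by
    ext x
    obtain ⟨c, rfl⟩ := residue_surjective x
    rfl
  refine @Finite.of_injective _ _ hfin (fun e : TanHom C 𝒟 => Quotient.mk _
    ⟨ofMat _ e.2.2.choose, e.2.2.choose_spec, ?_⟩) ?_
  · have h1 := C.residue_of_le_comap e.1 e.2.1
    rw [hι] at h1
    exact residual_ofMat_isEquiv_baseChangeAlong ρbar C.Mbar C.hf hE _ _ _ h1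
  · intro e e' h
    have h1 := Quotient.exact h
    have h2 : (ofMat _ e.2.2.choose).IsEquiv (ofMat _ e'.2.2.choose) := h1
    obtain ⟨N, hN, hNM⟩ := (ofMat_isEquiv_iff _ _ _ _).mp h2
    exact Subtype.ext (C.hom_eq_of_conj _ _ e.2.1 e'.2.1 N hN hNM)

end tangent

theorem exists_fg_gen {𝒪 : Type} [CommRing 𝒪] [IsLocalRing 𝒪] [IsNoetherianRing 𝒪]
    [Finite (ResidueField 𝒪)] (C : Ctx 𝒪)
    (𝒟 : ∀ ⦃A : Type⦄ [CommRing A] [IsLocalRing A] [Algebra 𝒪 A], GaloisRepAdic A → Prop)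
    (h𝒟 : GaloisRep.IsDeformationCondition 𝒪 𝒟) (ρbar : ResidualGaloisRep (ResidueField 𝒪))
    (hE : ρbar.IsEquiv (ofMatRes C.Mbar C.hf)) (hfin : GaloisRep.TangentFinite 𝒪 ρbar 𝒟) :
    ∃ 𝔤 : Ideal C.P, 𝔤.FG ∧ 𝔤 ≤ C.𝔪 ∧ ∀ J, Good C 𝒟 J → C.𝔪 ≤ J ⊔ 𝔤 := by
  letI := algDN 𝒪
  have hDN : IsArtinianTestAlgebra 𝒪 (DualNumber (ResidueField 𝒪)) := testAlg_DN 𝒪
  haveI := finite_DN 𝒪
  haveI := finite_tanHom C 𝒟 ρbar hE hfin
  let JT : Ideal C.P :=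
    ⨅ e : TanHom C 𝒟, RingHom.ker (e.1 : C.P →+* DualNumber (ResidueField 𝒪))
  have hJTfin : Finite (C.P ⧸ JT) := by
    let F : C.P →+* (TanHom C 𝒟 → DualNumber (ResidueField 𝒪)) :=
      RingHom.pi fun e => (e.1 : C.P →+* DualNumber (ResidueField 𝒪))
    have hF : ∀ p ∈ JT, F p = 0 := by
      intro p hp
      funext e
      exact (Ideal.mem_iInf.mp hp) e
    refine Finite.of_injective (Ideal.Quotient.lift JT F hF) ?_
    rw [injective_iff_map_eq_zero]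
    intro x hx
    obtain ⟨p, rfl⟩ := Ideal.Quotient.mk_surjective x
    rw [Ideal.Quotient.lift_mk] at hx
    refine Ideal.Quotient.eq_zero_iff_mem.mpr (Ideal.mem_iInf.mpr fun e => ?_)
    exact congrFun hx e
  have hex : ∀ y : (C.𝔪.map (Ideal.Quotient.mk JT)), ∃ p ∈ C.𝔪, Ideal.Quotient.mk JT p = y :=
    fun y => (Ideal.mem_map_iff_of_surjective _ Ideal.Quotient.mk_surjective).mp y.2
  choose pl hpl hpl' using hex
  let 𝔤₀ : Ideal C.P := Ideal.span (Set.range pl)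
  have h𝔤₀fg : 𝔤₀.FG := Submodule.fg_span (Set.finite_range pl)
  have h𝔤₀le : 𝔤₀ ≤ C.𝔪 := by
    rw [Ideal.span_le]
    rintro _ ⟨y, rfl⟩
    exact hpl y
  have h𝔪le : C.𝔪 ≤ JT ⊔ 𝔤₀ := by
    intro p hp
    let y : (C.𝔪.map (Ideal.Quotient.mk JT)) := ⟨Ideal.Quotient.mk JT p, Ideal.mem_map_of_mem _ hp⟩
    have h1 : p - pl y ∈ JT := Ideal.Quotient.eq.mp (hpl' y).symm
    have h2 : p = (p - pl y) + pl y := by ring
    rw [h2]
    exact Ideal.add_mem _ (Ideal.mem_sup_left h1)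
      (Ideal.mem_sup_right (Ideal.subset_span ⟨y, rfl⟩))
  let 𝔫 : Ideal C.P := (maximalIdeal 𝒪).map (algebraMap 𝒪 C.P)
  have h𝔫fg : 𝔫.FG := Ideal.FG.map (IsNoetherian.noetherian _) _
  have h𝔫le : 𝔫 ≤ C.𝔪 := by
    rw [Ideal.map_le_iff_le_comap]
    intro c hc
    exact (C.algebraMap_mem_𝔪_iff c).mpr hc
  refine ⟨𝔤₀ ⊔ 𝔫, Submodule.FG.sup h𝔤₀fg h𝔫fg, sup_le h𝔤₀le h𝔫le, fun J hJ => ?_⟩
  have hJ'le : J ⊔ C.𝔪 ^ 2 ⊔ 𝔫 ≤ C.𝔪 :=
    sup_le (sup_le hJ.le (Ideal.pow_le_self (by norm_num))) h𝔫le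
  have hJ' : Good C 𝒟 (J ⊔ C.𝔪 ^ 2 ⊔ 𝔫) :=
    Good.up h𝒟 hJ (le_sup_left.trans le_sup_left) hJ'le
  have hJT : JT ≤ J ⊔ C.𝔪 ^ 2 ⊔ 𝔫 := by
    intro p hp
    by_contra hpJ'
    haveI := hJ'.isLocalRing
    have hA := hJ'.testAlg
    have ha : Ideal.Quotient.mk (J ⊔ C.𝔪 ^ 2 ⊔ 𝔫) p ≠ 0 := fun h =>
      hpJ' (Ideal.Quotient.eq_zero_iff_mem.mp h)
    obtain ⟨ψ, hψ, hψa⟩ := exists_dualNumber_hom 𝒪 (C.P ⧸ (J ⊔ C.𝔪 ^ 2 ⊔ 𝔫))
      hA.residue_surjective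
      (maximalIdeal_quot_pow C.𝔪 _ hJ'.pow_le 2 (le_sup_right.trans le_sup_left))
      (fun c hc => Ideal.Quotient.eq_zero_iff_mem.mpr
        (Ideal.mem_sup_right (Ideal.mem_map_of_mem _ hc))) _ ha
    let ψ' : C.P ⧸ (J ⊔ C.𝔪 ^ 2 ⊔ 𝔫) →ₐ[𝒪] DualNumber (ResidueField 𝒪) :=
      { ψ with commutes' := fun c => hψ c }
    let e : C.P →ₐ[𝒪] DualNumber (ResidueField 𝒪) := ψ'.comp (Ideal.Quotient.mkₐ 𝒪 _)
    have hJe : J ⊔ C.𝔪 ^ 2 ⊔ 𝔫 ≤ RingHom.ker (e : C.P →+* DualNumber (ResidueField 𝒪)) := by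
      intro x hx
      show ψ (Ideal.Quotient.mk _ x) = 0
      rw [Ideal.Quotient.eq_zero_iff_mem.mpr hx, map_zero]
    have hpush := hJ'.push h𝒟 hDN e hJe
    have h3 := (Ideal.mem_iInf.mp hp) (⟨e, hpush.1, hpush.2⟩ : TanHom C 𝒟)
    exact hψa h3
  obtain ⟨n, hn⟩ := hJ.pow_le
  refine le_of_le_sup_sq C.𝔪 (J ⊔ (𝔤₀ ⊔ 𝔫)) ?_ n (hn.trans le_sup_left)
  refine h𝔪le.trans (sup_le (hJT.trans ?_) ?_)
  · refine sup_le (sup_le ?_ le_sup_right) ?_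
    · exact le_sup_left.trans le_sup_left
    · exact (le_sup_right.trans le_sup_right).trans le_sup_left
  · exact (le_sup_left.trans le_sup_right).trans le_sup_left

end Fermat.Agent.S53
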