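import Mathlib

set_option autoImplicit false

open IsLocalRing

namespace Fermat.Agent.S53

namespace Canonical

theorem isUnit_of_sub_one_mem {B : Type} [CommRing B] [IsLocalRing B] {x : B}
    (h : x - 1 ∈ maximalIdeal B) : IsUnit x := by
  by_contra hx
  have hx' : x ∈ maximalIdeal B := (mem_maximalIdeal x).mpr hx
  have h1 : (1 : B) ∈ maximalIdeal B := by
    have := (maximalIdeal B).sub_mem hx' h
    simp at this
  exact (Ideal.ne_top_iff_one _).mp (Ideal.IsMaximal.ne_top inferInstance) h1

/-- Hensel root of the characteristic polynomial near `1`. -/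
theorem exists_root {B : Type} [CommRing B] [IsLocalRing B]
    [IsAdicComplete (maximalIdeal B) B] (t δ : B)
    (ht : t - 1 ∈ maximalIdeal B) (hδ : δ ∈ maximalIdeal B) :
    ∃ α : B, α ^ 2 - t * α + δ = 0 ∧ α - 1 ∈ maximalIdeal B := by
  classical
  have hH : HenselianRing B (maximalIdeal B) := inferInstance
  let f : Polynomial B := Polynomial.X ^ 2 - Polynomial.C t * Polynomial.X + Polynomial.C δ
  have hfm : f.Monic := by
    show (Polynomial.X ^ 2 - Polynomial.C t * Polynomial.X + Polynomial.C δ).Monic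
    monicity!
  have hf1 : f.eval 1 ∈ maximalIdeal B := by
    have : f.eval 1 = -(t - 1) + δ := by
      simp [f]
    rw [this]
    exact (maximalIdeal B).add_mem ((maximalIdeal B).neg_mem ht) hδ
  have hf' : IsUnit (Ideal.Quotient.mk (maximalIdeal B) (f.derivative.eval 1)) := by
    have : f.derivative.eval 1 = 2 - t := by
      simp [f]; norm_num
    rw [this]
    apply IsUnit.map
    apply isUnit_of_sub_one_mem
    have : (2 - t - 1 : B) = -(t - 1) := by ring
    rw [this]
    exact (maximalIdeal B).neg_mem ht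
  obtain ⟨α, hα, hα1⟩ := hH.is_henselian f hfm 1 hf1 hf'
  refine ⟨α, ?_, hα1⟩
  have := hα
  simpa [f, Polynomial.IsRoot] using this

end Canonical

open Canonical

/-- (C1) rigidity: an intertwiner between two canonical pairs is a scalar. -/
theorem canonical_rigid {B : Type} [CommRing B] [IsLocalRing B]
    (N X X' Y Y' : Matrix (Fin 2) (Fin 2) B) (hN : IsUnit N)
    (hX : N * X = X' * N) (hY : N * Y = Y' * N)
    (h01 : X 0 1 = 0) (h10 : X 1 0 = 0) (h01' : X' 0 1 = 0) (h10' : X' 1 0 = 0)
    (h00 : X 0 0 - 1 ∈ maximalIdeal B) (h11 : X 1 1 ∈ maximalIdeal B)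
    (h00' : X' 0 0 - 1 ∈ maximalIdeal B) (h11' : X' 1 1 ∈ maximalIdeal B)
    (hy : Y 1 0 = 1) (hy' : Y' 1 0 = 1) :
    ∃ c : B, IsUnit c ∧ N = c • (1 : Matrix (Fin 2) (Fin 2) B) := by
  have e01 := congrFun (congrFun hX 0) 1
  have e10 := congrFun (congrFun hX 1) 0
  simp only [Matrix.mul_apply, Fin.sum_univ_two, h01, h10, h01', h10', mul_zero, zero_mul,
    zero_add, add_zero] at e01 e10
  -- N 0 1 * X 1 1 = X' 0 0 * N 0 1
  have u1 : IsUnit (X' 0 0 - X 1 1) := by
    apply isUnit_of_sub_one_mem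
    have : X' 0 0 - X 1 1 - 1 = (X' 0 0 - 1) - X 1 1 := by ring
    rw [this]
    exact (maximalIdeal B).sub_mem h00' h11
  have u2 : IsUnit (X 0 0 - X' 1 1) := by
    apply isUnit_of_sub_one_mem
    have : X 0 0 - X' 1 1 - 1 = (X 0 0 - 1) - X' 1 1 := by ring
    rw [this]
    exact (maximalIdeal B).sub_mem h00 h11'
  have n01 : N 0 1 = 0 := by
    have : (X' 0 0 - X 1 1) * N 0 1 = 0 := by linear_combination -e01
    exact (u1.mul_right_eq_zero).mp this
  have n10 : N 1 0 = 0 := by
    have : (X 0 0 - X' 1 1) * N 1 0 = 0 := by linear_combination e10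
    exact (u2.mul_right_eq_zero).mp this
  have f10 := congrFun (congrFun hY 1) 0
  simp only [Matrix.mul_apply, Fin.sum_univ_two, n10, hy, hy', zero_mul, zero_add, mul_one,
    one_mul, mul_zero, add_zero] at f10
  -- N 1 1 = N 0 0
  have hNeq : N = N 0 0 • (1 : Matrix (Fin 2) (Fin 2) B) := by
    ext i j
    fin_cases i <;> fin_cases j <;> simp [n01, n10, f10]
  refine ⟨N 0 0, ?_, hNeq⟩
  have hdet : IsUnit N.det := (Matrix.isUnit_iff_isUnit_det N).mp hN
  rw [Matrix.det_fin_two, n01, n10, f10] at hdet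
  simp only [mul_zero, sub_zero] at hdet
  exact isUnit_of_mul_isUnit_left hdet

/-- (C2) existence of the canonical form over a complete local ring. -/
theorem canonical_exists {B : Type} [CommRing B] [IsLocalRing B]
    [IsAdicComplete (maximalIdeal B) B]
    (X Y : Matrix (Fin 2) (Fin 2) B)
    (h00 : X 0 0 - 1 ∈ maximalIdeal B) (h01 : X 0 1 ∈ maximalIdeal B)
    (h10 : X 1 0 ∈ maximalIdeal B) (h11 : X 1 1 ∈ maximalIdeal B)
    (hy : Y 1 0 - 1 ∈ maximalIdeal B) :
    ∃ N N' : Matrix (Fin 2) (Fin 2) B, N * N' = 1 ∧ N' * N = 1 ∧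
      (∀ i j, (N - 1) i j ∈ maximalIdeal B) ∧
      (N * X * N') 0 1 = 0 ∧ (N * X * N') 1 0 = 0 ∧ (N * Y * N') 1 0 = 1 := by
  have hr : ∀ x : B, x ∈ maximalIdeal B ↔ residue B x = 0 := fun x => (residue_eq_zero_iff x).symm
  have hr1 : ∀ x : B, x - 1 ∈ maximalIdeal B ↔ residue B x = 1 := fun x => by
    rw [hr, map_sub, map_one, sub_eq_zero]
  set a := X 0 0 with ha
  set b := X 0 1 with hb
  set c := X 1 0 with hc
  set d := X 1 1 with hd
  have ra : residue B a = 1 := (hr1 a).mp h00
  have rb : residue B b = 0 := (hr b).mp h01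
  have rc : residue B c = 0 := (hr c).mp h10
  have rd : residue B d = 0 := (hr d).mp h11
  have ry : residue B (Y 1 0) = 1 := (hr1 _).mp hy
  obtain ⟨α, hα, hα1⟩ := exists_root (a + d) (a * d - b * c)
    ((hr1 _).mpr (by simp [ra, rd])) ((hr _).mpr (by simp [ra, rb, rc, rd]))
  have rα : residue B α = 1 := (hr1 α).mp hα1
  set u := α - d with hu
  have ru : residue B u = 1 := by simp [hu, rα, rd]
  have hΔ : IsUnit (u ^ 2 + b * c) := isUnit_of_sub_one_mem ((hr1 _).mpr (by simp [ru, rb]))
  obtain ⟨e, he⟩ := hΔ.exists_left_inv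
  have re : residue B e = 1 := by
    have := congrArg (residue B) he
    simpa [ru, rb] using this
  set y' := e * ((-c) * (Y 0 0 * u + Y 0 1 * c) + u * (Y 1 0 * u + Y 1 1 * c)) with hy'
  have ry' : residue B y' = 1 := by simp [hy', re, rc, ru, ry]
  have hyu : IsUnit y' := isUnit_of_sub_one_mem ((hr1 _).mpr ry')
  obtain ⟨w, hw⟩ := hyu.exists_left_inv
  have rw' : residue B w = 1 := by
    have := congrArg (residue B) hw
    simpa [ry'] using this
  refine ⟨!![e * u, e * b; -(w * e * c), w * e * u], !![u, -(b * y'); c, u * y'], ?_, ?_, ?_, ?_, ?_, ?_⟩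
  · ext i j
    fin_cases i <;> fin_cases j <;> simp [Matrix.mul_apply, Fin.sum_univ_two]
    · linear_combination he
    · ring
    · ring
    · linear_combination (w * y') * he + hw
  · ext i j
    fin_cases i <;> fin_cases j <;> simp [Matrix.mul_apply, Fin.sum_univ_two]
    · linear_combination (1 : B) * he + (b * c * e) * hw
    · linear_combination (-(b * e * u)) * hw
    · linear_combination (-(c * e * u)) * hw
    · linear_combination (1 : B) * he + (u ^ 2 * e) * hw
  · intro i j
    fin_cases i <;> fin_cases j <;> simp [hr, re, ru, rb, rc, rw']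
  · have : X = !![a, b; c, d] := by
      ext i j; fin_cases i <;> fin_cases j <;> rfl
    rw [this]
    simp [Matrix.mul_apply, Fin.sum_univ_two]
    linear_combination (e * y' * b) * hα
  · have : X = !![a, b; c, d] := by
      ext i j; fin_cases i <;> fin_cases j <;> rfl
    rw [this]
    simp [Matrix.mul_apply, Fin.sum_univ_two]
    linear_combination (w * e * c) * hα
  · have hY : Y = !![Y 0 0, Y 0 1; Y 1 0, Y 1 1] := by
      ext i j; fin_cases i <;> fin_cases j <;> rfl
    rw [hY]
    simp [Matrix.mul_apply, Fin.sum_univ_two]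
    linear_combination hw

end Fermat.Agent.S53
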