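import Fermat.Agent.S53.Univ

set_option autoImplicit false
set_option linter.style.haveILetI false
set_option linter.unusedSectionVars false

open IsLocalRing GaloisRep

namespace Fermat.Agent.S53

section quot

variable {P : Type} [CommRing P] (𝔪 : Ideal P) [h𝔪 : 𝔪.IsMaximal] (J : Ideal P)

theorem eq_map_of_isMaximal_quot (hpow : ∃ n : ℕ, 𝔪 ^ n ≤ J)
    (𝔫 : Ideal (P ⧸ J)) (h𝔫 : 𝔫.IsMaximal) : 𝔫 = 𝔪.map (Ideal.Quotient.mk J) := by
  obtain ⟨n, hn⟩ := hpow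
  have hprime : (𝔫.comap (Ideal.Quotient.mk J)).IsPrime := Ideal.comap_isPrime _ _
  have h1 : 𝔪 ^ n ≤ 𝔫.comap (Ideal.Quotient.mk J) := by
    refine hn.trans ?_
    intro x hx
    rw [Ideal.mem_comap, Ideal.Quotient.eq_zero_iff_mem.mpr hx]
    exact 𝔫.zero_mem
  have h2 : 𝔪 ≤ 𝔫.comap (Ideal.Quotient.mk J) := hprime.le_of_pow_le h1
  have h3 : 𝔪 = 𝔫.comap (Ideal.Quotient.mk J) := h𝔪.eq_of_le hprime.ne_top h2
  rw [h3, Ideal.map_comap_of_surjective _ Ideal.Quotient.mk_surjective]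

theorem isLocalRing_quot (hle : J ≤ 𝔪) (hpow : ∃ n : ℕ, 𝔪 ^ n ≤ J) : IsLocalRing (P ⧸ J) := by
  haveI : Nontrivial (P ⧸ J) :=
    Ideal.Quotient.nontrivial_iff.mpr (ne_top_of_le_ne_top h𝔪.ne_top hle)
  obtain ⟨𝔫, h𝔫⟩ := Ideal.exists_maximal (P ⧸ J)
  exact IsLocalRing.of_unique_max_ideal ⟨𝔫, h𝔫, fun 𝔫' h' =>
    (eq_map_of_isMaximal_quot 𝔪 J hpow 𝔫' h').trans (eq_map_of_isMaximal_quot 𝔪 J hpow 𝔫 h𝔫).symm⟩

theorem maximalIdeal_quot (hpow : ∃ n : ℕ, 𝔪 ^ n ≤ J) [IsLocalRing (P ⧸ J)] :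
    maximalIdeal (P ⧸ J) = 𝔪.map (Ideal.Quotient.mk J) :=
  eq_map_of_isMaximal_quot 𝔪 J hpow _ (maximalIdeal.isMaximal _)

theorem mk_mem_maximalIdeal_quot_iff (hle : J ≤ 𝔪) (hpow : ∃ n : ℕ, 𝔪 ^ n ≤ J)
    [IsLocalRing (P ⧸ J)] (p : P) :
    Ideal.Quotient.mk J p ∈ maximalIdeal (P ⧸ J) ↔ p ∈ 𝔪 := by
  rw [maximalIdeal_quot 𝔪 J hpow]
  constructor
  · intro h
    rw [Ideal.mem_map_iff_of_surjective _ Ideal.Quotient.mk_surjective] at h
    obtain ⟨q, hq, hqp⟩ := h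
    have : q - p ∈ J := Ideal.Quotient.eq.mp hqp
    have h2 : p = q - (q - p) := by ring
    rw [h2]
    exact 𝔪.sub_mem hq (hle this)
  · exact fun h => Ideal.mem_map_of_mem _ h

theorem maximalIdeal_quot_pow (hpow : ∃ n : ℕ, 𝔪 ^ n ≤ J) [IsLocalRing (P ⧸ J)] (n : ℕ)
    (hn : 𝔪 ^ n ≤ J) : maximalIdeal (P ⧸ J) ^ n = ⊥ := by
  rw [maximalIdeal_quot 𝔪 J hpow, ← Ideal.map_pow, Ideal.map_eq_bot_iff_le_ker, Ideal.mk_ker]
  exact hn

end quot

section testalg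

variable {𝒪 : Type} [CommRing 𝒪] [IsLocalRing 𝒪]
variable {A : Type} [CommRing A] [IsLocalRing A] [Algebra 𝒪 A]

theorem testAlg_pow_eq_bot (h : IsArtinianTestAlgebra 𝒪 A) : ∃ n : ℕ, maximalIdeal A ^ n = ⊥ := by
  haveI := h.isArtinian
  obtain ⟨n, hn⟩ := IsArtinianRing.isNilpotent_jacobson_bot (R := A)
  exact ⟨n, by rwa [IsLocalRing.jacobson_eq_maximalIdeal ⊥ bot_ne_top] at hn⟩

theorem testAlg_finite [Finite (ResidueField 𝒪)] (h : IsArtinianTestAlgebra 𝒪 A) : Finite A := by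
  haveI := h.isArtinian
  haveI := h.isLocalHom
  obtain ⟨n, hn⟩ := testAlg_pow_eq_bot h
  have hsurj : Function.Surjective (ResidueField.map (algebraMap 𝒪 A)) := by
    intro x
    obtain ⟨c, hc⟩ := h.residue_surjective x
    exact ⟨residue 𝒪 c, by rw [ResidueField.map_residue]; exact hc⟩
  haveI : Finite (A ⧸ maximalIdeal A) := Finite.of_surjective _ hsurj
  haveI : IsNoetherianRing A := inferInstance
  haveI := Ideal.finite_quotient_pow (IsNoetherian.noetherian (maximalIdeal A)) n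
  rw [hn] at this
  exact Finite.of_equiv _ (RingEquiv.quotientBot A).toEquiv

theorem testAlg_algebraMap_mem (h : IsArtinianTestAlgebra 𝒪 A) {c : 𝒪} (hc : c ∈ maximalIdeal 𝒪) :
    algebraMap 𝒪 A c ∈ maximalIdeal A := by
  haveI := h.isLocalHom
  exact map_nonunit (algebraMap 𝒪 A) c hc

end testalg

/-- The fixed data: a matrix form of `ρbar` together with the two rigidifying elements of the
group algebra. -/
structure Ctx (𝒪 : Type) [CommRing 𝒪] [IsLocalRing 𝒪] where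
  Mbar : GQ →* Matrix (Fin 2) (Fin 2) (ResidueField 𝒪)
  hf : GaloisFactorsThroughFiniteLevel Mbar
  a : GQ →₀ 𝒪
  b : GQ →₀ 𝒪
  ha00 : lin a Mbar 0 0 = 1
  ha01 : lin a Mbar 0 1 = 0
  ha10 : lin a Mbar 1 0 = 0
  ha11 : lin a Mbar 1 1 = 0
  hb : lin b Mbar 1 0 = 1

namespace Ctx

variable {𝒪 : Type} [CommRing 𝒪] [IsLocalRing 𝒪] (C : Ctx 𝒪)

/-- The universal ring. -/
abbrev P : Type := Puniv 𝒪 C.a C.b

/-- The universal matrices. -/
noncomputable abbrev MU : GQ →* Matrix (Fin 2) (Fin 2) C.P := Muniv 𝒪 C.a C.b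

theorem isCanon_Mbar : IsCanon C.a C.b C.Mbar := ⟨C.ha01, C.ha10, C.hb⟩

/-- The classifying map of `Mbar`. -/
noncomputable def evbar : C.P →ₐ[𝒪] ResidueField 𝒪 := Puniv.lift C.Mbar C.isCanon_Mbar

theorem evbar_MU (g : GQ) (i j : Fin 2) : C.evbar (C.MU g i j) = C.Mbar g i j :=
  Puniv.lift_Muniv_apply _ _ g i j

theorem evbar_algebraMap (c : 𝒪) : C.evbar (algebraMap 𝒪 C.P c) = residue 𝒪 c :=
  C.evbar.commutes c

theorem evbar_surjective : Function.Surjective C.evbar := by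
  intro x
  obtain ⟨c, rfl⟩ := residue_surjective x
  exact ⟨algebraMap 𝒪 C.P c, C.evbar_algebraMap c⟩

/-- The maximal ideal of the universal ring. -/
noncomputable def 𝔪 : Ideal C.P := RingHom.ker (C.evbar : C.P →+* ResidueField 𝒪)

theorem mem_𝔪 (p : C.P) : p ∈ C.𝔪 ↔ C.evbar p = 0 := Iff.rfl

instance : C.𝔪.IsMaximal :=
  RingHom.ker_isMaximal_of_surjective (C.evbar : C.P →+* ResidueField 𝒪) C.evbar_surjective

theorem exists_sub_algebraMap_mem (p : C.P) : ∃ c : 𝒪, p - algebraMap 𝒪 C.P c ∈ C.𝔪 := by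
  obtain ⟨c, hc⟩ := residue_surjective (C.evbar p)
  exact ⟨c, by rw [mem_𝔪, map_sub, evbar_algebraMap, hc, sub_self]⟩

theorem algebraMap_mem_𝔪_iff (c : 𝒪) : algebraMap 𝒪 C.P c ∈ C.𝔪 ↔ c ∈ maximalIdeal 𝒪 := by
  rw [mem_𝔪, evbar_algebraMap, residue_eq_zero_iff]

theorem mk_algebraMap_surjective :
    Function.Surjective (fun c : 𝒪 => Ideal.Quotient.mk C.𝔪 (algebraMap 𝒪 C.P c)) := by
  intro x
  obtain ⟨p, rfl⟩ := Ideal.Quotient.mk_surjective x
  obtain ⟨c, hc⟩ := C.exists_sub_algebraMap_mem p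
  exact ⟨c, (Ideal.Quotient.eq.mpr hc).symm⟩

/-- The tautological matrix representation modulo `J`. -/
noncomputable abbrev Mq (J : Ideal C.P) : GQ →* Matrix (Fin 2) (Fin 2) (C.P ⧸ J) :=
  mapM (Ideal.Quotient.mk J) C.MU

/-- Continuity modulo `J`. -/
def ContMod (J : Ideal C.P) : Prop :=
  ∃ L : IntermediateField ℚ (AlgebraicClosure ℚ), FiniteDimensional ℚ L ∧
    ∀ σ : GQ, (∀ x ∈ L, σ x = x) → ∀ i j, (C.MU σ - 1) i j ∈ J

theorem ContMod.mono {J J' : Ideal C.P} (h : C.ContMod J) (hJ : J ≤ J') : C.ContMod J' := by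
  obtain ⟨L, hL, h⟩ := h
  exact ⟨L, hL, fun σ hσ i j => hJ (h σ hσ i j)⟩

theorem ContMod.inf {J J' : Ideal C.P} (h : C.ContMod J) (h' : C.ContMod J') :
    C.ContMod (J ⊓ J') := by
  obtain ⟨L, hL, h⟩ := h
  obtain ⟨L', hL', h'⟩ := h'
  refine ⟨L ⊔ L', IntermediateField.finiteDimensional_sup L L', fun σ hσ i j => ⟨?_, ?_⟩⟩
  · exact h σ (fun x hx => hσ x ((le_sup_left : L ≤ L ⊔ L') hx)) i j
  · exact h' σ (fun x hx => hσ x ((le_sup_right : L' ≤ L ⊔ L') hx)) i j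

theorem map_sub_one_apply {A B : Type} [CommRing A] [CommRing B] (φ : A →+* B)
    (N : Matrix (Fin 2) (Fin 2) A) (i j : Fin 2) : (N.map φ - 1) i j = φ ((N - 1) i j) := by
  simp only [Matrix.sub_apply, Matrix.map_apply, map_sub, Matrix.one_apply]
  split_ifs <;> simp

/-- continuity of a push-forward of the universal representation which kills `J`. -/
theorem ContMod.matCont {J : Ideal C.P} (h : C.ContMod J) {B : Type} [CommRing B] [IsLocalRing B]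
    (e : C.P →+* B) (he : J ≤ RingHom.ker e) : MatCont B (mapM e C.MU) := by
  obtain ⟨L, hL, h⟩ := h
  intro n
  refine ⟨L, hL, fun σ hσ i j => ?_⟩
  rw [mapM_apply, map_sub_one_apply, (RingHom.mem_ker).mp (he (h σ hσ i j))]
  exact Ideal.zero_mem _

theorem ContMod.of_matCont {B : Type} [CommRing B] [IsLocalRing B]
    (e : C.P →+* B) (h : MatCont B (mapM e C.MU)) (hB : ∃ n : ℕ, maximalIdeal B ^ n = ⊥) :
    C.ContMod (RingHom.ker e) := by
  obtain ⟨n, hn⟩ := hB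
  obtain ⟨L, hL, h⟩ := h n
  refine ⟨L, hL, fun σ hσ i j => ?_⟩
  have := h σ hσ i j
  rw [mapM_apply, map_sub_one_apply, hn] at this
  exact this

end Ctx

end Fermat.Agent.S53
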