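import Fermat.Statements.S53

set_option autoImplicit false

open IsLocalRing

namespace Fermat.Agent.S53

/-- The absolute Galois group of `ℚ`. -/
abbrev GQ : Type := AlgebraicClosure ℚ ≃ₐ[ℚ] AlgebraicClosure ℚ

/-- Adic continuity for a matrix valued map. -/
def MatCont (A : Type) [CommRing A] [IsLocalRing A] (M : GQ → Matrix (Fin 2) (Fin 2) A) : Prop :=
  ∀ n : ℕ, ∃ L : IntermediateField ℚ (AlgebraicClosure ℚ), FiniteDimensional ℚ L ∧
    ∀ σ : GQ, (∀ x ∈ L, σ x = x) → ∀ i j, (M σ - 1) i j ∈ maximalIdeal A ^ n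

theorem mulVec_mem_smul_top {A : Type} [CommRing A] (I : Ideal A)
    (N : Matrix (Fin 2) (Fin 2) A) (hN : ∀ i j, N i j ∈ I) (v : Fin 2 → A) :
    N.mulVec v ∈ I • (⊤ : Submodule A (Fin 2 → A)) := by
  have h : N.mulVec v = ∑ i, (N.mulVec v i) • (Pi.single i (1 : A) : Fin 2 → A) := by
    funext j
    simp [Finset.sum_apply, Pi.single_apply]
  rw [h]
  refine Submodule.sum_mem _ fun i _ => Submodule.smul_mem_smul ?_ Submodule.mem_top
  simp only [Matrix.mulVec, dotProduct]
  exact Ideal.sum_mem _ fun j _ => Ideal.mul_mem_right _ _ (hN i j)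

/-- The adic Galois representation attached to a continuous matrix representation. -/
noncomputable def ofMat {A : Type} [CommRing A] [IsLocalRing A]
    (M : GQ →* Matrix (Fin 2) (Fin 2) A) (hM : MatCont A M) : GaloisRepAdic A where
  V := Fin 2 → A
  finrank_eq := by simp
  ρ := (Matrix.toLinAlgEquiv' : Matrix (Fin 2) (Fin 2) A ≃ₐ[A] _).toAlgHom.toRingHom.toMonoidHom.comp M
  isAdicContinuous := by
    intro n
    obtain ⟨L, hL, h⟩ := hM n
    refine ⟨L, hL, fun σ hσ v => ?_⟩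
    have := mulVec_mem_smul_top (maximalIdeal A ^ n) (M σ - 1) (h σ hσ) v
    simpa [Matrix.sub_mulVec] using this

@[simp] theorem ofMat_ρ_apply {A : Type} [CommRing A] [IsLocalRing A]
    (M : GQ →* Matrix (Fin 2) (Fin 2) A) (hM : MatCont A M) (σ : GQ) (v : Fin 2 → A) :
    (ofMat M hM).ρ σ v = (M σ).mulVec v := rfl

/-- The residual Galois representation attached to a matrix representation over a field. -/
noncomputable def ofMatRes {k : Type} [Field k]
    (M : GQ →* Matrix (Fin 2) (Fin 2) k) (hM : GaloisFactorsThroughFiniteLevel M) :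
    ResidualGaloisRep k where
  V := Fin 2 → k
  finrank_eq := by simp
  ρ := (Matrix.toLinAlgEquiv' : Matrix (Fin 2) (Fin 2) k ≃ₐ[k] _).toAlgHom.toRingHom.toMonoidHom.comp M
  factorsThroughFiniteLevel := by
    obtain ⟨L, hL, h⟩ := hM
    refine ⟨L, hL, fun σ hσ => ?_⟩
    simp [h σ hσ]

@[simp] theorem ofMatRes_ρ_apply {k : Type} [Field k]
    (M : GQ →* Matrix (Fin 2) (Fin 2) k) (hM : GaloisFactorsThroughFiniteLevel M) (σ : GQ)
    (v : Fin 2 → k) :
    (ofMatRes M hM).ρ σ v = (M σ).mulVec v := rfl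

/-- Push a matrix representation forward along a ring hom. -/
noncomputable def mapM {A B : Type} [CommRing A] [CommRing B] (φ : A →+* B)
    (M : GQ →* Matrix (Fin 2) (Fin 2) A) : GQ →* Matrix (Fin 2) (Fin 2) B :=
  (RingHom.mapMatrix φ : Matrix (Fin 2) (Fin 2) A →+* Matrix (Fin 2) (Fin 2) B).toMonoidHom.comp M

@[simp] theorem mapM_apply {A B : Type} [CommRing A] [CommRing B] (φ : A →+* B)
    (M : GQ →* Matrix (Fin 2) (Fin 2) A) (σ : GQ) : mapM φ M σ = (M σ).map φ := rfl

theorem mapM_apply_apply {A B : Type} [CommRing A] [CommRing B] (φ : A →+* B)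
    (M : GQ →* Matrix (Fin 2) (Fin 2) A) (σ : GQ) (i j : Fin 2) :
    mapM φ M σ i j = φ (M σ i j) := rfl

theorem mapM_comp {A B C : Type} [CommRing A] [CommRing B] [CommRing C] (φ : A →+* B)
    (ψ : B →+* C) (M : GQ →* Matrix (Fin 2) (Fin 2) A) :
    mapM ψ (mapM φ M) = mapM (ψ.comp φ) M := by
  ext σ i j; rfl

theorem MatCont.map {A B : Type} [CommRing A] [IsLocalRing A] [CommRing B] [IsLocalRing B]
    {M : GQ →* Matrix (Fin 2) (Fin 2) A} (hM : MatCont A M) (φ : A →+* B) (hφ : IsLocalHom φ) :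
    MatCont B (mapM φ M) := by
  intro n
  obtain ⟨L, hL, h⟩ := hM n
  refine ⟨L, hL, fun σ hσ i j => ?_⟩
  have hmap : (maximalIdeal A ^ n).map φ ≤ maximalIdeal B ^ n := by
    rw [Ideal.map_pow]
    exact Ideal.pow_right_mono (Ideal.map_le_iff_le_comap.mpr fun a ha =>
      Ideal.mem_comap.mpr (haveI := hφ; map_nonunit φ a ha)) n
  have h1 : (mapM φ M σ - 1) i j = φ ((M σ - 1) i j) := by
    simp only [mapM_apply, Matrix.sub_apply, Matrix.map_apply, map_sub, Matrix.one_apply]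
    split_ifs <;> simp
  rw [h1]
  exact hmap (Ideal.mem_map_of_mem φ (h σ hσ i j))

/-- The linear combination `Σ_g a_g • M g`. -/
noncomputable def lin {𝒪 B : Type} [CommRing 𝒪] [CommRing B] [Algebra 𝒪 B] (a : GQ →₀ 𝒪)
    (M : GQ → Matrix (Fin 2) (Fin 2) B) : Matrix (Fin 2) (Fin 2) B :=
  a.sum fun g c => algebraMap 𝒪 B c • M g

end Fermat.Agent.S53
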