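import Fermat.Agent.S53.Defs

/-!
# Dictionary between `GaloisRepAdic` / `ResidualGaloisRep` and matrix representations
-/

set_option autoImplicit false
set_option linter.unusedSectionVars false

open scoped TensorProduct
open Module IsLocalRing

namespace Fermat.Agent.S53

section Mat

variable {A : Type} [CommRing A] [IsLocalRing A]

/-- The matrix representation of a `GaloisRepAdic` in a basis. -/
noncomputable def adicMat (ρ : GaloisRepAdic A) (b : Basis (Fin 2) A ρ.V) :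
    GQ →* Matrix (Fin 2) (Fin 2) A :=
  ((LinearMap.toMatrixAlgEquiv b).toAlgHom.toRingHom.toMonoidHom).comp ρ.ρ

theorem adicMat_apply (ρ : GaloisRepAdic A) (b : Basis (Fin 2) A ρ.V) (σ : GQ) :
    adicMat ρ b σ = LinearMap.toMatrix b b (ρ.ρ σ) := rfl

theorem repr_mem_of_mem_smul_top {M : Type} [AddCommGroup M] [Module A M]
    (b : Basis (Fin 2) A M) (I : Ideal A) {x : M} (hx : x ∈ I • (⊤ : Submodule A M)) (i : Fin 2) :
    b.repr x i ∈ I := by
  refine Submodule.smul_induction_on (p := fun x => b.repr x i ∈ I) hx ?_ ?_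
  · intro a ha v _
    simpa using I.mul_mem_right _ ha
  · intro x y hx hy
    simpa using I.add_mem hx hy

theorem adicMat_cont (ρ : GaloisRepAdic A) (b : Basis (Fin 2) A ρ.V) :
    MatCont A (adicMat ρ b) := by
  intro n
  obtain ⟨L, hL, h1⟩ := ρ.isAdicContinuous n
  refine ⟨L, hL, fun σ hσ i j => ?_⟩
  have h2 := repr_mem_of_mem_smul_top b _ (h1 σ hσ (b j)) i
  rw [adicMat_apply, Matrix.sub_apply, LinearMap.toMatrix_apply, Matrix.one_apply]
  rw [map_sub, Finsupp.sub_apply, Basis.repr_self, Finsupp.single_apply] at h2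
  simpa [eq_comm] using h2

/-- Two adic representations with equal matrices in some bases are equivalent. -/
theorem isEquiv_of_adicMat_eq (ρ₁ ρ₂ : GaloisRepAdic A) (b₁ : Basis (Fin 2) A ρ₁.V)
    (b₂ : Basis (Fin 2) A ρ₂.V) (h : ∀ σ, adicMat ρ₁ b₁ σ = adicMat ρ₂ b₂ σ) :
    ρ₁.IsEquiv ρ₂ := by
  refine ⟨⟨b₁.equiv b₂ (Equiv.refl _), fun σ x => ?_⟩⟩
  apply b₂.repr.injective
  ext i
  have e1 : ∀ y : ρ₁.V, (b₂.repr (b₁.equiv b₂ (Equiv.refl _) y) : Fin 2 → A) = b₁.repr y := by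
    intro y
    ext j
    simp [Basis.equiv]
  have h1 := LinearMap.toMatrix_mulVec_repr b₁ b₁ (ρ₁.ρ σ) x
  have h2 := LinearMap.toMatrix_mulVec_repr b₂ b₂ (ρ₂.ρ σ) (b₁.equiv b₂ (Equiv.refl _) x)
  rw [e1 x, ← adicMat_apply, ← h σ, adicMat_apply, h1] at h2
  rw [← h2, e1]

/-- The standard basis of `ofMat M hM`. -/
noncomputable def ofMatBasis (M : GQ →* Matrix (Fin 2) (Fin 2) A) (hM : MatCont A M) :
    Basis (Fin 2) A (ofMat M hM).V :=
  Pi.basisFun A (Fin 2)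

theorem adicMat_ofMat (M : GQ →* Matrix (Fin 2) (Fin 2) A) (hM : MatCont A M) (σ : GQ) :
    adicMat (ofMat M hM) (ofMatBasis M hM) σ = M σ := by
  show LinearMap.toMatrix (Pi.basisFun A (Fin 2)) (Pi.basisFun A (Fin 2))
    (Matrix.toLin' (M σ)) = M σ
  rw [LinearMap.toMatrix_eq_toMatrix', LinearMap.toMatrix'_toLin']

theorem isEquiv_ofMat_adicMat (ρ : GaloisRepAdic A) (b : Basis (Fin 2) A ρ.V) :
    ρ.IsEquiv (ofMat (adicMat ρ b) (adicMat_cont ρ b)) :=
  isEquiv_of_adicMat_eq ρ _ b (ofMatBasis _ _) fun σ => (adicMat_ofMat _ _ σ).symm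

/-- Some basis of a `GaloisRepAdic`. -/
noncomputable def someBasis (ρ : GaloisRepAdic A) : Basis (Fin 2) A ρ.V :=
  Module.finBasisOfFinrankEq A ρ.V ρ.finrank_eq

/-- Every adic representation is equivalent to a matrix representation. -/
theorem exists_isEquiv_ofMat (ρ : GaloisRepAdic A) :
    ∃ (M : GQ →* Matrix (Fin 2) (Fin 2) A) (hM : MatCont A M), ρ.IsEquiv (ofMat M hM) :=
  ⟨_, _, isEquiv_ofMat_adicMat ρ (someBasis ρ)⟩

/-- `ofMat` only depends on the matrices. -/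
theorem ofMat_isEquiv_of_eq {M M' : GQ →* Matrix (Fin 2) (Fin 2) A} (hM : MatCont A M)
    (hM' : MatCont A M') (h : ∀ σ, M σ = M' σ) : (ofMat M hM).IsEquiv (ofMat M' hM') :=
  isEquiv_of_adicMat_eq _ _ (ofMatBasis _ _) (ofMatBasis _ _) fun σ => by
    rw [adicMat_ofMat, adicMat_ofMat, h]

/-- Transport of a basis along an equivalence keeps the matrices. -/
theorem adicMat_map_equiv {ρ₁ ρ₂ : GaloisRepAdic A} (e : GaloisRepAdic.Equiv ρ₁ ρ₂)
    (b : Basis (Fin 2) A ρ₁.V) (σ : GQ) :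
    adicMat ρ₂ (b.map e.toLinearEquiv) σ = adicMat ρ₁ b σ := by
  rw [adicMat_apply, adicMat_apply]
  ext i j
  rw [LinearMap.toMatrix_apply, LinearMap.toMatrix_apply]
  simp only [Basis.map_apply, Basis.map_repr, LinearEquiv.trans_apply]
  rw [← e.map_apply, LinearEquiv.symm_apply_apply]

theorem IsEquiv.refl' (ρ : GaloisRepAdic A) : ρ.IsEquiv ρ := ⟨GaloisRepAdic.Equiv.refl ρ⟩

theorem IsEquiv.symm' {ρ₁ ρ₂ : GaloisRepAdic A} (h : ρ₁.IsEquiv ρ₂) : ρ₂.IsEquiv ρ₁ :=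
  h.elim fun e => ⟨e.symm⟩

theorem IsEquiv.trans' {ρ₁ ρ₂ ρ₃ : GaloisRepAdic A} (h : ρ₁.IsEquiv ρ₂) (h' : ρ₂.IsEquiv ρ₃) :
    ρ₁.IsEquiv ρ₃ :=
  h.elim fun e => h'.elim fun e' => ⟨e.trans e'⟩

end Mat

section BaseChange

variable {A : Type} [CommRing A] [IsLocalRing A] {B : Type} [CommRing B] [IsLocalRing B]

/-- The base-changed basis. -/
noncomputable def baseChangeBasis (φ : A →+* B) (hφ : IsLocalHom φ) (ρ : GaloisRepAdic A)
    (b : Basis (Fin 2) A ρ.V) : Basis (Fin 2) B (ρ.baseChangeAlong φ hφ).V :=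
  letI : Algebra A B := φ.toAlgebra
  Algebra.TensorProduct.basis B b

theorem adicMat_baseChangeAlong (φ : A →+* B) (hφ : IsLocalHom φ) (ρ : GaloisRepAdic A)
    (b : Basis (Fin 2) A ρ.V) (σ : GQ) :
    adicMat (ρ.baseChangeAlong φ hφ) (baseChangeBasis φ hφ ρ b) σ = (adicMat ρ b σ).map φ := by
  let _ : Algebra A B := φ.toAlgebra
  exact LinearMap.toMatrix_baseChange B (ρ.ρ σ) b b

theorem baseChangeAlong_ofMat_isEquiv (φ : A →+* B) (hφ : IsLocalHom φ)
    (M : GQ →* Matrix (Fin 2) (Fin 2) A) (hM : MatCont A M) (hM' : MatCont B (mapM φ M)) :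
    ((ofMat M hM).baseChangeAlong φ hφ).IsEquiv (ofMat (mapM φ M) hM') := by
  refine isEquiv_of_adicMat_eq _ _ (baseChangeBasis φ hφ _ (ofMatBasis M hM)) (ofMatBasis _ _)
    fun σ => ?_
  rw [adicMat_baseChangeAlong, adicMat_ofMat, adicMat_ofMat, mapM_apply]

theorem IsEquiv.baseChangeAlong' (φ : A →+* B) (hφ : IsLocalHom φ) {ρ₁ ρ₂ : GaloisRepAdic A}
    (h : ρ₁.IsEquiv ρ₂) : (ρ₁.baseChangeAlong φ hφ).IsEquiv (ρ₂.baseChangeAlong φ hφ) :=
  h.elim fun e => ⟨e.baseChangeAlong φ hφ⟩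

end BaseChange

section Conj

variable {A : Type} [CommRing A] [IsLocalRing A]

theorem ofMat_isEquiv_iff (M M' : GQ →* Matrix (Fin 2) (Fin 2) A) (hM : MatCont A M)
    (hM' : MatCont A M') :
    (ofMat M hM).IsEquiv (ofMat M' hM') ↔
      ∃ N : Matrix (Fin 2) (Fin 2) A, IsUnit N ∧ ∀ σ, N * M σ = M' σ * N := by
  constructor
  · rintro ⟨e⟩
    let f : (Fin 2 → A) ≃ₗ[A] (Fin 2 → A) := e.toLinearEquiv
    refine ⟨LinearMap.toMatrix' f.toLinearMap,
      ⟨⟨LinearMap.toMatrix' f.toLinearMap, LinearMap.toMatrix' f.symm.toLinearMap, ?_, ?_⟩, rfl⟩,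
      fun σ => ?_⟩
    · rw [← LinearMap.toMatrix'_comp]
      simp
    · rw [← LinearMap.toMatrix'_comp]
      simp
    · apply Matrix.toLin'.injective
      rw [Matrix.toLin'_mul, Matrix.toLin'_mul, Matrix.toLin'_toMatrix']
      refine LinearMap.ext fun y => ?_
      exact e.map_apply σ y
  · rintro ⟨_, ⟨U, rfl⟩, hU⟩
    refine ⟨⟨Matrix.toLin'OfInv (M' := (U : Matrix (Fin 2) (Fin 2) A))
      (M := ((U⁻¹ : (Matrix (Fin 2) (Fin 2) A)ˣ) : Matrix (Fin 2) (Fin 2) A)) (by simp) (by simp),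
      fun σ x => ?_⟩⟩
    have key : ∀ x : Fin 2 → A, (U : Matrix (Fin 2) (Fin 2) A).mulVec ((M σ).mulVec x)
      = (M' σ).mulVec ((U : Matrix (Fin 2) (Fin 2) A).mulVec x) := by
      intro x
      rw [Matrix.mulVec_mulVec, Matrix.mulVec_mulVec, hU]
    exact key x

end Conj

section Residual

variable {k : Type} [Field k]

/-- The matrix representation of a `ResidualGaloisRep` in a basis. -/
noncomputable def resMat (ρ : ResidualGaloisRep k) (b : Basis (Fin 2) k ρ.V) :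
    GQ →* Matrix (Fin 2) (Fin 2) k :=
  ((LinearMap.toMatrixAlgEquiv b).toAlgHom.toRingHom.toMonoidHom).comp ρ.ρ

theorem resMat_apply (ρ : ResidualGaloisRep k) (b : Basis (Fin 2) k ρ.V) (σ : GQ) :
    resMat ρ b σ = LinearMap.toMatrix b b (ρ.ρ σ) := rfl

theorem resMat_factors (ρ : ResidualGaloisRep k) (b : Basis (Fin 2) k ρ.V) :
    GaloisFactorsThroughFiniteLevel (resMat ρ b) := by
  obtain ⟨L, hL, h⟩ := ρ.factorsThroughFiniteLevel
  refine ⟨L, hL, fun σ hσ => ?_⟩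
  rw [resMat_apply, h σ hσ]
  exact LinearMap.toMatrix_one b

theorem res_isEquiv_of_resMat_eq (ρ₁ ρ₂ : ResidualGaloisRep k) (b₁ : Basis (Fin 2) k ρ₁.V)
    (b₂ : Basis (Fin 2) k ρ₂.V) (h : ∀ σ, resMat ρ₁ b₁ σ = resMat ρ₂ b₂ σ) :
    ρ₁.IsEquiv ρ₂ := by
  refine ⟨⟨b₁.equiv b₂ (Equiv.refl _), fun σ x => ?_⟩⟩
  apply b₂.repr.injective
  ext i
  have e1 : ∀ y : ρ₁.V, (b₂.repr (b₁.equiv b₂ (Equiv.refl _) y) : Fin 2 → k) = b₁.repr y := by
    intro y
    ext j
    simp [Basis.equiv]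
  have h1 := LinearMap.toMatrix_mulVec_repr b₁ b₁ (ρ₁.ρ σ) x
  have h2 := LinearMap.toMatrix_mulVec_repr b₂ b₂ (ρ₂.ρ σ) (b₁.equiv b₂ (Equiv.refl _) x)
  rw [e1 x, ← resMat_apply, ← h σ, resMat_apply, h1] at h2
  rw [← h2, e1]

theorem resMat_map_equiv {ρ₁ ρ₂ : ResidualGaloisRep k} (e : ResidualGaloisRep.Equiv ρ₁ ρ₂)
    (b : Basis (Fin 2) k ρ₁.V) (σ : GQ) :
    resMat ρ₂ (b.map e.toLinearEquiv) σ = resMat ρ₁ b σ := by
  rw [resMat_apply, resMat_apply]
  ext i j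
  rw [LinearMap.toMatrix_apply, LinearMap.toMatrix_apply]
  simp only [Basis.map_apply, Basis.map_repr, LinearEquiv.trans_apply]
  rw [← e.map_apply, LinearEquiv.symm_apply_apply]

/-- The standard basis of `ofMatRes M hM`. -/
noncomputable def ofMatResBasis (M : GQ →* Matrix (Fin 2) (Fin 2) k)
    (hM : GaloisFactorsThroughFiniteLevel M) : Basis (Fin 2) k (ofMatRes M hM).V :=
  Pi.basisFun k (Fin 2)

theorem resMat_ofMatRes (M : GQ →* Matrix (Fin 2) (Fin 2) k)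
    (hM : GaloisFactorsThroughFiniteLevel M) (σ : GQ) :
    resMat (ofMatRes M hM) (ofMatResBasis M hM) σ = M σ := by
  show LinearMap.toMatrix (Pi.basisFun k (Fin 2)) (Pi.basisFun k (Fin 2))
    (Matrix.toLin' (M σ)) = M σ
  rw [LinearMap.toMatrix_eq_toMatrix', LinearMap.toMatrix'_toLin']

theorem res_isEquiv_ofMatRes_resMat (ρ : ResidualGaloisRep k) (b : Basis (Fin 2) k ρ.V) :
    ρ.IsEquiv (ofMatRes (resMat ρ b) (resMat_factors ρ b)) :=
  res_isEquiv_of_resMat_eq ρ _ b (ofMatResBasis _ _) fun σ => (resMat_ofMatRes _ _ σ).symm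

/-- Some basis of a `ResidualGaloisRep`. -/
noncomputable def someResBasis (ρ : ResidualGaloisRep k) : Basis (Fin 2) k ρ.V :=
  Module.finBasisOfFinrankEq k ρ.V ρ.finrank_eq

theorem exists_isEquiv_ofMatRes (ρ : ResidualGaloisRep k) :
    ∃ (M : GQ →* Matrix (Fin 2) (Fin 2) k) (hM : GaloisFactorsThroughFiniteLevel M),
      ρ.IsEquiv (ofMatRes M hM) :=
  ⟨_, _, res_isEquiv_ofMatRes_resMat ρ (someResBasis ρ)⟩

theorem ofMatRes_isEquiv_of_eq {M M' : GQ →* Matrix (Fin 2) (Fin 2) k}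
    (hM : GaloisFactorsThroughFiniteLevel M) (hM' : GaloisFactorsThroughFiniteLevel M')
    (h : ∀ σ, M σ = M' σ) : (ofMatRes M hM).IsEquiv (ofMatRes M' hM') :=
  res_isEquiv_of_resMat_eq _ _ (ofMatResBasis _ _) (ofMatResBasis _ _) fun σ => by
    rw [resMat_ofMatRes, resMat_ofMatRes, h]

theorem ResIsEquiv.refl' (ρ : ResidualGaloisRep k) : ρ.IsEquiv ρ :=
  ⟨ResidualGaloisRep.Equiv.refl ρ⟩

theorem ResIsEquiv.symm' {ρ₁ ρ₂ : ResidualGaloisRep k} (h : ρ₁.IsEquiv ρ₂) : ρ₂.IsEquiv ρ₁ :=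
  h.elim fun e => ⟨e.symm⟩

theorem ResIsEquiv.trans' {ρ₁ ρ₂ ρ₃ : ResidualGaloisRep k} (h : ρ₁.IsEquiv ρ₂)
    (h' : ρ₂.IsEquiv ρ₃) : ρ₁.IsEquiv ρ₃ :=
  h.elim fun e => h'.elim fun e' => ⟨e.trans e'⟩

theorem ResIsEquiv.baseChangeAlong' {k' : Type} [Field k'] (ι : k →+* k')
    {ρ₁ ρ₂ : ResidualGaloisRep k} (h : ρ₁.IsEquiv ρ₂) :
    (ρ₁.baseChangeAlong ι).IsEquiv (ρ₂.baseChangeAlong ι) :=
  h.elim fun e => ⟨e.baseChangeAlong ι⟩

theorem factors_mapM {A B : Type} [CommRing A] [CommRing B] (φ : A →+* B)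
    {M : GQ →* Matrix (Fin 2) (Fin 2) A}
    (hM : GaloisFactorsThroughFiniteLevel M) : GaloisFactorsThroughFiniteLevel (mapM φ M) := by
  obtain ⟨L, hL, h⟩ := hM
  refine ⟨L, hL, fun σ hσ => ?_⟩
  rw [mapM_apply, h σ hσ]
  exact (RingHom.mapMatrix φ).map_one

theorem ofMatRes_isEquiv_iff (M M' : GQ →* Matrix (Fin 2) (Fin 2) k)
    (hM : GaloisFactorsThroughFiniteLevel M) (hM' : GaloisFactorsThroughFiniteLevel M') :
    (ofMatRes M hM).IsEquiv (ofMatRes M' hM') ↔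
      ∃ N : Matrix (Fin 2) (Fin 2) k, IsUnit N ∧ ∀ σ, N * M σ = M' σ * N := by
  constructor
  · rintro ⟨e⟩
    let f : (Fin 2 → k) ≃ₗ[k] (Fin 2 → k) := e.toLinearEquiv
    refine ⟨LinearMap.toMatrix' f.toLinearMap,
      ⟨⟨LinearMap.toMatrix' f.toLinearMap, LinearMap.toMatrix' f.symm.toLinearMap, ?_, ?_⟩, rfl⟩,
      fun σ => ?_⟩
    · rw [← LinearMap.toMatrix'_comp]
      simp
    · rw [← LinearMap.toMatrix'_comp]
      simp
    · apply Matrix.toLin'.injective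
      rw [Matrix.toLin'_mul, Matrix.toLin'_mul, Matrix.toLin'_toMatrix']
      refine LinearMap.ext fun y => ?_
      exact e.map_apply σ y
  · rintro ⟨_, ⟨U, rfl⟩, hU⟩
    refine ⟨⟨Matrix.toLin'OfInv (M' := (U : Matrix (Fin 2) (Fin 2) k))
      (M := ((U⁻¹ : (Matrix (Fin 2) (Fin 2) k)ˣ) : Matrix (Fin 2) (Fin 2) k)) (by simp) (by simp),
      fun σ x => ?_⟩⟩
    have key : ∀ x : Fin 2 → k, (U : Matrix (Fin 2) (Fin 2) k).mulVec ((M σ).mulVec x)
      = (M' σ).mulVec ((U : Matrix (Fin 2) (Fin 2) k).mulVec x) := by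
      intro x
      rw [Matrix.mulVec_mulVec, Matrix.mulVec_mulVec, hU]
    exact key x

/-- base-changed basis of a residual representation. -/
noncomputable def resBaseChangeBasis {k' : Type} [Field k'] (ι : k →+* k') (ρ : ResidualGaloisRep k)
    (b : Basis (Fin 2) k ρ.V) : Basis (Fin 2) k' (ρ.baseChangeAlong ι).V :=
  letI : Algebra k k' := ι.toAlgebra
  Algebra.TensorProduct.basis k' b

theorem resMat_baseChangeAlong {k' : Type} [Field k'] (ι : k →+* k') (ρ : ResidualGaloisRep k)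
    (b : Basis (Fin 2) k ρ.V) (σ : GQ) :
    resMat (ρ.baseChangeAlong ι) (resBaseChangeBasis ι ρ b) σ = (resMat ρ b σ).map ι := by
  let _ : Algebra k k' := ι.toAlgebra
  exact LinearMap.toMatrix_baseChange k' (ρ.ρ σ) b b

theorem baseChangeAlong_ofMatRes_isEquiv {k' : Type} [Field k'] (ι : k →+* k')
    (M : GQ →* Matrix (Fin 2) (Fin 2) k) (hM : GaloisFactorsThroughFiniteLevel M)
    (hM' : GaloisFactorsThroughFiniteLevel (mapM ι M)) :
    ((ofMatRes M hM).baseChangeAlong ι).IsEquiv (ofMatRes (mapM ι M) hM') := by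
  refine res_isEquiv_of_resMat_eq _ _ (resBaseChangeBasis ι _ (ofMatResBasis M hM))
    (ofMatResBasis _ _) fun σ => ?_
  rw [resMat_baseChangeAlong, resMat_ofMatRes, resMat_ofMatRes, mapM_apply]

variable {A : Type} [CommRing A] [IsLocalRing A]

/-- the residual basis attached to a basis. -/
noncomputable def residualBasis (ρ : GaloisRepAdic A) (b : Basis (Fin 2) A ρ.V) :
    Basis (Fin 2) (ResidueField A) ρ.residual.V :=
  Algebra.TensorProduct.basis (ResidueField A) b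

theorem resMat_residual (ρ : GaloisRepAdic A) (b : Basis (Fin 2) A ρ.V) (σ : GQ) :
    resMat ρ.residual (residualBasis ρ b) σ = (adicMat ρ b σ).map (residue A) :=
  LinearMap.toMatrix_baseChange (ResidueField A) (ρ.ρ σ) b b

/-- A continuous matrix representation is residually of finite level. -/
theorem MatCont.factors_residue {M : GQ →* Matrix (Fin 2) (Fin 2) A} (hM : MatCont A M) :
    GaloisFactorsThroughFiniteLevel (mapM (residue A) M) := by
  obtain ⟨L, hL, h⟩ := hM 1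
  refine ⟨L, hL, fun σ hσ => ?_⟩
  ext i j
  have h1 := h σ hσ i j
  rw [pow_one, ← residue_eq_zero_iff, Matrix.sub_apply, map_sub, sub_eq_zero] at h1
  rw [mapM_apply_apply, h1, Matrix.one_apply, Matrix.one_apply]
  split_ifs <;> simp

theorem residual_ofMat_isEquiv (M : GQ →* Matrix (Fin 2) (Fin 2) A) (hM : MatCont A M)
    (h' : GaloisFactorsThroughFiniteLevel (mapM (residue A) M)) :
    (ofMat M hM).residual.IsEquiv (ofMatRes (mapM (residue A) M) h') := by
  refine res_isEquiv_of_resMat_eq _ _ (residualBasis _ (ofMatBasis M hM)) (ofMatResBasis _ _)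
    fun σ => ?_
  rw [resMat_residual, adicMat_ofMat, resMat_ofMatRes, mapM_apply]

theorem IsEquiv.residual' {ρ₁ ρ₂ : GaloisRepAdic A} (h : ρ₁.IsEquiv ρ₂) :
    ρ₁.residual.IsEquiv ρ₂.residual :=
  h.elim fun e => ⟨e.residual⟩

/-- **Lifting a residual basis.**  If the residual representation of `ρ` is equivalent to the base
change of `ρbar`, there is a basis of `ρ` in which the matrices of `ρ` reduce exactly to the
matrices of `ρbar` in the given basis `b0`. -/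
theorem exists_basis_lifting (ρ : GaloisRepAdic A) (ρbar : ResidualGaloisRep k)
    (b0 : Basis (Fin 2) k ρbar.V) (ι : k →+* ResidueField A)
    (h : ρ.residual.IsEquiv (ρbar.baseChangeAlong ι)) :
    ∃ b : Basis (Fin 2) A ρ.V, ∀ σ,
      (adicMat ρ b σ).map (residue A) = (resMat ρbar b0 σ).map ι := by
  obtain ⟨e⟩ := h
  let c : Basis (Fin 2) (ResidueField A) ρ.residual.V :=
    (resBaseChangeBasis ι ρbar b0).map e.symm.toLinearEquiv
  have hsurj : Function.Surjective (TensorProduct.mk A (ResidueField A) ρ.V 1) :=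
    TensorProduct.mk_surjective A ρ.V (ResidueField A) residue_surjective
  choose v hv using fun i => hsurj (c i)
  have hspan : Submodule.span A (Set.range v) = ⊤ :=
    IsLocalRing.span_eq_top_of_tmul_eq_basis v c hv
  let b : Basis (Fin 2) A ρ.V :=
    basisOfTopLeSpanOfCardEqFinrank v hspan.ge (by rw [ρ.finrank_eq]; rfl)
  have hb : ∀ i, b i = v i := fun i => by
    rw [coe_basisOfTopLeSpanOfCardEqFinrank]
  have hbc : residualBasis ρ b = c := by
    apply Basis.eq_of_apply_eq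
    intro i
    have h1 : residualBasis ρ b i = (1 : ResidueField A) ⊗ₜ[A] b i :=
      Algebra.TensorProduct.basis_apply (A := ResidueField A) b i
    rw [h1, hb]
    exact hv i
  refine ⟨b, fun σ => ?_⟩
  rw [← resMat_residual, hbc, resMat_map_equiv, resMat_baseChangeAlong]

theorem residual_isEquiv_of_basis (ρ : GaloisRepAdic A) (ρbar : ResidualGaloisRep k)
    (b0 : Basis (Fin 2) k ρbar.V) (ι : k →+* ResidueField A)
    (b : Basis (Fin 2) A ρ.V)
    (h : ∀ σ, (adicMat ρ b σ).map (residue A) = (resMat ρbar b0 σ).map ι) :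
    ρ.residual.IsEquiv (ρbar.baseChangeAlong ι) := by
  refine res_isEquiv_of_resMat_eq _ _ (residualBasis ρ b) (resBaseChangeBasis ι ρbar b0)
    fun σ => ?_
  rw [resMat_residual, resMat_baseChangeAlong, h]

/-- **Exact residual lifting, matrix form.**  If `ρbar ≅ ofMatRes Mbar` and the residual
representation of `ρ` is the base change of `ρbar` along `ι`, then `ρ ≅ ofMat M` with
`M ≡ ι(Mbar)` exactly. -/
theorem exists_ofMat_lifting (ρ : GaloisRepAdic A) (ρbar : ResidualGaloisRep k)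
    (Mbar : GQ →* Matrix (Fin 2) (Fin 2) k) (hMbar : GaloisFactorsThroughFiniteLevel Mbar)
    (hbar : ρbar.IsEquiv (ofMatRes Mbar hMbar)) (ι : k →+* ResidueField A)
    (h : ρ.residual.IsEquiv (ρbar.baseChangeAlong ι)) :
    ∃ (M : GQ →* Matrix (Fin 2) (Fin 2) A) (hM : MatCont A M), ρ.IsEquiv (ofMat M hM) ∧
      mapM (residue A) M = mapM ι Mbar := by
  have h2 : ρ.residual.IsEquiv ((ofMatRes Mbar hMbar).baseChangeAlong ι) :=
    ResIsEquiv.trans' h (ResIsEquiv.baseChangeAlong' ι hbar)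
  obtain ⟨b, hb⟩ := exists_basis_lifting ρ (ofMatRes Mbar hMbar) (ofMatResBasis _ _) ι h2
  refine ⟨adicMat ρ b, adicMat_cont ρ b, isEquiv_ofMat_adicMat ρ b, ?_⟩
  ext σ : 1
  rw [mapM_apply, mapM_apply, hb, resMat_ofMatRes]

/-- Converse of `exists_ofMat_lifting`. -/
theorem residual_ofMat_isEquiv_baseChangeAlong (ρbar : ResidualGaloisRep k)
    (Mbar : GQ →* Matrix (Fin 2) (Fin 2) k) (hMbar : GaloisFactorsThroughFiniteLevel Mbar)
    (hbar : ρbar.IsEquiv (ofMatRes Mbar hMbar)) (ι : k →+* ResidueField A)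
    (M : GQ →* Matrix (Fin 2) (Fin 2) A) (hM : MatCont A M)
    (h : mapM (residue A) M = mapM ι Mbar) :
    (ofMat M hM).residual.IsEquiv (ρbar.baseChangeAlong ι) := by
  refine ResIsEquiv.trans' ?_ (ResIsEquiv.baseChangeAlong' ι (ResIsEquiv.symm' hbar))
  refine residual_isEquiv_of_basis _ _ (ofMatResBasis _ _) ι (ofMatBasis M hM) fun σ => ?_
  rw [adicMat_ofMat, resMat_ofMatRes, ← mapM_apply, h, mapM_apply]

end Residual

end Fermat.Agent.S53
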