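import Fermat.Agent.S53.Ctx
import Fermat.Agent.S53.Dictionary

set_option autoImplicit false
set_option linter.style.haveILetI false
set_option linter.unusedSectionVars false

open IsLocalRing GaloisRep

namespace Fermat.Agent.S53

section basics

variable {A : Type} [CommRing A] [IsLocalRing A]

theorem isEquiv_refl (ρ : GaloisRepAdic A) : ρ.IsEquiv ρ := ⟨GaloisRepAdic.Equiv.refl ρ⟩

theorem isEquiv_symm {ρ ρ' : GaloisRepAdic A} (h : ρ.IsEquiv ρ') : ρ'.IsEquiv ρ :=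
  h.elim fun e => ⟨e.symm⟩

theorem isEquiv_trans {ρ ρ' ρ'' : GaloisRepAdic A} (h : ρ.IsEquiv ρ') (h' : ρ'.IsEquiv ρ'') :
    ρ.IsEquiv ρ'' :=
  h.elim fun e => h'.elim fun e' => ⟨e.trans e'⟩

theorem ofMat_congr {M M' : GQ →* Matrix (Fin 2) (Fin 2) A} (h : M = M') (hM : MatCont A M)
    (hM' : MatCont A M') : ofMat M hM = ofMat M' hM' := by
  subst h; rfl

/-- Any ring hom out of a local ring with nilpotent maximal ideal into a nontrivial ring is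
local. -/
theorem isLocalHom_of_nilpotent {B : Type} [CommRing B] [Nontrivial B]
    (hA : ∃ n : ℕ, maximalIdeal A ^ n = ⊥) (φ : A →+* B) : IsLocalHom φ := by
  obtain ⟨n, hn⟩ := hA
  refine ⟨fun x hx => ?_⟩
  by_contra hx'
  have h1 : x ^ n ∈ maximalIdeal A ^ n := Ideal.pow_mem_pow ((mem_maximalIdeal x).mpr hx') n
  rw [hn, Ideal.mem_bot] at h1
  have h2 : IsUnit (φ x ^ n) := hx.pow n
  rw [← map_pow, h1, map_zero] at h2
  exact not_isUnit_zero h2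

end basics

variable {𝒪 : Type} [CommRing 𝒪] [IsLocalRing 𝒪] (C : Ctx 𝒪)
  (𝒟 : ∀ ⦃A : Type⦄ [CommRing A] [IsLocalRing A] [Algebra 𝒪 A], GaloisRepAdic A → Prop)

/-- Good ideals of the universal ring. -/
structure Good (J : Ideal C.P) : Prop where
  le : J ≤ C.𝔪
  pow_le : ∃ n : ℕ, C.𝔪 ^ n ≤ J
  fin : Finite (C.P ⧸ J)
  cont : C.ContMod J
  type : ∀ (_ : IsLocalRing (C.P ⧸ J)) (hc : MatCont (C.P ⧸ J) (C.Mq J)), 𝒟 (ofMat (C.Mq J) hc)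

theorem testAlg_quot {J : Ideal C.P} (hle : J ≤ C.𝔪) (hpow : ∃ n : ℕ, C.𝔪 ^ n ≤ J)
    (hfin : Finite (C.P ⧸ J)) [IsLocalRing (C.P ⧸ J)] : IsArtinianTestAlgebra 𝒪 (C.P ⧸ J) where
  isLocalHom := by
    refine ⟨fun c hc => ?_⟩
    by_contra hc'
    have h1 : algebraMap 𝒪 C.P c ∈ C.𝔪 := (C.algebraMap_mem_𝔪_iff c).mpr ((mem_maximalIdeal c).mpr hc')
    have h2 : Ideal.Quotient.mk J (algebraMap 𝒪 C.P c) ∈ maximalIdeal (C.P ⧸ J) :=
      (mk_mem_maximalIdeal_quot_iff C.𝔪 J hle hpow _).mpr h1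
    exact h2 hc
  residue_surjective := by
    intro x
    obtain ⟨y, rfl⟩ := residue_surjective x
    obtain ⟨p, rfl⟩ := Ideal.Quotient.mk_surjective y
    obtain ⟨c, hc⟩ := C.exists_sub_algebraMap_mem p
    refine ⟨c, ?_⟩
    have h2 : Ideal.Quotient.mk J (p - algebraMap 𝒪 C.P c) ∈ maximalIdeal (C.P ⧸ J) :=
      (mk_mem_maximalIdeal_quot_iff C.𝔪 J hle hpow _).mpr hc
    rw [map_sub, ← residue_eq_zero_iff, map_sub, sub_eq_zero] at h2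
    exact h2.symm
  isArtinian := inferInstance

namespace Good

variable {C 𝒟}

theorem isLocalRing {J : Ideal C.P} (h : Good C 𝒟 J) : IsLocalRing (C.P ⧸ J) :=
  isLocalRing_quot C.𝔪 J h.le h.pow_le

theorem testAlg {J : Ideal C.P} (h : Good C 𝒟 J) [IsLocalRing (C.P ⧸ J)] :
    IsArtinianTestAlgebra 𝒪 (C.P ⧸ J) :=
  testAlg_quot C h.le h.pow_le h.fin

theorem matCont {J : Ideal C.P} (h : Good C 𝒟 J) [IsLocalRing (C.P ⧸ J)] :
    MatCont (C.P ⧸ J) (C.Mq J) :=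
  h.cont.matCont C (Ideal.Quotient.mk J) (by rw [Ideal.mk_ker])

end Good

section lemmas

variable {C 𝒟}

/-- **Lemma G**: descent to the image. -/
theorem good_ker [Finite (ResidueField 𝒪)] (h𝒟 : IsDeformationCondition 𝒪 𝒟)
    {B : Type} [CommRing B] [IsLocalRing B] [Algebra 𝒪 B] (hB : IsArtinianTestAlgebra 𝒪 B)
    (e : C.P →ₐ[𝒪] B) (hl : C.𝔪 ≤ (maximalIdeal B).comap (e : C.P →+* B))
    (hc : MatCont B (mapM (e : C.P →+* B) C.MU))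
    (ht : 𝒟 (ofMat (mapM (e : C.P →+* B) C.MU) hc)) :
    Good C 𝒟 (RingHom.ker (e : C.P →+* B)) := by
  have hle : RingHom.ker (e : C.P →+* B) ≤ C.𝔪 := by
    have h1 : C.𝔪 = (maximalIdeal B).comap (e : C.P →+* B) :=
      Ideal.IsMaximal.eq_of_le inferInstance (Ideal.comap_ne_top _ (Ideal.IsPrime.ne_top inferInstance)) hl
    rw [h1]
    intro x hx
    rw [Ideal.mem_comap, (RingHom.mem_ker).mp hx]
    exact Ideal.zero_mem _
  obtain ⟨n, hn⟩ := testAlg_pow_eq_bot hB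
  have hpow : ∃ n : ℕ, C.𝔪 ^ n ≤ RingHom.ker (e : C.P →+* B) := by
    refine ⟨n, ?_⟩
    rw [← Ideal.map_eq_bot_iff_le_ker, Ideal.map_pow, ← le_bot_iff, ← hn]
    exact Ideal.pow_right_mono (Ideal.map_le_iff_le_comap.mpr hl) n
  haveI := testAlg_finite hB
  let φ : C.P ⧸ RingHom.ker (e : C.P →+* B) →ₐ[𝒪] B :=
    Ideal.Quotient.liftₐ (RingHom.ker (e : C.P →+* B)) e (fun a ha => ha)
  have hinj : Function.Injective φ := by
    rw [injective_iff_map_eq_zero]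
    intro x hx
    obtain ⟨p, rfl⟩ := Ideal.Quotient.mk_surjective x
    exact Ideal.Quotient.eq_zero_iff_mem.mpr hx
  have hfin : Finite (C.P ⧸ RingHom.ker (e : C.P →+* B)) := Finite.of_injective _ hinj
  refine ⟨hle, hpow, hfin, Ctx.ContMod.of_matCont C _ hc ⟨n, hn⟩, ?_⟩
  intro hloc hc'
  have hA : IsArtinianTestAlgebra 𝒪 (C.P ⧸ RingHom.ker (e : C.P →+* B)) :=
    testAlg_quot C hle hpow hfin
  have hφ : IsLocalHom (φ : _ →+* B) :=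
    isLocalHom_of_nilpotent (testAlg_pow_eq_bot hA) _
  refine h𝒟.of_baseChangeAlong_injective hA hB φ hφ hinj ?_
  have hM : mapM (φ : _ →+* B) (C.Mq (RingHom.ker (e : C.P →+* B)))
      = mapM (e : C.P →+* B) C.MU := by
    rw [mapM_comp]
    congr 1
  have hc'' : MatCont B (mapM (φ : _ →+* B)
      (C.Mq (RingHom.ker (e : C.P →+* B)))) := by rw [hM]; exact hc
  refine h𝒟.of_isEquiv hB (isEquiv_symm (baseChangeAlong_ofMat_isEquiv _ hφ _ hc' hc'')) ?_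
  rw [ofMat_congr hM hc'' hc]
  exact ht

/-- push-forward of a good ideal -/
theorem Good.push (h𝒟 : IsDeformationCondition 𝒪 𝒟) {J : Ideal C.P} (hJ : Good C 𝒟 J)
    {B : Type} [CommRing B] [IsLocalRing B] [Algebra 𝒪 B] (hB : IsArtinianTestAlgebra 𝒪 B)
    (e : C.P →ₐ[𝒪] B) (hJe : J ≤ RingHom.ker (e : C.P →+* B)) :
    C.𝔪 ≤ (maximalIdeal B).comap (e : C.P →+* B) ∧
    ∃ hc : MatCont B (mapM (e : C.P →+* B) C.MU), 𝒟 (ofMat (mapM (e : C.P →+* B) C.MU) hc) := by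
  constructor
  · obtain ⟨n, hn⟩ := hJ.pow_le
    have hprime : ((maximalIdeal B).comap (e : C.P →+* B)).IsPrime := Ideal.comap_isPrime _ _
    refine hprime.le_of_pow_le (n := n) (hn.trans (hJe.trans ?_))
    intro x hx
    rw [Ideal.mem_comap, (RingHom.mem_ker).mp hx]
    exact Ideal.zero_mem _
  · have hc : MatCont B (mapM (e : C.P →+* B) C.MU) := hJ.cont.matCont C _ hJe
    refine ⟨hc, ?_⟩
    haveI := hJ.isLocalRing
    have hA := hJ.testAlg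
    let ψ : C.P ⧸ J →ₐ[𝒪] B := Ideal.Quotient.liftₐ J e (fun a ha => hJe ha)
    have hψ : IsLocalHom (ψ : _ →+* B) := isLocalHom_of_nilpotent (testAlg_pow_eq_bot hA) _
    have h1 := h𝒟.baseChangeAlong hA hB ψ hψ (hJ.type _ hJ.matCont)
    have hM : mapM (ψ : _ →+* B) (C.Mq J) = mapM (e : C.P →+* B) C.MU := by
      rw [mapM_comp]
      congr 1
    have hc'' : MatCont B (mapM (ψ : _ →+* B) (C.Mq J)) := by rw [hM]; exact hc
    have h2 := h𝒟.of_isEquiv hB (baseChangeAlong_ofMat_isEquiv _ hψ _ hJ.matCont hc'') h1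
    rw [ofMat_congr hM hc'' hc] at h2
    exact h2

theorem Good.up [Finite (ResidueField 𝒪)] (h𝒟 : IsDeformationCondition 𝒪 𝒟) {J J' : Ideal C.P}
    (hJ : Good C 𝒟 J) (hle : J ≤ J') (hle' : J' ≤ C.𝔪) : Good C 𝒟 J' := by
  have hpow : ∃ n : ℕ, C.𝔪 ^ n ≤ J' := hJ.pow_le.imp fun n hn => hn.trans hle
  haveI := isLocalRing_quot C.𝔪 J' hle' hpow
  haveI := hJ.fin
  have hfin : Finite (C.P ⧸ J') :=
    Finite.of_surjective _ (Ideal.Quotient.factor_surjective hle)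
  have hB : IsArtinianTestAlgebra 𝒪 (C.P ⧸ J') := testAlg_quot C hle' hpow hfin
  have hker : RingHom.ker ((Ideal.Quotient.mkₐ 𝒪 J' : C.P →ₐ[𝒪] C.P ⧸ J') : C.P →+* C.P ⧸ J') = J' :=
    Ideal.mk_ker
  obtain ⟨h1, hc, h2⟩ := hJ.push h𝒟 hB (Ideal.Quotient.mkₐ 𝒪 J') (by rw [hker]; exact hle)
  have := good_ker h𝒟 hB (Ideal.Quotient.mkₐ 𝒪 J') h1 hc h2
  rwa [hker] at this

theorem Good.inf (h𝒟 : IsDeformationCondition 𝒪 𝒟) {J₁ J₂ : Ideal C.P}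
    (h₁ : Good C 𝒟 J₁) (h₂ : Good C 𝒟 J₂) : Good C 𝒟 (J₁ ⊓ J₂) := by
  have hle : J₁ ⊓ J₂ ≤ C.𝔪 := inf_le_left.trans h₁.le
  have hpow : ∃ n : ℕ, C.𝔪 ^ n ≤ J₁ ⊓ J₂ := by
    obtain ⟨n₁, hn₁⟩ := h₁.pow_le
    obtain ⟨n₂, hn₂⟩ := h₂.pow_le
    exact ⟨max n₁ n₂, le_inf ((Ideal.pow_le_pow_right (le_max_left _ _)).trans hn₁)
      ((Ideal.pow_le_pow_right (le_max_right _ _)).trans hn₂)⟩
  have hle3 : J₁ ⊔ J₂ ≤ C.𝔪 := sup_le h₁.le h₂.le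
  have hpow3 : ∃ n : ℕ, C.𝔪 ^ n ≤ J₁ ⊔ J₂ := h₁.pow_le.imp fun n hn => hn.trans le_sup_left
  haveI := h₁.fin
  haveI := h₂.fin
  let pA : C.P ⧸ (J₁ ⊓ J₂) →ₐ[𝒪] C.P ⧸ J₁ := Ideal.Quotient.factorₐ 𝒪 inf_le_left
  let pB : C.P ⧸ (J₁ ⊓ J₂) →ₐ[𝒪] C.P ⧸ J₂ := Ideal.Quotient.factorₐ 𝒪 inf_le_right
  let f : C.P ⧸ J₁ →ₐ[𝒪] C.P ⧸ (J₁ ⊔ J₂) := Ideal.Quotient.factorₐ 𝒪 le_sup_left
  let g : C.P ⧸ J₂ →ₐ[𝒪] C.P ⧸ (J₁ ⊔ J₂) := Ideal.Quotient.factorₐ 𝒪 le_sup_right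
  have hinj : Function.Injective (fun x => (pA x, pB x)) := by
    intro x y hxy
    obtain ⟨p, rfl⟩ := Ideal.Quotient.mk_surjective x
    obtain ⟨q, rfl⟩ := Ideal.Quotient.mk_surjective y
    have h1 : Ideal.Quotient.mk J₁ p = Ideal.Quotient.mk J₁ q := congrArg Prod.fst hxy
    have h2 : Ideal.Quotient.mk J₂ p = Ideal.Quotient.mk J₂ q := congrArg Prod.snd hxy
    exact Ideal.Quotient.eq.mpr ⟨Ideal.Quotient.eq.mp h1, Ideal.Quotient.eq.mp h2⟩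
  have hfin : Finite (C.P ⧸ (J₁ ⊓ J₂)) := Finite.of_injective _ hinj
  have hfin3 : Finite (C.P ⧸ (J₁ ⊔ J₂)) :=
    Finite.of_surjective _ (Ideal.Quotient.factor_surjective (le_sup_left : J₁ ≤ J₁ ⊔ J₂))
  refine ⟨hle, hpow, hfin, h₁.cont.inf C h₂.cont, ?_⟩
  intro hloc hc
  haveI := h₁.isLocalRing
  haveI := h₂.isLocalRing
  haveI := isLocalRing_quot C.𝔪 (J₁ ⊔ J₂) hle3 hpow3
  have hP : IsArtinianTestAlgebra 𝒪 (C.P ⧸ (J₁ ⊓ J₂)) := testAlg_quot C hle hpow hfin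
  have hC : IsArtinianTestAlgebra 𝒪 (C.P ⧸ (J₁ ⊔ J₂)) := testAlg_quot C hle3 hpow3 hfin3
  have hpA : IsLocalHom (pA : _ →+* C.P ⧸ J₁) := isLocalHom_of_nilpotent (testAlg_pow_eq_bot hP) _
  have hpB : IsLocalHom (pB : _ →+* C.P ⧸ J₂) := isLocalHom_of_nilpotent (testAlg_pow_eq_bot hP) _
  refine h𝒟.of_fibreProduct h₁.testAlg h₂.testAlg hC hP f g pA pB hpA hpB ?_ hinj ?_ ?_ ?_
  · ext x
    obtain ⟨p, rfl⟩ := Ideal.Quotient.mk_surjective x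
    rfl
  · intro x y hxy
    obtain ⟨p, rfl⟩ := Ideal.Quotient.mk_surjective x
    obtain ⟨q, rfl⟩ := Ideal.Quotient.mk_surjective y
    have h1 : Ideal.Quotient.mk (J₁ ⊔ J₂) p = Ideal.Quotient.mk (J₁ ⊔ J₂) q := hxy
    have h2 : p - q ∈ J₁ ⊔ J₂ := Ideal.Quotient.eq.mp h1
    obtain ⟨j₁, hj₁, j₂, hj₂, hj⟩ := Submodule.mem_sup.mp h2
    refine ⟨Ideal.Quotient.mk _ (p - j₁), ?_, ?_⟩
    · show Ideal.Quotient.mk J₁ (p - j₁) = Ideal.Quotient.mk J₁ p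
      refine Ideal.Quotient.eq.mpr ?_
      have : p - j₁ - p = -j₁ := by ring
      rw [this]
      exact J₁.neg_mem hj₁
    · show Ideal.Quotient.mk J₂ (p - j₁) = Ideal.Quotient.mk J₂ q
      refine Ideal.Quotient.eq.mpr ?_
      have : p - j₁ - q = j₂ := by
        have h3 : p - j₁ - q = (p - q) - j₁ := by ring
        rw [h3, ← hj]; ring
      rw [this]
      exact hj₂
  · have hM : mapM (pA : _ →+* C.P ⧸ J₁) (C.Mq (J₁ ⊓ J₂)) = C.Mq J₁ := by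
      rw [mapM_comp]
      congr 1
    have hc'' : MatCont (C.P ⧸ J₁) (mapM (pA : _ →+* C.P ⧸ J₁) (C.Mq (J₁ ⊓ J₂))) := by
      rw [hM]; exact h₁.matCont
    refine h𝒟.of_isEquiv h₁.testAlg
      (isEquiv_symm (baseChangeAlong_ofMat_isEquiv _ hpA _ hc hc'')) ?_
    rw [ofMat_congr hM hc'' h₁.matCont]
    exact h₁.type _ _
  · have hM : mapM (pB : _ →+* C.P ⧸ J₂) (C.Mq (J₁ ⊓ J₂)) = C.Mq J₂ := by
      rw [mapM_comp]
      congr 1
    have hc'' : MatCont (C.P ⧸ J₂) (mapM (pB : _ →+* C.P ⧸ J₂) (C.Mq (J₁ ⊓ J₂))) := by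
      rw [hM]; exact h₂.matCont
    refine h𝒟.of_isEquiv h₂.testAlg
      (isEquiv_symm (baseChangeAlong_ofMat_isEquiv _ hpB _ hc hc'')) ?_
    rw [ofMat_congr hM hc'' h₂.matCont]
    exact h₂.type _ _

end lemmas

end Fermat.Agent.S53
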