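import Mathlib

set_option autoImplicit false

namespace Fermat.Agent.S53

open IsLocalRing PowerSeries

section OneVar

variable {A : Type*} [CommRing A] [IsLocalRing A]

theorem ps_mem_maximalIdeal_iff (f : A⟦X⟧) :
    f ∈ maximalIdeal A⟦X⟧ ↔ constantCoeff f ∈ maximalIdeal A := by
  rw [mem_maximalIdeal, mem_maximalIdeal, mem_nonunits_iff, mem_nonunits_iff,
    PowerSeries.isUnit_iff_constantCoeff]

theorem ps_coeff_mem_of_mem_pow (n : ℕ) (f : A⟦X⟧) (hf : f ∈ maximalIdeal A⟦X⟧ ^ n) (i : ℕ) :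
    coeff i f ∈ maximalIdeal A ^ (n - i) := by
  induction n generalizing f i with
  | zero => simp
  | succ n ih =>
    rw [pow_succ'] at hf
    refine Submodule.mul_induction_on hf ?_ ?_
    · intro g hg h hh
      rw [PowerSeries.coeff_mul]
      refine Ideal.sum_mem _ ?_
      rintro ⟨a, b⟩ hab
      rw [Finset.HasAntidiagonal.mem_antidiagonal] at hab
      simp only at hab ⊢
      have h1 : coeff a g ∈ maximalIdeal A ^ (1 - a) := by
        rcases Nat.eq_zero_or_pos a with rfl | ha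
        · simpa using (ps_mem_maximalIdeal_iff g).1 hg
        · have : 1 - a = 0 := by omega
          simp [this]
      have h2 := ih h hh b
      have h3 := Ideal.mul_mem_mul h1 h2
      rw [← pow_add] at h3
      exact Ideal.pow_le_pow_right (by omega) h3
    · intro x y hx hy
      rw [map_add]
      exact Ideal.add_mem _ hx hy

theorem ps_C_mem_pow (n : ℕ) (c : A) (hc : c ∈ maximalIdeal A ^ n) :
    C c ∈ maximalIdeal A⟦X⟧ ^ n := by
  have h1 : Ideal.map (C : A →+* A⟦X⟧) (maximalIdeal A) ≤ maximalIdeal A⟦X⟧ := by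
    rw [Ideal.map_le_iff_le_comap]
    intro x hx
    rw [Ideal.mem_comap, ps_mem_maximalIdeal_iff]
    simpa using hx
  have h2 : C c ∈ Ideal.map (C : A →+* A⟦X⟧) (maximalIdeal A ^ n) := Ideal.mem_map_of_mem _ hc
  rw [Ideal.map_pow] at h2
  exact Ideal.pow_right_mono h1 n h2

theorem ps_X_mem : (X : A⟦X⟧) ∈ maximalIdeal A⟦X⟧ := by
  rw [ps_mem_maximalIdeal_iff]; simp

theorem ps_mem_pow_of_coeff (n : ℕ) (f : A⟦X⟧)
    (hf : ∀ i, coeff i f ∈ maximalIdeal A ^ (n - i)) : f ∈ maximalIdeal A⟦X⟧ ^ n := by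
  rw [PowerSeries.eq_shift_mul_X_pow_add_trunc n f]
  refine Ideal.add_mem _ (Ideal.mul_mem_left _ _ (Ideal.pow_mem_pow ps_X_mem n)) ?_
  rw [PowerSeries.trunc_apply]
  have hcoe : ((∑ m ∈ Finset.Ico 0 n, Polynomial.monomial m (coeff m f) : Polynomial A) : A⟦X⟧)
      = ∑ m ∈ Finset.Ico 0 n, ((Polynomial.monomial m (coeff m f) : Polynomial A) : A⟦X⟧) :=
    map_sum (Polynomial.coeToPowerSeries.ringHom (R := A))
      (fun m => Polynomial.monomial m (coeff m f)) (Finset.Ico 0 n)
  rw [hcoe]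
  refine Ideal.sum_mem _ ?_
  intro i hi
  rw [Finset.mem_Ico] at hi
  rw [Polynomial.coe_monomial, PowerSeries.monomial_eq_C_mul_X_pow]
  have h1 := Ideal.mul_mem_mul (ps_C_mem_pow _ _ (hf i)) (Ideal.pow_mem_pow (ps_X_mem (A := A)) i)
  rw [← pow_add] at h1
  have : n - i + i = n := by omega
  rwa [this] at h1

theorem ps_isAdicComplete [IsAdicComplete (maximalIdeal A) A] :
    IsAdicComplete (maximalIdeal A⟦X⟧) A⟦X⟧ where
  haus' := by
    intro f hf
    ext i
    have hA : IsHausdorff (maximalIdeal A) A := inferInstance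
    rw [map_zero]
    apply hA.haus'
    intro n
    have h1 := hf (n + i)
    rw [SModEq.zero, smul_eq_mul, Ideal.mul_top] at h1 ⊢
    have h2 := ps_coeff_mem_of_mem_pow _ _ h1 i
    simpa using h2
  prec' := by
    intro f hf
    have hA : IsPrecomplete (maximalIdeal A) A := inferInstance
    have key : ∀ i : ℕ, ∃ L : A, ∀ n, coeff i (f (n + i)) ≡ L
        [SMOD (maximalIdeal A ^ n • ⊤ : Submodule A A)] := by
      intro i
      apply hA.prec'
      intro m n hmn
      have h1 := hf (show m + i ≤ n + i by omega)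
      rw [SModEq.sub_mem, smul_eq_mul, Ideal.mul_top] at h1 ⊢
      have h2 := ps_coeff_mem_of_mem_pow _ _ h1 i
      simpa using h2
    choose L hL using key
    refine ⟨PowerSeries.mk L, fun n => ?_⟩
    rw [SModEq.sub_mem, smul_eq_mul, Ideal.mul_top]
    apply ps_mem_pow_of_coeff
    intro i
    rw [map_sub, coeff_mk]
    by_cases hi : i ≤ n
    · have h1 := hL i (n - i)
      rw [SModEq.sub_mem, smul_eq_mul, Ideal.mul_top] at h1
      have : n - i + i = n := by omega
      rwa [this] at h1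
    · have : n - i = 0 := by omega
      simp [this]

end OneVar

theorem map_maximalIdeal_ringEquiv {R S : Type*} [CommRing R] [CommRing S] [IsLocalRing R]
    [IsLocalRing S] (e : R ≃+* S) : (maximalIdeal R).map e = maximalIdeal S := by
  ext x
  rw [Ideal.mem_map_of_equiv]
  constructor
  · rintro ⟨y, hy, rfl⟩
    rw [mem_maximalIdeal, mem_nonunits_iff] at hy ⊢
    intro h
    exact hy ((MulEquiv.isUnit_map e).1 h)
  · intro hx
    refine ⟨e.symm x, ?_, by simp⟩
    rw [mem_maximalIdeal, mem_nonunits_iff] at hx ⊢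
    intro h
    exact hx ((MulEquiv.isUnit_map e.symm).1 h)

theorem isAdicComplete_of_ringEquiv {R S : Type*} [CommRing R] [CommRing S] [IsLocalRing R]
    [IsLocalRing S] (e : R ≃+* S) [IsAdicComplete (maximalIdeal R) R] :
    IsAdicComplete (maximalIdeal S) S := by
  rw [← map_maximalIdeal_ringEquiv e, IsAdicComplete.congr_ringEquiv]
  infer_instance

theorem mvps_isAdicComplete (𝒪 : Type*) [CommRing 𝒪] [IsLocalRing 𝒪]
    [IsAdicComplete (maximalIdeal 𝒪) 𝒪] (m : ℕ) :
    IsAdicComplete (maximalIdeal (MvPowerSeries (Fin m) 𝒪)) (MvPowerSeries (Fin m) 𝒪) := by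
  induction m with
  | zero =>
    exact isAdicComplete_of_ringEquiv (MvPowerSeries.isEmptyEquiv (σ := Fin 0) (R := 𝒪)).symm.toRingEquiv
  | succ m ih =>
    have := ih
    have := ps_isAdicComplete (A := MvPowerSeries (Fin m) 𝒪)
    exact isAdicComplete_of_ringEquiv (MvPowerSeries.finSuccEquiv 𝒪 m).symm.toRingEquiv

end Fermat.Agent.S53
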