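import Mathlib

set_option autoImplicit false
set_option linter.unusedSectionVars false

namespace Fermat.Agent.S53

open IsLocalRing MvPowerSeries

section Eval

variable {𝒪 B σ : Type*} [CommRing 𝒪] [CommRing B] [Algebra 𝒪 B] [Finite σ]

theorem aeval_mem_pow (I : Ideal B) (a : σ → B) (ha : ∀ l, a l ∈ I) (n : ℕ)
    (x : MvPolynomial σ 𝒪) (hx : x ∈ MvPolynomial.idealOfVars σ 𝒪 ^ n) :
    MvPolynomial.aeval a x ∈ I ^ n := by
  have h1 : Ideal.map (MvPolynomial.aeval (R := 𝒪) a) (MvPolynomial.idealOfVars σ 𝒪) ≤ I := by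
    rw [Ideal.map_span, Ideal.span_le]
    rintro _ ⟨_, ⟨l, rfl⟩, rfl⟩
    simpa using ha l
  have h2 : MvPolynomial.aeval a x ∈
      Ideal.map (MvPolynomial.aeval (R := 𝒪) a) (MvPolynomial.idealOfVars σ 𝒪 ^ n) :=
    Ideal.mem_map_of_mem _ hx
  rw [Ideal.map_pow] at h2
  exact Ideal.pow_right_mono h1 n h2

/-- evaluation at level `n`. -/
noncomputable def evalLevel (I : Ideal B) (a : σ → B) (ha : ∀ l, a l ∈ I) (n : ℕ) :
    MvPowerSeries σ 𝒪 →ₐ[𝒪] B ⧸ I ^ n :=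
  (Ideal.Quotient.liftₐ (MvPolynomial.idealOfVars σ 𝒪 ^ n)
    ((Ideal.Quotient.mkₐ 𝒪 (I ^ n)).comp (MvPolynomial.aeval a))
    (fun x hx => by
      rw [AlgHom.comp_apply, Ideal.Quotient.mkₐ_eq_mk, Ideal.Quotient.eq_zero_iff_mem]
      exact aeval_mem_pow I a ha n x hx)).comp
  ((truncTotalAlgHom σ 𝒪 n).restrictScalars 𝒪)

theorem evalLevel_apply (I : Ideal B) (a : σ → B) (ha : ∀ l, a l ∈ I) (n : ℕ)
    (f : MvPowerSeries σ 𝒪) :
    evalLevel I a ha n f = Ideal.Quotient.mk (I ^ n) (MvPolynomial.aeval a (truncTotal n f)) := by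
  rfl

theorem evalLevel_compat (I : Ideal B) (a : σ → B) (ha : ∀ l, a l ∈ I) {m n : ℕ} (hle : m ≤ n) :
    (Ideal.Quotient.factorₐ 𝒪 (Ideal.pow_le_pow_right hle)).comp (evalLevel (𝒪 := 𝒪) I a ha n) =
      evalLevel I a ha m := by
  ext f
  rw [AlgHom.comp_apply, evalLevel_apply, evalLevel_apply, Ideal.Quotient.factorₐ_apply_mk,
    Ideal.Quotient.eq, ← map_sub]
  exact aeval_mem_pow I a ha m _ (truncTotal_sub_truncTotal_mem_pow_idealOfVars hle le_rfl f)

/-- evaluation of power series at elements of `I` in an `I`-adically complete algebra. -/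
noncomputable def psEval (I : Ideal B) [IsAdicComplete I B] (a : σ → B) (ha : ∀ l, a l ∈ I) :
    MvPowerSeries σ 𝒪 →ₐ[𝒪] B :=
  IsAdicComplete.liftAlgHom I (evalLevel I a ha) (fun hle => evalLevel_compat I a ha hle)

theorem mk_psEval (I : Ideal B) [IsAdicComplete I B] (a : σ → B) (ha : ∀ l, a l ∈ I) (n : ℕ)
    (f : MvPowerSeries σ 𝒪) :
    Ideal.Quotient.mk (I ^ n) (psEval I a ha f) =
      Ideal.Quotient.mk (I ^ n) (MvPolynomial.aeval a (truncTotal n f)) := by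
  rw [psEval, IsAdicComplete.mk_liftAlgHom, evalLevel_apply]

theorem psEval_coe (I : Ideal B) [IsAdicComplete I B] (a : σ → B) (ha : ∀ l, a l ∈ I)
    (p : MvPolynomial σ 𝒪) :
    psEval I a ha (p : MvPowerSeries σ 𝒪) = MvPolynomial.aeval a p := by
  have hH : IsHausdorff I B := inferInstance
  rw [← sub_eq_zero]
  apply hH.haus'
  intro n
  rw [SModEq.zero, smul_eq_mul, Ideal.mul_top, ← Ideal.Quotient.eq, mk_psEval, Ideal.Quotient.eq,
    ← map_sub]
  apply aeval_mem_pow I a ha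
  rw [MvPolynomial.mem_pow_idealOfVars_iff']
  intro x hx
  rw [MvPolynomial.coeff_sub, coeff_truncTotal _ hx, MvPolynomial.coeff_coe, sub_self]

theorem psEval_X (I : Ideal B) [IsAdicComplete I B] (a : σ → B) (ha : ∀ l, a l ∈ I) (l : σ) :
    psEval (𝒪 := 𝒪) I a ha (X l) = a l := by
  rw [← MvPolynomial.coe_X, psEval_coe, MvPolynomial.aeval_X]

end Eval

section Tail


variable {𝒪 σ : Type*} [CommRing 𝒪] [Finite σ]

theorem mem_span_X_pow_of_coeff (n : ℕ) (g : MvPowerSeries σ 𝒪)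
    (hg : ∀ d : σ →₀ ℕ, d.degree < n → coeff d g = 0) :
    g ∈ (Ideal.span (Set.range (X : σ → MvPowerSeries σ 𝒪))) ^ n := by
  set J := MvPolynomial.idealOfVars σ 𝒪 with hJ
  set e := toAdicCompletionAlgEquiv σ 𝒪 with he
  have h0 : truncTotal n g = 0 := by
    ext d
    rw [coeff_truncTotal_eq_ite]
    split_ifs with h
    · simpa using hg d h
    · simp
  have h1 : e g ∈ (AdicCompletion.eval J (MvPolynomial σ 𝒪) n).ker := by
    rw [LinearMap.mem_ker, AdicCompletion.eval_apply, he, toAdicCompletionAlgEquiv_apply,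
      toAdicCompletion_apply_eq_mk_truncTotal, h0]
    simp
  rw [← AdicCompletion.pow_smul_top_eq_ker_eval (MvPolynomial.idealOfVars_fg σ 𝒪)] at h1
  have h2 : ∀ y ∈ (J ^ n • ⊤ : Submodule (MvPolynomial σ 𝒪) (AdicCompletion J (MvPolynomial σ 𝒪))),
      e.symm y ∈ (Ideal.span (Set.range (X : σ → MvPowerSeries σ 𝒪))) ^ n := by
    intro y hy
    refine Submodule.smul_induction_on hy ?_ ?_
    · intro r hr x _
      rw [map_smul, Algebra.smul_def]
      refine Ideal.mul_mem_right _ _ ?_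
      have h3 : algebraMap (MvPolynomial σ 𝒪) (MvPowerSeries σ 𝒪) r ∈
          Ideal.map (algebraMap (MvPolynomial σ 𝒪) (MvPowerSeries σ 𝒪)) (J ^ n) :=
        Ideal.mem_map_of_mem _ hr
      rw [Ideal.map_pow] at h3
      refine Ideal.pow_right_mono ?_ n h3
      rw [hJ, Ideal.map_span, Ideal.span_le]
      rintro _ ⟨_, ⟨l, rfl⟩, rfl⟩
      apply Ideal.subset_span
      exact ⟨l, (MvPolynomial.coe_X l).symm⟩
    · intro x y hx hy
      rw [map_add]
      exact Ideal.add_mem _ hx hy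
  simpa using h2 _ h1


theorem sub_truncTotal_mem (n : ℕ) (f : MvPowerSeries σ 𝒪) :
    f - (truncTotal n f : MvPolynomial σ 𝒪) ∈
      (Ideal.span (Set.range (X : σ → MvPowerSeries σ 𝒪))) ^ n := by
  apply mem_span_X_pow_of_coeff
  intro d hd
  rw [map_sub, MvPolynomial.coeff_coe, coeff_truncTotal _ hd, sub_self]

variable {B : Type*} [CommRing B] [Algebra 𝒪 B]

theorem algHom_coe_eq_aeval (φ : MvPowerSeries σ 𝒪 →ₐ[𝒪] B) (p : MvPolynomial σ 𝒪) :
    φ (p : MvPowerSeries σ 𝒪) = MvPolynomial.aeval (fun l => φ (X l)) p := by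
  have : (φ.comp (MvPolynomial.coeToMvPowerSeries.algHom (σ := σ) (R := 𝒪) 𝒪)) =
      MvPolynomial.aeval (fun l => φ (X l)) := by
    apply MvPolynomial.algHom_ext
    intro l
    simp
  exact congrArg (fun g => g p) this

theorem algHom_mem_pow (I : Ideal B) (φ : MvPowerSeries σ 𝒪 →ₐ[𝒪] B) (hφ : ∀ l, φ (X l) ∈ I)
    (n : ℕ) (g : MvPowerSeries σ 𝒪)
    (hg : g ∈ (Ideal.span (Set.range (X : σ → MvPowerSeries σ 𝒪))) ^ n) : φ g ∈ I ^ n := by
  have h1 : Ideal.map φ (Ideal.span (Set.range (X : σ → MvPowerSeries σ 𝒪))) ≤ I := by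
    rw [Ideal.map_span, Ideal.span_le]
    rintro _ ⟨_, ⟨l, rfl⟩, rfl⟩
    exact hφ l
  have h2 : φ g ∈ Ideal.map φ ((Ideal.span (Set.range (X : σ → MvPowerSeries σ 𝒪))) ^ n) :=
    Ideal.mem_map_of_mem _ hg
  rw [Ideal.map_pow] at h2
  exact Ideal.pow_right_mono h1 n h2

/-- Uniqueness of `𝒪`-algebra homs out of a power series ring into an `I`-adically separated ring. -/
theorem algHom_ext_of_X (I : Ideal B) [IsHausdorff I B] (φ ψ : MvPowerSeries σ 𝒪 →ₐ[𝒪] B)
    (hφ : ∀ l, φ (X l) ∈ I) (h : ∀ l, φ (X l) = ψ (X l)) : φ = ψ := by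
  ext f
  have hH : IsHausdorff I B := inferInstance
  rw [← sub_eq_zero]
  apply hH.haus'
  intro n
  rw [SModEq.zero, smul_eq_mul, Ideal.mul_top]
  have h1 := algHom_mem_pow I φ hφ n _ (sub_truncTotal_mem n f)
  have h2 := algHom_mem_pow I ψ (fun l => h l ▸ hφ l) n _ (sub_truncTotal_mem n f)
  rw [map_sub, algHom_coe_eq_aeval] at h1 h2
  have h3 : (fun l => φ (X l)) = (fun l => ψ (X l)) := funext h
  rw [h3] at h1
  have := Ideal.sub_mem _ h1 h2
  simpa using this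

end Tail

end Fermat.Agent.S53
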