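import Mathlib

set_option autoImplicit false
set_option linter.unusedSectionVars false

namespace Fermat.Agent.S53

open IsLocalRing

section Surj

variable {𝒪 B : Type*} [CommRing 𝒪] [IsLocalRing 𝒪] [CommRing B] [IsLocalRing B] [Algebra 𝒪 B]

/-- Approximation step: a subalgebra `S` of a local `𝒪`-algebra `B` with residue field covered by
`𝒪`, such that the maximal ideal is generated by elements of `S`, is dense. -/
theorem exists_mem_sub_mem_pow_succ (S : Subalgebra 𝒪 B)
    (hres : Function.Surjective (residue B ∘ algebraMap 𝒪 B))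
    (T : Set B) (hT : T ⊆ S) (hm : maximalIdeal B = Ideal.span T) (n : ℕ) :
    ∀ x ∈ maximalIdeal B ^ n, ∃ s ∈ S, x - s ∈ maximalIdeal B ^ (n + 1) := by
  have h0 : ∀ x : B, ∃ s ∈ S, x - s ∈ maximalIdeal B := by
    intro x
    obtain ⟨c, hc⟩ := hres (residue B x)
    refine ⟨algebraMap 𝒪 B c, S.algebraMap_mem c, ?_⟩
    rw [← residue_eq_zero_iff, map_sub, sub_eq_zero]
    exact hc.symm
  have h1 : ∀ x ∈ maximalIdeal B, ∃ s ∈ S, x - s ∈ maximalIdeal B ^ 2 := by
    intro x hx
    rw [hm] at hx
    induction hx using Submodule.span_induction with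
    | mem t ht => exact ⟨t, hT ht, by simp⟩
    | zero => exact ⟨0, S.zero_mem, by simp⟩
    | add x y _ _ hx hy =>
      obtain ⟨s, hs, hs'⟩ := hx
      obtain ⟨t, ht, ht'⟩ := hy
      refine ⟨s + t, S.add_mem hs ht, ?_⟩
      have := Ideal.add_mem _ hs' ht'
      convert this using 1
      ring
    | smul b z hz ih =>
      obtain ⟨s, hs, hs'⟩ := ih
      obtain ⟨c, hc, hc'⟩ := h0 b
      refine ⟨c * s, S.mul_mem hc hs, ?_⟩
      have hzm : z ∈ maximalIdeal B := by rw [hm]; exact hz
      have e : b • z - c * s = (b - c) * z + c * (z - s) := by rw [smul_eq_mul]; ring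
      rw [e, pow_two]
      refine Ideal.add_mem _ (Ideal.mul_mem_mul hc' hzm) ?_
      rw [← pow_two]
      exact Ideal.mul_mem_left _ _ hs'
  induction n with
  | zero =>
    intro x _
    simpa using h0 x
  | succ n ih =>
    intro x hx
    rw [pow_succ] at hx
    refine Submodule.mul_induction_on hx ?_ ?_
    · intro y hy z hz
      obtain ⟨s, hs, hs'⟩ := ih y hy
      obtain ⟨t, ht, ht'⟩ := h1 z hz
      refine ⟨s * t, S.mul_mem hs ht, ?_⟩
      have hsm : s ∈ maximalIdeal B ^ n := by
        have := Ideal.sub_mem _ hy (Ideal.pow_le_pow_right (Nat.le_succ n) hs')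
        simpa using this
      have e : y * z - s * t = (y - s) * z + s * (z - t) := by ring
      rw [e]
      refine Ideal.add_mem _ ?_ ?_
      · have := Ideal.mul_mem_mul hs' hz
        rwa [← pow_succ] at this
      · have := Ideal.mul_mem_mul hsm ht'
        rwa [← pow_add] at this
    · rintro x y ⟨s, hs, hs'⟩ ⟨t, ht, ht'⟩
      refine ⟨s + t, S.add_mem hs ht, ?_⟩
      have := Ideal.add_mem _ hs' ht'
      convert this using 1
      ring

theorem exists_mem_sub_mem_pow (S : Subalgebra 𝒪 B)
    (hres : Function.Surjective (residue B ∘ algebraMap 𝒪 B))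
    (T : Set B) (hT : T ⊆ S) (hm : maximalIdeal B = Ideal.span T) (n : ℕ) (x : B) :
    ∃ s ∈ S, x - s ∈ maximalIdeal B ^ n := by
  induction n with
  | zero => exact ⟨0, S.zero_mem, by simp⟩
  | succ n ih =>
    obtain ⟨s, hs, hs'⟩ := ih
    obtain ⟨t, ht, ht'⟩ := exists_mem_sub_mem_pow_succ S hres T hT hm n _ hs'
    exact ⟨s + t, S.add_mem hs ht, by convert ht' using 1; ring⟩

/-- If the maximal ideal of `B` is nilpotent, such a subalgebra is everything. -/
theorem subalgebra_eq_top_of_nilpotent (S : Subalgebra 𝒪 B)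
    (hres : Function.Surjective (residue B ∘ algebraMap 𝒪 B))
    (T : Set B) (hT : T ⊆ S) (hm : maximalIdeal B = Ideal.span T)
    (hnil : IsNilpotent (maximalIdeal B)) : S = ⊤ := by
  obtain ⟨n, hn⟩ := hnil
  rw [eq_top_iff]
  intro x _
  obtain ⟨s, hs, hs'⟩ := exists_mem_sub_mem_pow S hres T hT hm n x
  rw [hn, Ideal.zero_eq_bot, Ideal.mem_bot, sub_eq_zero] at hs'
  rw [hs']; exact hs

/-- Nakayama form: generators modulo `𝔪²` suffice (Noetherian case). -/
theorem maximalIdeal_eq_span_of_le_sup_sq [IsNoetherianRing B] (T : Set B)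
    (hT : T ⊆ maximalIdeal B)
    (h : maximalIdeal B ≤ Ideal.span T ⊔ maximalIdeal B ^ 2) :
    maximalIdeal B = Ideal.span T := by
  apply le_antisymm
  · apply Submodule.le_of_le_smul_of_le_jacobson_bot (I := maximalIdeal B)
      (IsNoetherian.noetherian _)
    · exact (IsLocalRing.maximalIdeal_le_jacobson _)
    · rwa [smul_eq_mul, ← pow_two]
  · rw [Ideal.span_le]; exact hT

end Surj

end Fermat.Agent.S53
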