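import Mathlib

/-!
# Power series rings over complete local rings are complete for the maximal ideal
-/

set_option autoImplicit false

namespace Fermat.Agent.S53

open IsLocalRing

section PowerSeriesComplete

variable {A : Type*} [CommRing A] [IsLocalRing A]

/-- Power series whose `i`-th coefficient lies in `m ^ (n - i)`. -/
def coeffIdeal (A : Type*) [CommRing A] [IsLocalRing A] (n : ℕ) : Ideal (PowerSeries A) where
  carrier := {g | ∀ i, PowerSeries.coeff i g ∈ maximalIdeal A ^ (n - i)}
  add_mem' := by
    intro a b ha hb i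
    rw [map_add]
    exact Ideal.add_mem _ (ha i) (hb i)
  zero_mem' := by
    intro i
    simp
  smul_mem' := by
    intro c g hg i
    rw [smul_eq_mul, PowerSeries.coeff_mul]
    refine Ideal.sum_mem _ fun x hx => ?_
    have hx' : x.1 + x.2 = i := by simpa using hx
    refine Ideal.mul_mem_left _ _ ?_
    exact Ideal.pow_le_pow_right (by omega) (hg x.2)

lemma mem_coeffIdeal {n : ℕ} {g : PowerSeries A} :
    g ∈ coeffIdeal A n ↔ ∀ i, PowerSeries.coeff i g ∈ maximalIdeal A ^ (n - i) := Iff.rfl

lemma coeffIdeal_mul_le (a b : ℕ) : coeffIdeal A a * coeffIdeal A b ≤ coeffIdeal A (a + b) := by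
  rw [Ideal.mul_le]
  intro g hg h hh i
  rw [PowerSeries.coeff_mul]
  refine Ideal.sum_mem _ fun x hx => ?_
  have hx' : x.1 + x.2 = i := by simpa using hx
  have h1 := Ideal.mul_mem_mul (hg x.1) (hh x.2)
  rw [← pow_add] at h1
  exact Ideal.pow_le_pow_right (by omega) h1

lemma maximalIdeal_powerSeries_le : maximalIdeal (PowerSeries A) ≤ coeffIdeal A 1 := by
  intro g hg i
  rcases Nat.eq_zero_or_pos i with rfl | hi
  · rw [mem_maximalIdeal, mem_nonunits_iff, PowerSeries.isUnit_iff_constantCoeff] at hg
    simpa using hg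
  · have : 1 - i = 0 := by omega
    rw [this, pow_zero, Ideal.one_eq_top]
    trivial

lemma maximalIdeal_pow_le_coeffIdeal (n : ℕ) :
    maximalIdeal (PowerSeries A) ^ n ≤ coeffIdeal A n := by
  induction n with
  | zero =>
    intro g _ i
    simp
  | succ n ih =>
    rw [pow_succ]
    exact (Ideal.mul_mono ih maximalIdeal_powerSeries_le).trans (coeffIdeal_mul_le n 1)

lemma X_mem_maximalIdeal_powerSeries : (PowerSeries.X : PowerSeries A) ∈ maximalIdeal (PowerSeries A) := by
  rw [mem_maximalIdeal, mem_nonunits_iff, PowerSeries.isUnit_iff_constantCoeff]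
  simp

lemma C_mem_maximalIdeal_pow {n : ℕ} {a : A} (ha : a ∈ maximalIdeal A ^ n) :
    PowerSeries.C a ∈ maximalIdeal (PowerSeries A) ^ n := by
  have h1 : (maximalIdeal A).map (PowerSeries.C : A →+* PowerSeries A) ≤
      maximalIdeal (PowerSeries A) := by
    rw [Ideal.map_le_iff_le_comap]
    intro x hx
    rw [Ideal.mem_comap, mem_maximalIdeal, mem_nonunits_iff, PowerSeries.isUnit_iff_constantCoeff]
    simpa using hx
  have h2 := Ideal.mem_map_of_mem (PowerSeries.C : A →+* PowerSeries A) ha
  rw [Ideal.map_pow] at h2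
  exact Ideal.pow_right_mono h1 n h2

lemma coeffIdeal_le_maximalIdeal_pow (n : ℕ) :
    coeffIdeal A n ≤ maximalIdeal (PowerSeries A) ^ n := by
  induction n with
  | zero => simp
  | succ n ih =>
    intro g hg
    rw [PowerSeries.eq_shift_mul_X_add_const g]
    refine Ideal.add_mem _ ?_ ?_
    · rw [pow_succ]
      refine Ideal.mul_mem_mul (ih ?_) X_mem_maximalIdeal_powerSeries
      intro i
      rw [PowerSeries.coeff_mk]
      have := hg (i + 1)
      rwa [show n + 1 - (i + 1) = n - i by omega] at this
    · apply C_mem_maximalIdeal_pow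
      have := hg 0
      simpa using this

lemma maximalIdeal_powerSeries_pow_eq (n : ℕ) :
    maximalIdeal (PowerSeries A) ^ n = coeffIdeal A n :=
  le_antisymm (maximalIdeal_pow_le_coeffIdeal n) (coeffIdeal_le_maximalIdeal_pow n)

theorem isAdicComplete_powerSeries [IsAdicComplete (maximalIdeal A) A] :
    IsAdicComplete (maximalIdeal (PowerSeries A)) (PowerSeries A) where
  haus' := by
    intro g hg
    ext i
    rw [map_zero]
    refine IsHausdorff.haus (I := maximalIdeal A) inferInstance _ fun n => ?_
    have h1 := hg (n + i)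
    rw [SModEq.zero, smul_eq_mul, Ideal.mul_top, maximalIdeal_powerSeries_pow_eq] at h1
    rw [SModEq.zero, smul_eq_mul, Ideal.mul_top]
    have := h1 i
    rwa [Nat.add_sub_cancel] at this
  prec' := by
    intro f hf
    have hf' : ∀ {m n : ℕ}, m ≤ n → ∀ i, PowerSeries.coeff i (f m) - PowerSeries.coeff i (f n) ∈
        maximalIdeal A ^ (m - i) := by
      intro m n hmn i
      have h1 := hf hmn
      rw [SModEq.sub_mem, smul_eq_mul, Ideal.mul_top, maximalIdeal_powerSeries_pow_eq] at h1
      have := h1 i
      rwa [map_sub] at this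
    have hc : ∀ i, ∃ c : A, ∀ n, PowerSeries.coeff i (f (n + i)) ≡ c
        [SMOD (maximalIdeal A ^ n • ⊤ : Submodule A A)] := by
      intro i
      refine IsPrecomplete.prec (I := maximalIdeal A) inferInstance
        (f := fun n => PowerSeries.coeff i (f (n + i))) ?_
      intro m n hmn
      rw [SModEq.sub_mem, smul_eq_mul, Ideal.mul_top]
      have := hf' (show m + i ≤ n + i by omega) i
      rwa [Nat.add_sub_cancel] at this
    choose c hc using hc
    refine ⟨PowerSeries.mk c, fun n => ?_⟩
    rw [SModEq.sub_mem, smul_eq_mul, Ideal.mul_top, maximalIdeal_powerSeries_pow_eq]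
    intro i
    rw [map_sub, PowerSeries.coeff_mk]
    by_cases hi : i ≤ n
    · have h1 := hc i (n - i)
      rw [SModEq.sub_mem, smul_eq_mul, Ideal.mul_top, Nat.sub_add_cancel hi] at h1
      exact h1
    · have : n - i = 0 := by omega
      rw [this, pow_zero, Ideal.one_eq_top]
      trivial

end PowerSeriesComplete

section MvPowerSeriesComplete

/-- transport of completeness at the maximal ideal along a ring isomorphism. -/
theorem isAdicComplete_maximalIdeal_of_ringEquiv {A B : Type*} [CommRing A] [CommRing B]
    [IsLocalRing A] [IsLocalRing B] (e : A ≃+* B) [IsAdicComplete (maximalIdeal A) A] :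
    IsAdicComplete (maximalIdeal B) B := by
  have h : (maximalIdeal A).map e = maximalIdeal B := by
    have := IsLocalRing.map_maximalIdeal_of_surjective (f := (e : A →+* B)) e.surjective
    exact this
  rw [← h]
  exact (IsAdicComplete.congr_ringEquiv _ e).mpr inferInstance

theorem isAdicComplete_mvPowerSeries_fin (A : Type*) [CommRing A] [IsLocalRing A]
    [IsAdicComplete (maximalIdeal A) A] (d : ℕ) :
    IsAdicComplete (maximalIdeal (MvPowerSeries (Fin d) A)) (MvPowerSeries (Fin d) A) := by
  induction d with
  | zero =>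
    exact isAdicComplete_maximalIdeal_of_ringEquiv
      (MvPowerSeries.isEmptyEquiv (Fin 0) A).toRingEquiv.symm
  | succ n ih =>
    haveI := ih
    haveI := isAdicComplete_powerSeries (A := MvPowerSeries (Fin n) A)
    exact isAdicComplete_maximalIdeal_of_ringEquiv
      (MvPowerSeries.finSuccEquiv A n).toRingEquiv.symm

end MvPowerSeriesComplete

end Fermat.Agent.S53
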