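import Fermat.Agent.S53.PSComplete
import Fermat.Agent.S53.PSEval
import Fermat.Agent.S53.PSSurj

set_option autoImplicit false
set_option linter.unusedSectionVars false

namespace Fermat.Agent.S53

open IsLocalRing MvPowerSeries

section Tools

variable {𝒪 B σ : Type*} [CommRing 𝒪] [IsLocalRing 𝒪] [CommRing B] [IsLocalRing B] [Algebra 𝒪 B]
  [Finite σ]

theorem mvps_mem_maximalIdeal_iff (f : MvPowerSeries σ 𝒪) :
    f ∈ maximalIdeal (MvPowerSeries σ 𝒪) ↔ constantCoeff f ∈ maximalIdeal 𝒪 := by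
  rw [mem_maximalIdeal, mem_maximalIdeal, mem_nonunits_iff, mem_nonunits_iff,
    MvPowerSeries.isUnit_iff_constantCoeff]

theorem mvps_X_mem_maximalIdeal (l : σ) :
    (X l : MvPowerSeries σ 𝒪) ∈ maximalIdeal (MvPowerSeries σ 𝒪) := by
  rw [mvps_mem_maximalIdeal_iff]; simp

theorem mvps_isLocalHom_algebraMap : IsLocalHom (algebraMap 𝒪 (MvPowerSeries σ 𝒪)) := by
  constructor
  intro a ha
  rw [MvPowerSeries.isUnit_iff_constantCoeff] at ha
  simpa [MvPowerSeries.algebraMap_apply] using ha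

theorem mvps_residue_surjective :
    Function.Surjective (residue (MvPowerSeries σ 𝒪) ∘ algebraMap 𝒪 (MvPowerSeries σ 𝒪)) := by
  intro x
  obtain ⟨f, rfl⟩ := residue_surjective x
  refine ⟨constantCoeff f, ?_⟩
  rw [Function.comp_apply, ← sub_eq_zero, ← map_sub, residue_eq_zero_iff,
    mvps_mem_maximalIdeal_iff]
  simp [MvPowerSeries.algebraMap_apply]

/-- an `𝒪`-algebra hom from power series sending the variables into the maximal ideal sends `f` to
`algebraMap (constantCoeff f)` modulo the maximal ideal. -/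
theorem algHom_sub_constantCoeff_mem (φ : MvPowerSeries σ 𝒪 →ₐ[𝒪] B)
    (hφ : ∀ l, φ (X l) ∈ maximalIdeal B) (f : MvPowerSeries σ 𝒪) :
    φ f - algebraMap 𝒪 B (constantCoeff f) ∈ maximalIdeal B := by
  have h1 := algHom_mem_pow (maximalIdeal B) φ hφ 1 _ (sub_truncTotal_mem 1 f)
  have h2 : (truncTotal 1 f : MvPolynomial σ 𝒪) = MvPolynomial.C (constantCoeff f) := by
    classical
    ext d
    rw [coeff_truncTotal_eq_ite, MvPolynomial.coeff_C]
    by_cases hd : d = 0
    · subst hd; simp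
    · have : ¬ d.degree < 1 := by
        intro h
        apply hd
        have h0 : d.degree = 0 := by omega
        exact (Finsupp.degree_eq_zero_iff d).1 h0
      rw [if_neg this, if_neg (Ne.symm hd)]
  rw [h2, pow_one, map_sub, MvPolynomial.coe_C] at h1
  have h3 : φ (C (constantCoeff f)) = algebraMap 𝒪 B (constantCoeff f) := by
    rw [← φ.commutes]; rfl
  rwa [h3] at h1

theorem algHom_isLocalHom [IsLocalHom (algebraMap 𝒪 B)] (φ : MvPowerSeries σ 𝒪 →ₐ[𝒪] B)
    (hφ : ∀ l, φ (X l) ∈ maximalIdeal B) : IsLocalHom (φ : MvPowerSeries σ 𝒪 →+* B) := by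
  constructor
  intro f hf
  rw [MvPowerSeries.isUnit_iff_constantCoeff]
  apply isUnit_of_map_unit (algebraMap 𝒪 B)
  by_contra h
  have h1 : algebraMap 𝒪 B (constantCoeff f) ∈ maximalIdeal B := h
  have h2 := Ideal.add_mem _ (algHom_sub_constantCoeff_mem φ hφ f) h1
  rw [sub_add_cancel] at h2
  exact h2 hf

/-- Surjectivity criterion (T4). -/
theorem algHom_surjective_of_tangent [IsArtinianRing B] [IsLocalHom (algebraMap 𝒪 B)]
    (hres : Function.Surjective (residue B ∘ algebraMap 𝒪 B))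
    (φ : MvPowerSeries σ 𝒪 →ₐ[𝒪] B) (hφ : ∀ l, φ (X l) ∈ maximalIdeal B)
    (h : maximalIdeal B ≤ Ideal.span (Set.range fun l => φ (X l)) ⊔
      Ideal.map (algebraMap 𝒪 B) (maximalIdeal 𝒪) ⊔ maximalIdeal B ^ 2) :
    Function.Surjective φ := by
  set T : Set B := (Set.range fun l => φ (X l)) ∪ (algebraMap 𝒪 B '' (maximalIdeal 𝒪 : Set 𝒪))
    with hTdef
  have hspan : Ideal.span T = Ideal.span (Set.range fun l => φ (X l)) ⊔
      Ideal.map (algebraMap 𝒪 B) (maximalIdeal 𝒪) := by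
    rw [hTdef, Ideal.span_union]; rfl
  have hTm : T ⊆ maximalIdeal B := by
    rintro _ (⟨l, rfl⟩ | ⟨c, hc, rfl⟩)
    · exact hφ l
    · exact map_nonunit (algebraMap 𝒪 B) c hc
  have hm : maximalIdeal B = Ideal.span T :=
    maximalIdeal_eq_span_of_le_sup_sq T hTm (by rw [hspan]; exact h)
  have hTS : T ⊆ φ.range := by
    rintro _ (⟨l, rfl⟩ | ⟨c, _, rfl⟩)
    · exact ⟨X l, rfl⟩
    · exact φ.range.algebraMap_mem c
  have htop := subalgebra_eq_top_of_nilpotent φ.range hres T hTS hm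
    (IsArtinianRing.isNilpotent_jacobson_bot (R := B) |> fun hn => by
      rwa [IsLocalRing.jacobson_eq_maximalIdeal ⊥ bot_ne_top] at hn)
  intro b
  have : b ∈ φ.range := by rw [htop]; trivial
  exact this

end Tools

end Fermat.Agent.S53
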