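import Fermat.Agent.S53.Good
import Fermat.Agent.S53.Canonical

set_option autoImplicit false
set_option linter.style.haveILetI false
set_option linter.unusedSectionVars false

open IsLocalRing GaloisRep

namespace Fermat.Agent.S53

variable {𝒪 : Type} [CommRing 𝒪] [IsLocalRing 𝒪] (C : Ctx 𝒪)

namespace Ctx

theorem evbar_lin (c : GQ →₀ 𝒪) (i j : Fin 2) : C.evbar (lin c C.MU i j) = lin c C.Mbar i j := by
  have h := congrFun (congrFun (lin_map c C.MU C.evbar) i) j
  rw [Matrix.map_apply] at h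
  rw [h]
  congr 2
  funext g
  ext i j
  exact C.evbar_MU g i j

theorem lin_a_00 : lin C.a C.MU 0 0 - 1 ∈ C.𝔪 := by
  rw [mem_𝔪, map_sub, evbar_lin, C.ha00, map_one, sub_self]

theorem lin_a_11 : lin C.a C.MU 1 1 ∈ C.𝔪 := by
  rw [mem_𝔪, evbar_lin, C.ha11]

variable {B : Type} [CommRing B] [IsLocalRing B] [Algebra 𝒪 B]

theorem lin_mapM (c : GQ →₀ 𝒪) (e : C.P →ₐ[𝒪] B) (i j : Fin 2) :
    lin c (mapM (e : C.P →+* B) C.MU) i j = e (lin c C.MU i j) := by
  have h := congrFun (congrFun (lin_map c C.MU e) i) j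
  rw [Matrix.map_apply] at h
  rw [h]
  rfl

/-- Rigidity: two classifying maps with conjugate representations agree. -/
theorem hom_eq_of_conj (e e' : C.P →ₐ[𝒪] B)
    (hl : C.𝔪 ≤ (maximalIdeal B).comap (e : C.P →+* B))
    (hl' : C.𝔪 ≤ (maximalIdeal B).comap (e' : C.P →+* B))
    (N : Matrix (Fin 2) (Fin 2) B) (hN : IsUnit N)
    (h : ∀ σ, N * mapM (e : C.P →+* B) C.MU σ = mapM (e' : C.P →+* B) C.MU σ * N) : e = e' := by
  have hX : ∀ c : GQ →₀ 𝒪, N * lin c (mapM (e : C.P →+* B) C.MU) =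
      lin c (mapM (e' : C.P →+* B) C.MU) * N := by
    intro c
    rw [mul_lin, lin_mul]
    congr 1
    funext σ
    exact h σ
  have hc := Puniv.isCanon_mapM e
  have hc' := Puniv.isCanon_mapM e'
  obtain ⟨c, hcu, hcN⟩ := canonical_rigid N _ _ _ _ hN (hX C.a) (hX C.b) hc.1 hc.2.1 hc'.1 hc'.2.1
    (by rw [lin_mapM]
        have := hl C.lin_a_00
        rw [Ideal.mem_comap, map_sub, map_one] at this
        exact this)
    (by rw [lin_mapM]; exact hl C.lin_a_11)
    (by rw [lin_mapM]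
        have := hl' C.lin_a_00
        rw [Ideal.mem_comap, map_sub, map_one] at this
        exact this)
    (by rw [lin_mapM]; exact hl' C.lin_a_11) hc.2.2 hc'.2.2
  apply Puniv.hom_ext
  intro g i j
  have h1 := congrFun (congrFun (h g) i) j
  rw [hcN] at h1
  simp only [Matrix.smul_mul, Matrix.mul_smul, Matrix.one_mul, Matrix.mul_one, Matrix.smul_apply,
    smul_eq_mul, mapM_apply, Matrix.map_apply] at h1
  exact hcu.mul_left_cancel h1

end Ctx

theorem lin_map' {𝒪 B B' : Type} [CommRing 𝒪] [CommRing B] [Algebra 𝒪 B] [CommRing B']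
    [Algebra 𝒪 B'] (a : GQ →₀ 𝒪) (M : GQ → Matrix (Fin 2) (Fin 2) B) (φ : B →+* B')
    (hφ : ∀ c, φ (algebraMap 𝒪 B c) = algebraMap 𝒪 B' c) (i j : Fin 2) :
    φ (lin a M i j) = lin a (fun g => (M g).map φ) i j := by
  simp only [Matrix.map_apply, lin_apply, Finsupp.sum, map_sum, map_mul, hφ]

theorem mul_mul_mem_of_mem {B : Type} [CommRing B] (I : Ideal B) (N K N' : Matrix (Fin 2) (Fin 2) B)
    (hK : ∀ i j, K i j ∈ I) (i j : Fin 2) : (N * K * N') i j ∈ I := by
  rw [Matrix.mul_apply]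
  refine Ideal.sum_mem _ fun l _ => Ideal.mul_mem_right _ _ ?_
  rw [Matrix.mul_apply]
  exact Ideal.sum_mem _ fun l' _ => Ideal.mul_mem_left _ _ (hK l' l)

/-- conjugate of a matrix representation -/
noncomputable def conjM {B : Type} [CommRing B] (M : GQ →* Matrix (Fin 2) (Fin 2) B)
    (N N' : Matrix (Fin 2) (Fin 2) B) (h : N * N' = 1) (h' : N' * N = 1) :
    GQ →* Matrix (Fin 2) (Fin 2) B where
  toFun σ := N * M σ * N'
  map_one' := by rw [map_one, mul_one, h]
  map_mul' σ τ := by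
    rw [map_mul]
    calc N * (M σ * M τ) * N' = N * M σ * 1 * M τ * N' := by simp only [mul_one, mul_assoc]
      _ = N * M σ * (N' * N) * M τ * N' := by rw [h']
      _ = N * M σ * N' * (N * M τ * N') := by simp only [mul_assoc]

namespace Ctx

variable {B : Type} [CommRing B] [IsLocalRing B] [Algebra 𝒪 B]

/-- the residue-field criterion for `𝔪 ≤ comap e 𝔪_B` -/
theorem le_comap_of_residue [IsLocalHom (algebraMap 𝒪 B)] (e : C.P →ₐ[𝒪] B)
    (h : mapM (residue B) (mapM (e : C.P →+* B) C.MU) =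
      mapM (ResidueField.map (algebraMap 𝒪 B)) C.Mbar) :
    C.𝔪 ≤ (maximalIdeal B).comap (e : C.P →+* B) := by
  let r : B →ₐ[𝒪] ResidueField B := IsScalarTower.toAlgHom 𝒪 B (ResidueField B)
  let ι : ResidueField 𝒪 →ₐ[𝒪] ResidueField B :=
    { ResidueField.map (algebraMap 𝒪 B) with
      commutes' := fun c => ResidueField.map_residue (algebraMap 𝒪 B) c }
  have h1 : r.comp e = ι.comp C.evbar := by
    apply Puniv.hom_ext
    intro g i j
    have := congrFun (congrFun (congrArg (fun F => F g) (congrArg DFunLike.coe h)) i) j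
    show residue B (e (C.MU g i j)) = ResidueField.map (algebraMap 𝒪 B) (C.evbar (C.MU g i j))
    rw [C.evbar_MU]
    exact this
  intro p hp
  rw [Ideal.mem_comap, ← residue_eq_zero_iff]
  have h2 : r (e p) = ι (C.evbar p) := congrArg (fun F => F p) h1
  rw [(C.mem_𝔪 p).mp hp, map_zero] at h2
  exact h2

theorem residue_of_le_comap [IsLocalHom (algebraMap 𝒪 B)] (e : C.P →ₐ[𝒪] B)
    (h : C.𝔪 ≤ (maximalIdeal B).comap (e : C.P →+* B)) :
    mapM (residue B) (mapM (e : C.P →+* B) C.MU) =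
      mapM (ResidueField.map (algebraMap 𝒪 B)) C.Mbar := by
  ext g i j
  show residue B (e (C.MU g i j)) = ResidueField.map (algebraMap 𝒪 B) (C.Mbar g i j)
  obtain ⟨c, hc⟩ := residue_surjective (C.Mbar g i j)
  rw [← hc, ResidueField.map_residue]
  have h1 : C.MU g i j - algebraMap 𝒪 C.P c ∈ C.𝔪 := by
    rw [mem_𝔪, map_sub, evbar_MU, evbar_algebraMap, hc, sub_self]
  have h2 := h h1
  rw [Ideal.mem_comap, map_sub, ← residue_eq_zero_iff, map_sub, sub_eq_zero] at h2
  refine h2.trans ?_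
  congr 1
  exact e.commutes c

/-- Existence of the canonical form. -/
theorem exists_canon [IsLocalHom (algebraMap 𝒪 B)] [IsAdicComplete (maximalIdeal B) B]
    (M : GQ →* Matrix (Fin 2) (Fin 2) B) (hM : MatCont B M)
    (hl : mapM (residue B) M = mapM (ResidueField.map (algebraMap 𝒪 B)) C.Mbar) :
    ∃ (e : C.P →ₐ[𝒪] B) (hc : MatCont B (mapM (e : C.P →+* B) C.MU)),
      C.𝔪 ≤ (maximalIdeal B).comap (e : C.P →+* B) ∧
      (ofMat M hM).IsEquiv (ofMat (mapM (e : C.P →+* B) C.MU) hc) := by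
  -- residues of the entries of `lin c M`
  have hres : ∀ (c : GQ →₀ 𝒪) (i j : Fin 2), residue B (lin c M i j) =
      ResidueField.map (algebraMap 𝒪 B) (lin c C.Mbar i j) := by
    intro c i j
    rw [lin_map' c M (residue B) (fun _ => rfl),
      lin_map' c C.Mbar (ResidueField.map (algebraMap 𝒪 B))
        (fun x => ResidueField.map_residue (algebraMap 𝒪 B) x)]
    congr 2
    funext g
    exact congrArg (fun F => F g) (congrArg DFunLike.coe hl)
  obtain ⟨N, N', hNN', hN'N, hN1, h01, h10, hy⟩ := canonical_exists (lin C.a M) (lin C.b M)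
    (by rw [← residue_eq_zero_iff, map_sub, hres, C.ha00, map_one, map_one, sub_self])
    (by rw [← residue_eq_zero_iff, hres, C.ha01, map_zero])
    (by rw [← residue_eq_zero_iff, hres, C.ha10, map_zero])
    (by rw [← residue_eq_zero_iff, hres, C.ha11, map_zero])
    (by rw [← residue_eq_zero_iff, map_sub, hres, C.hb, map_one, map_one, sub_self])
  have hlin : ∀ c : GQ →₀ 𝒪, lin c (conjM M N N' hNN' hN'N) = N * lin c M * N' := by
    intro c
    rw [mul_lin, lin_mul]
    rfl
  have hcanon : IsCanon C.a C.b (conjM M N N' hNN' hN'N) := by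
    refine ⟨?_, ?_, ?_⟩
    · rw [hlin]; exact h01
    · rw [hlin]; exact h10
    · rw [hlin]; exact hy
  have hmap : mapM ((Puniv.lift _ hcanon : C.P →ₐ[𝒪] B) : C.P →+* B) C.MU = conjM M N N' hNN' hN'N :=
    Puniv.mapM_lift _ hcanon
  have hcont : MatCont B (conjM M N N' hNN' hN'N) := by
    intro n
    obtain ⟨L, hL, h⟩ := hM n
    refine ⟨L, hL, fun σ hσ i j => ?_⟩
    have h1 : conjM M N N' hNN' hN'N σ - 1 = N * (M σ - 1) * N' := by
      show N * M σ * N' - 1 = _
      rw [mul_sub, sub_mul, mul_one, hNN']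
    rw [h1]
    exact mul_mul_mem_of_mem _ _ _ _ (h σ hσ) i j
  refine ⟨Puniv.lift _ hcanon, by rw [hmap]; exact hcont, ?_, ?_⟩
  · apply C.le_comap_of_residue
    rw [hmap, ← hl]
    have hNres : N.map (residue B) = 1 := by
      ext i j
      have := hN1 i j
      rw [← residue_eq_zero_iff, Matrix.sub_apply, map_sub, sub_eq_zero] at this
      rw [Matrix.map_apply, this, Matrix.one_apply, Matrix.one_apply]
      split_ifs <;> simp
    have hN'res : N'.map (residue B) = 1 := by
      have h2 := congrArg (fun K => K.map (residue B)) hNN'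
      simp only [Matrix.map_mul, hNres, one_mul] at h2
      rw [h2]
      ext i j
      rw [Matrix.map_apply, Matrix.one_apply, Matrix.one_apply]
      split_ifs <;> simp
    ext σ i j
    have h3 : (N * M σ * N').map (residue B) = (M σ).map (residue B) := by
      rw [Matrix.map_mul, Matrix.map_mul, hNres, hN'res, one_mul, mul_one]
    exact congrFun (congrFun h3 i) j
  · rw [ofMat_congr hmap (by rw [hmap]; exact hcont) hcont]
    rw [ofMat_isEquiv_iff]
    refine ⟨N, ⟨⟨N, N', hNN', hN'N⟩, rfl⟩, fun σ => ?_⟩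
    show N * M σ = N * M σ * N' * N
    rw [mul_assoc (N * M σ), hN'N, mul_one]

end Ctx

end Fermat.Agent.S53
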