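import Fermat.Agent.S53.Defs

set_option autoImplicit false

open IsLocalRing

namespace Fermat.Agent.S53

section lin

variable {𝒪 B B' : Type} [CommRing 𝒪] [CommRing B] [Algebra 𝒪 B] [CommRing B'] [Algebra 𝒪 B']

theorem lin_apply (a : GQ →₀ 𝒪) (M : GQ → Matrix (Fin 2) (Fin 2) B) (i j : Fin 2) :
    lin a M i j = a.sum fun g c => algebraMap 𝒪 B c * M g i j := by
  simp only [lin, Finsupp.sum, Matrix.sum_apply, Matrix.smul_apply, smul_eq_mul]

theorem lin_map (a : GQ →₀ 𝒪) (M : GQ → Matrix (Fin 2) (Fin 2) B) (φ : B →ₐ[𝒪] B') :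
    (lin a M).map φ = lin a (fun g => (M g).map φ) := by
  ext i j
  simp only [Matrix.map_apply, lin_apply, Finsupp.sum, map_sum, map_mul, AlgHom.commutes]

theorem mul_lin (a : GQ →₀ 𝒪) (M : GQ → Matrix (Fin 2) (Fin 2) B)
    (N : Matrix (Fin 2) (Fin 2) B) : N * lin a M = lin a (fun g => N * M g) := by
  simp only [lin, Finsupp.sum, Finset.mul_sum, Matrix.mul_smul]

theorem lin_mul (a : GQ →₀ 𝒪) (M : GQ → Matrix (Fin 2) (Fin 2) B)
    (N : Matrix (Fin 2) (Fin 2) B) : lin a M * N = lin a (fun g => M g * N) := by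
  simp only [lin, Finsupp.sum, Finset.sum_mul, Matrix.smul_mul]

theorem lin_sub_mem (a : GQ →₀ 𝒪) (M M' : GQ → Matrix (Fin 2) (Fin 2) B) (I : Ideal B)
    (h : ∀ g i j, M g i j - M' g i j ∈ I) (i j : Fin 2) : lin a M i j - lin a M' i j ∈ I := by
  simp only [lin_apply, Finsupp.sum, ← Finset.sum_sub_distrib, ← mul_sub]
  exact Ideal.sum_mem _ fun g _ => Ideal.mul_mem_left _ _ (h g i j)

/-- The canonical form conditions. -/
def IsCanon (a b : GQ →₀ 𝒪) (M : GQ → Matrix (Fin 2) (Fin 2) B) : Prop :=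
  lin a M 0 1 = 0 ∧ lin a M 1 0 = 0 ∧ lin b M 1 0 = 1

theorem IsCanon.map {a b : GQ →₀ 𝒪} {M : GQ →* Matrix (Fin 2) (Fin 2) B} (h : IsCanon a b M)
    (φ : B →ₐ[𝒪] B') : IsCanon a b (mapM (φ : B →+* B') M) := by
  have ha := lin_map a M φ
  have hb := lin_map b M φ
  obtain ⟨h1, h2, h3⟩ := h
  refine ⟨?_, ?_, ?_⟩
  · have := congrFun (congrFun ha 0) 1
    rw [Matrix.map_apply, h1, map_zero] at this
    exact this.symm
  · have := congrFun (congrFun ha 1) 0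
    rw [Matrix.map_apply, h2, map_zero] at this
    exact this.symm
  · have := congrFun (congrFun hb 1) 0
    rw [Matrix.map_apply, h3, map_one] at this
    exact this.symm

end lin

section univ

variable (𝒪 : Type) [CommRing 𝒪] (a b : GQ →₀ 𝒪)

/-- The big polynomial ring. -/
abbrev Pol : Type := MvPolynomial (GQ × Fin 2 × Fin 2) 𝒪

/-- The generic matrices. -/
noncomputable def genMat (g : GQ) : Matrix (Fin 2) (Fin 2) (Pol 𝒪) :=
  Matrix.of fun i j => MvPolynomial.X (g, i, j)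

/-- The relations: multiplicativity and canonical form. -/
def relSet : Set (Pol 𝒪) :=
  {p | ∃ g h i j, p = (genMat 𝒪 (g * h) - genMat 𝒪 g * genMat 𝒪 h) i j} ∪
  {p | ∃ i j, p = (genMat 𝒪 1 - 1) i j} ∪
  {lin a (genMat 𝒪) 0 1, lin a (genMat 𝒪) 1 0, lin b (genMat 𝒪) 1 0 - 1}

/-- The universal ring for canonical matrix representations. -/
def Puniv : Type := Pol 𝒪 ⧸ Ideal.span (relSet 𝒪 a b)

noncomputable instance : CommRing (Puniv 𝒪 a b) :=
  inferInstanceAs (CommRing (Pol 𝒪 ⧸ Ideal.span (relSet 𝒪 a b)))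

noncomputable instance : Algebra 𝒪 (Puniv 𝒪 a b) :=
  inferInstanceAs (Algebra 𝒪 (Pol 𝒪 ⧸ Ideal.span (relSet 𝒪 a b)))

/-- The quotient map. -/
noncomputable def Puniv.mk : Pol 𝒪 →ₐ[𝒪] Puniv 𝒪 a b :=
  Ideal.Quotient.mkₐ 𝒪 (Ideal.span (relSet 𝒪 a b))

theorem Puniv.mk_surjective : Function.Surjective (Puniv.mk 𝒪 a b) :=
  Ideal.Quotient.mkₐ_surjective 𝒪 _

theorem Puniv.mk_eq_zero {p : Pol 𝒪} (hp : p ∈ relSet 𝒪 a b) : Puniv.mk 𝒪 a b p = 0 :=
  Ideal.Quotient.eq_zero_iff_mem.mpr (Ideal.subset_span hp)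

/-- The universal canonical matrix representation. -/
noncomputable def Muniv : GQ →* Matrix (Fin 2) (Fin 2) (Puniv 𝒪 a b) where
  toFun g := (genMat 𝒪 g).map (Puniv.mk 𝒪 a b)
  map_one' := by
    ext i j
    have h : Puniv.mk 𝒪 a b ((genMat 𝒪 1 - 1) i j) = 0 :=
      Puniv.mk_eq_zero 𝒪 a b (Or.inl (Or.inr ⟨i, j, rfl⟩))
    rw [Matrix.sub_apply, map_sub, sub_eq_zero] at h
    rw [Matrix.map_apply, h, Matrix.one_apply, Matrix.one_apply]
    split_ifs <;> simp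
  map_mul' g h := by
    ext i j
    have h1 : Puniv.mk 𝒪 a b ((genMat 𝒪 (g * h) - genMat 𝒪 g * genMat 𝒪 h) i j) = 0 :=
      Puniv.mk_eq_zero 𝒪 a b (Or.inl (Or.inl ⟨g, h, i, j, rfl⟩))
    rw [Matrix.sub_apply, map_sub, sub_eq_zero] at h1
    rw [Matrix.map_apply, h1, Matrix.mul_apply, Matrix.mul_apply, map_sum]
    simp only [map_mul, Matrix.map_apply]

theorem Muniv_apply (g : GQ) (i j : Fin 2) :
    Muniv 𝒪 a b g i j = Puniv.mk 𝒪 a b (MvPolynomial.X (g, i, j)) := rfl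

theorem Muniv_isCanon : IsCanon a b (Muniv 𝒪 a b) := by
  have ha := lin_map a (genMat 𝒪) (Puniv.mk 𝒪 a b)
  have hb := lin_map b (genMat 𝒪) (Puniv.mk 𝒪 a b)
  refine ⟨?_, ?_, ?_⟩
  · have := congrFun (congrFun ha 0) 1
    rw [Matrix.map_apply, Puniv.mk_eq_zero 𝒪 a b (Or.inr (by simp))] at this
    exact this.symm
  · have := congrFun (congrFun ha 1) 0
    rw [Matrix.map_apply, Puniv.mk_eq_zero 𝒪 a b (Or.inr (by simp))] at this
    exact this.symm
  · have := congrFun (congrFun hb 1) 0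
    have h0 : Puniv.mk 𝒪 a b (lin b (genMat 𝒪) 1 0 - 1) = 0 :=
      Puniv.mk_eq_zero 𝒪 a b (Or.inr (by simp))
    rw [map_sub, map_one, sub_eq_zero] at h0
    rw [Matrix.map_apply, h0] at this
    exact this.symm

variable {𝒪 a b}
variable {B : Type} [CommRing B] [Algebra 𝒪 B]

/-- evaluation of polynomials at a matrix family -/
noncomputable def evalPol (M : GQ → Matrix (Fin 2) (Fin 2) B) : Pol 𝒪 →ₐ[𝒪] B :=
  MvPolynomial.aeval fun x => M x.1 x.2.1 x.2.2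

theorem genMat_map_evalPol (M : GQ → Matrix (Fin 2) (Fin 2) B) (g : GQ) :
    (genMat 𝒪 g).map (evalPol (𝒪 := 𝒪) M) = M g := by
  ext i j
  simp [genMat, evalPol]

theorem evalPol_relSet (M : GQ →* Matrix (Fin 2) (Fin 2) B) (hM : IsCanon a b M) :
    ∀ p ∈ Ideal.span (relSet 𝒪 a b), evalPol (𝒪 := 𝒪) M p = 0 := by
  intro p hp
  have hle : Ideal.span (relSet 𝒪 a b) ≤ RingHom.ker (evalPol (𝒪 := 𝒪) M : Pol 𝒪 →+* B) := by
    rw [Ideal.span_le]
    have hlin : ∀ c : GQ →₀ 𝒪, ∀ i j, evalPol (𝒪 := 𝒪) M (lin c (genMat 𝒪) i j) = lin c M i j := by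
      intro c i j
      have := congrFun (congrFun (lin_map c (genMat 𝒪) (evalPol (𝒪 := 𝒪) M)) i) j
      rw [Matrix.map_apply] at this
      rw [this]
      simp only [genMat_map_evalPol]
    rintro q ((⟨g, h, i, j, rfl⟩ | ⟨i, j, rfl⟩) | hq)
    · have h1 : ((genMat 𝒪 (g * h) - genMat 𝒪 g * genMat 𝒪 h).map (evalPol (𝒪 := 𝒪) M)) = 0 := by
        have := (RingHom.mapMatrix (m := Fin 2) (evalPol (𝒪 := 𝒪) M : Pol 𝒪 →+* B)).map_sub
          (genMat 𝒪 (g * h)) (genMat 𝒪 g * genMat 𝒪 h)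
        rw [map_mul] at this
        simp only [RingHom.mapMatrix_apply, RingHom.coe_coe, genMat_map_evalPol, map_mul,
          sub_self] at this
        exact this
      exact congrFun (congrFun h1 i) j
    · have h1 : ((genMat 𝒪 1 - 1).map (evalPol (𝒪 := 𝒪) M)) = 0 := by
        have := (RingHom.mapMatrix (m := Fin 2) (evalPol (𝒪 := 𝒪) M : Pol 𝒪 →+* B)).map_sub
          (genMat 𝒪 1) 1
        rw [map_one] at this
        simp only [RingHom.mapMatrix_apply, RingHom.coe_coe, genMat_map_evalPol, map_one,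
          sub_self] at this
        exact this
      exact congrFun (congrFun h1 i) j
    · simp only [Set.mem_insert_iff, Set.mem_singleton_iff] at hq
      rcases hq with rfl | rfl | rfl
      · show evalPol (𝒪 := 𝒪) M _ = 0
        rw [hlin, hM.1]
      · show evalPol (𝒪 := 𝒪) M _ = 0
        rw [hlin, hM.2.1]
      · show evalPol (𝒪 := 𝒪) M _ = 0
        rw [map_sub, hlin, hM.2.2, map_one, sub_self]
  exact hle hp

/-- The classifying map of a canonical matrix representation. -/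
noncomputable def Puniv.lift (M : GQ →* Matrix (Fin 2) (Fin 2) B) (hM : IsCanon a b M) :
    Puniv 𝒪 a b →ₐ[𝒪] B :=
  Ideal.Quotient.liftₐ (Ideal.span (relSet 𝒪 a b)) (evalPol (𝒪 := 𝒪) M) (evalPol_relSet M hM)

theorem Puniv.lift_Muniv_apply (M : GQ →* Matrix (Fin 2) (Fin 2) B) (hM : IsCanon a b M)
    (g : GQ) (i j : Fin 2) : Puniv.lift M hM (Muniv 𝒪 a b g i j) = M g i j := by
  rw [Muniv_apply]
  show Ideal.Quotient.liftₐ _ _ _ (Ideal.Quotient.mkₐ 𝒪 _ _) = _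
  rw [Ideal.Quotient.liftₐ_apply, Ideal.Quotient.mkₐ_eq_mk, Ideal.Quotient.lift_mk]
  simp [evalPol]

theorem Puniv.mapM_lift (M : GQ →* Matrix (Fin 2) (Fin 2) B) (hM : IsCanon a b M) :
    mapM (Puniv.lift M hM : Puniv 𝒪 a b →+* B) (Muniv 𝒪 a b) = M := by
  ext g i j
  exact Puniv.lift_Muniv_apply M hM g i j

theorem Puniv.hom_ext {e e' : Puniv 𝒪 a b →ₐ[𝒪] B}
    (h : ∀ g i j, e (Muniv 𝒪 a b g i j) = e' (Muniv 𝒪 a b g i j)) : e = e' := by
  have h1 : e.comp (Puniv.mk 𝒪 a b) = e'.comp (Puniv.mk 𝒪 a b) := by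
    apply MvPolynomial.algHom_ext
    rintro ⟨g, i, j⟩
    exact h g i j
  ext x
  obtain ⟨p, rfl⟩ := Puniv.mk_surjective 𝒪 a b x
  exact congrArg (fun f => f p) h1

theorem Puniv.isCanon_mapM (e : Puniv 𝒪 a b →ₐ[𝒪] B) :
    IsCanon a b (mapM (e : Puniv 𝒪 a b →+* B) (Muniv 𝒪 a b)) :=
  (Muniv_isCanon 𝒪 a b).map e

end univ

end Fermat.Agent.S53
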